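import Fermat.Agent.S53b.Defs

/-!
# S53b / P1: basic facts on Artinian test algebras
-/

set_option autoImplicit false

namespace Fermat.Agent.S53b

open IsLocalRing

namespace TestAlg

/-- The maximal ideal of an Artinian local ring is nilpotent. -/
theorem exists_pow_eq_bot_of_artinian (A : Type) [CommRing A] [IsLocalRing A]
    [IsArtinianRing A] : ∃ n : ℕ, maximalIdeal A ^ n = ⊥ := by
  have h := IsArtinianRing.isNilpotent_jacobson_bot (R := A)
  rw [IsLocalRing.jacobson_eq_maximalIdeal ⊥ bot_ne_top] at h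
  obtain ⟨n, hn⟩ := h
  exact ⟨n, hn⟩

section

variable {𝒪 : Type} [CommRing 𝒪]

/-- A surjective image (as a local ring) of an algebra with local structure map has local
structure map. -/
theorem isLocalHom_algebraMap_of_surjective {A B : Type} [CommRing A] [IsLocalRing A]
    [Algebra 𝒪 A] [CommRing B] [IsLocalRing B] [Algebra 𝒪 B]
    (h : IsLocalHom (algebraMap 𝒪 A)) (φ : A →ₐ[𝒪] B) (hφ : Function.Surjective φ) :
    IsLocalHom (algebraMap 𝒪 B) := by
  have : IsLocalHom (φ : A →+* B) := IsLocalHom.of_surjective (φ : A →+* B) hφ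
  constructor
  intro o ho
  have h1 : IsUnit ((φ : A →+* B) (algebraMap 𝒪 A o)) := by
    have : (φ : A →+* B) (algebraMap 𝒪 A o) = algebraMap 𝒪 B o := φ.commutes o
    rw [this]; exact ho
  have h2 : IsUnit (algebraMap 𝒪 A o) := isUnit_of_map_unit (φ : A →+* B) _ h1
  exact isUnit_of_map_unit (algebraMap 𝒪 A) o h2

/-- Residue surjectivity passes to surjective images. -/
theorem residue_surjective_of_surjective {A B : Type} [CommRing A] [IsLocalRing A]
    [Algebra 𝒪 A] [CommRing B] [IsLocalRing B] [Algebra 𝒪 B]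
    (h : Function.Surjective (residue A ∘ algebraMap 𝒪 A)) (φ : A →ₐ[𝒪] B)
    (hφ : Function.Surjective φ) :
    Function.Surjective (residue B ∘ algebraMap 𝒪 B) := by
  have : IsLocalHom (φ : A →+* B) := IsLocalHom.of_surjective (φ : A →+* B) hφ
  intro b
  obtain ⟨b, rfl⟩ := IsLocalRing.residue_surjective b
  obtain ⟨a, rfl⟩ := hφ b
  obtain ⟨o, ho⟩ := h (residue A a)
  refine ⟨o, ?_⟩
  have h1 : algebraMap 𝒪 A o - a ∈ maximalIdeal A := by
    rw [← IsLocalRing.residue_eq_zero_iff, map_sub, sub_eq_zero]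
    exact ho
  have h2 : (φ : A →+* B) (algebraMap 𝒪 A o - a) ∈ maximalIdeal B :=
    map_nonunit (φ : A →+* B) _ h1
  have h3 : (φ : A →+* B) (algebraMap 𝒪 A o - a) = algebraMap 𝒪 B o - φ a := by
    rw [map_sub]
    congr 1
    exact φ.commutes o
  rw [h3, ← IsLocalRing.residue_eq_zero_iff, map_sub, sub_eq_zero] at h2
  exact h2

/-- Approximation step: modulo `𝔪^(j+1)`, every element of `𝔪^j` lies in the subalgebra
generated by a family spanning `𝔪`. -/
theorem adjoin_approx_step {A : Type} [CommRing A] [IsLocalRing A]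
    [Algebra 𝒪 A] (hres : Function.Surjective (residue A ∘ algebraMap 𝒪 A))
    {ι : Type} (y : ι → A) (hy : Ideal.span (Set.range y) = maximalIdeal A) (j : ℕ) :
    ∀ a ∈ maximalIdeal A ^ j, ∃ s ∈ Algebra.adjoin 𝒪 (Set.range y),
      a - s ∈ maximalIdeal A ^ (j + 1) := by
  induction j with
  | zero =>
    intro a _
    obtain ⟨o, ho⟩ := hres (residue A a)
    refine ⟨algebraMap 𝒪 A o, Subalgebra.algebraMap_mem _ o, ?_⟩
    rw [zero_add, pow_one, ← IsLocalRing.residue_eq_zero_iff, map_sub, sub_eq_zero]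
    exact ho.symm
  | succ j ih =>
    -- the key claim, for products `u * v` with `u ∈ 𝔪^j`, `v ∈ 𝔪 = span (range y)`
    have key : ∀ v ∈ Ideal.span (Set.range y), ∀ u ∈ maximalIdeal A ^ j,
        ∃ s ∈ Algebra.adjoin 𝒪 (Set.range y), u * v - s ∈ maximalIdeal A ^ (j + 1 + 1) := by
      intro v hv
      induction hv using Submodule.span_induction with
      | mem v hv =>
        obtain ⟨i, rfl⟩ := hv
        intro u hu
        obtain ⟨s, hs, hus⟩ := ih u hu
        refine ⟨s * y i, Subalgebra.mul_mem _ hs (Algebra.subset_adjoin ⟨i, rfl⟩), ?_⟩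
        have hyi : y i ∈ maximalIdeal A := by
          rw [← hy]; exact Ideal.subset_span ⟨i, rfl⟩
        have : u * y i - s * y i = (u - s) * y i := by ring
        rw [this, pow_succ (maximalIdeal A) (j + 1)]
        exact Ideal.mul_mem_mul hus hyi
      | zero =>
        intro u _
        exact ⟨0, Subalgebra.zero_mem _, by simp⟩
      | add v w _ _ hv hw =>
        intro u hu
        obtain ⟨s, hs, hus⟩ := hv u hu
        obtain ⟨t, ht, hut⟩ := hw u hu
        refine ⟨s + t, Subalgebra.add_mem _ hs ht, ?_⟩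
        have : u * (v + w) - (s + t) = (u * v - s) + (u * w - t) := by ring
        rw [this]
        exact Ideal.add_mem _ hus hut
      | smul c v _ hv =>
        intro u hu
        obtain ⟨s, hs, hus⟩ := hv (u * c) (Ideal.mul_mem_right c _ hu)
        refine ⟨s, hs, ?_⟩
        have : u * (c • v) - s = u * c * v - s := by rw [smul_eq_mul]; ring
        rw [this]
        exact hus
    intro a ha
    rw [pow_succ] at ha
    refine Submodule.mul_induction_on ha ?_ ?_
    · intro u hu v hv
      rw [← hy] at hv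
      exact key v hv u hu
    · intro a b ha hb
      obtain ⟨s, hs, has⟩ := ha
      obtain ⟨t, ht, hbt⟩ := hb
      refine ⟨s + t, Subalgebra.add_mem _ hs ht, ?_⟩
      have : a + b - (s + t) = (a - s) + (b - t) := by ring
      rw [this]
      exact Ideal.add_mem _ has hbt

/-- Every element is approximated modulo `𝔪^j` by the subalgebra generated by a family
spanning `𝔪`. -/
theorem adjoin_approx {A : Type} [CommRing A] [IsLocalRing A]
    [Algebra 𝒪 A] (hres : Function.Surjective (residue A ∘ algebraMap 𝒪 A))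
    {ι : Type} (y : ι → A) (hy : Ideal.span (Set.range y) = maximalIdeal A) (j : ℕ) (a : A) :
    ∃ s ∈ Algebra.adjoin 𝒪 (Set.range y), a - s ∈ maximalIdeal A ^ j := by
  induction j with
  | zero => exact ⟨0, Subalgebra.zero_mem _, by simp⟩
  | succ j ih =>
    obtain ⟨s, hs, has⟩ := ih
    obtain ⟨t, ht, hat⟩ := adjoin_approx_step hres y hy j (a - s) has
    refine ⟨s + t, Subalgebra.add_mem _ hs ht, ?_⟩
    have : a - (s + t) = a - s - t := by ring
    rw [this]
    exact hat

end

/-- In a finite ring, an element of a subalgebra which is a unit of the ambient ring is a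
unit of the subalgebra (its inverse is a power of it). -/
theorem isUnit_subalgebra_of_isUnit {R A : Type} [CommRing R] [CommRing A] [Algebra R A]
    [Finite A] (S : Subalgebra R A) (a : A) (ha : a ∈ S) (hu : IsUnit a) :
    IsUnit (⟨a, ha⟩ : S) := by
  obtain ⟨u, rfl⟩ := hu
  have h1 : u ^ Nat.card Aˣ = 1 := pow_card_eq_one'
  have hpos : 0 < Nat.card Aˣ := Nat.card_pos
  obtain ⟨m, hm⟩ := Nat.exists_eq_succ_of_ne_zero hpos.ne'
  have h2 : (u : A) * (u : A) ^ m = 1 := by
    rw [← pow_succ', ← Nat.succ_eq_add_one, ← hm, ← Units.val_pow_eq_pow_val, h1, Units.val_one]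
  refine IsUnit.of_mul_eq_one ((⟨(u : A), ha⟩ : S) ^ m) ?_
  apply Subtype.ext
  simpa using h2

/-- A subalgebra of a finite local ring is a local ring. -/
theorem isLocalRing_subalgebra {R A : Type} [CommRing R] [CommRing A] [IsLocalRing A]
    [Algebra R A] [Finite A] (S : Subalgebra R A) : IsLocalRing S := by
  have hnt : Nontrivial S := ⟨⟨0, 1, fun h => zero_ne_one (congrArg Subtype.val h)⟩⟩
  refine IsLocalRing.of_isUnit_or_isUnit_one_sub_self fun a => ?_
  rcases IsLocalRing.isUnit_or_isUnit_one_sub_self (a : A) with h | h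
  · exact Or.inl (isUnit_subalgebra_of_isUnit S a.1 a.2 h)
  · exact Or.inr (isUnit_subalgebra_of_isUnit S (1 - a : S).1 (1 - a : S).2 h)

end TestAlg

section

variable {𝒪 : Type} [CommRing 𝒪] [IsLocalRing 𝒪]

/-- Test algebras are finite rings (the residue field is finite). -/
theorem IsATA.finite [Finite (ResidueField 𝒪)] {A : Type} [CommRing A] [IsLocalRing A]
    [Algebra 𝒪 A] (h : IsATA 𝒪 A) : Finite A := by
  have := h.isArtinian
  have := h.isLocalHom
  obtain ⟨n, hn⟩ := TestAlg.exists_pow_eq_bot_of_artinian A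
  have : Finite (A ⧸ maximalIdeal A) := by
    have hs : Function.Surjective (IsLocalRing.ResidueField.map (algebraMap 𝒪 A)) := by
      intro b
      obtain ⟨o, ho⟩ := h.residue_surjective b
      exact ⟨residue 𝒪 o, by rw [IsLocalRing.ResidueField.map_residue]; exact ho⟩
    exact Finite.of_surjective _ hs
  have hfg : (maximalIdeal A).FG := IsNoetherian.noetherian _
  have hfin : Finite (A ⧸ maximalIdeal A ^ n) := Ideal.finite_quotient_pow hfg n
  rw [hn] at hfin
  exact Finite.of_equiv _ (RingEquiv.quotientBot A).toEquiv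

/-- The maximal ideal of a test algebra is nilpotent. -/
theorem IsATA.exists_pow_eq_bot {A : Type} [CommRing A] [IsLocalRing A] [Algebra 𝒪 A]
    (h : IsATA 𝒪 A) : ∃ n : ℕ, maximalIdeal A ^ n = ⊥ := by
  have := h.isArtinian
  exact TestAlg.exists_pow_eq_bot_of_artinian A

/-- The residue field of `𝒪` is a test algebra. -/
theorem residueField_isATA : IsATA 𝒪 (ResidueField 𝒪) := by
  refine ⟨?_, ?_, inferInstance⟩
  · rw [IsLocalRing.ResidueField.algebraMap_eq]
    infer_instance
  · rw [IsLocalRing.ResidueField.algebraMap_eq]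
    exact (IsLocalRing.residue_surjective (R := ResidueField 𝒪)).comp
      (IsLocalRing.residue_surjective (R := 𝒪))

/-- An `𝒪`-algebra map into a local `𝒪`-algebra with residue field `k` is local. -/
theorem isLocalHom_of_residue_surjective {A B : Type} [CommRing A] [IsLocalRing A] [Algebra 𝒪 A]
    [CommRing B] [IsLocalRing B] [Algebra 𝒪 B]
    (hB : Function.Surjective (residue B ∘ algebraMap 𝒪 B)) (φ : A →ₐ[𝒪] B) :
    IsLocalHom (φ : A →+* B) := by
  have hψ : Function.Surjective ((residue B).comp (φ : A →+* B)) := by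
    intro b
    obtain ⟨o, ho⟩ := hB b
    refine ⟨algebraMap 𝒪 A o, ?_⟩
    have : (φ : A →+* B) (algebraMap 𝒪 A o) = algebraMap 𝒪 B o := φ.commutes o
    rw [RingHom.comp_apply, this]
    exact ho
  have hker := IsLocalRing.ker_eq_maximalIdeal _ hψ
  refine ((IsLocalRing.local_hom_TFAE (φ : A →+* B)).out 3 0).mp ?_
  intro a ha
  rw [← hker, RingHom.mem_ker, RingHom.comp_apply] at ha
  rw [Ideal.mem_comap, ← IsLocalRing.residue_eq_zero_iff]
  exact ha

/-- A surjective image of a test algebra that is a local ring is a test algebra. -/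
theorem IsATA.of_surjective {A B : Type} [CommRing A] [IsLocalRing A] [Algebra 𝒪 A]
    [CommRing B] [IsLocalRing B] [Algebra 𝒪 B] (h : IsATA 𝒪 A) (φ : A →ₐ[𝒪] B)
    (hφ : Function.Surjective φ) : IsATA 𝒪 B := by
  have := h.isArtinian
  refine ⟨TestAlg.isLocalHom_algebraMap_of_surjective h.isLocalHom φ hφ,
    TestAlg.residue_surjective_of_surjective h.residue_surjective φ hφ, ?_⟩
  exact Function.Surjective.isArtinianRing (f := (φ : A →+* B)) hφ

/-- Nilpotency level passes to surjective images. -/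
theorem pow_eq_bot_of_surjective {A B : Type} [CommRing A] [IsLocalRing A]
    [CommRing B] [IsLocalRing B] (φ : A →+* B) (hφ : Function.Surjective φ) {n : ℕ}
    (h : maximalIdeal A ^ n = ⊥) : maximalIdeal B ^ n = ⊥ := by
  rw [← IsLocalRing.map_maximalIdeal_of_surjective φ hφ, ← Ideal.map_pow, h, Ideal.map_bot]

/-- Quotients of a local ring by a proper ideal are local. -/
theorem isLocalRing_quotient {A : Type} [CommRing A] [IsLocalRing A] (I : Ideal A) (hI : I ≠ ⊤) :
    IsLocalRing (A ⧸ I) := by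
  have : Nontrivial (A ⧸ I) := Ideal.Quotient.nontrivial_iff.mpr hI
  exact IsLocalRing.of_surjective' (Ideal.Quotient.mk I) Ideal.Quotient.mk_surjective

/-- `A ⧸ 𝔪ⁿ` has nilpotency level `n`. -/
theorem maximalIdeal_quotient_pow_eq_bot {A : Type} [CommRing A] [IsLocalRing A] (n : ℕ)
    [IsLocalRing (A ⧸ maximalIdeal A ^ n)] :
    maximalIdeal (A ⧸ maximalIdeal A ^ n) ^ n = ⊥ := by
  rw [← IsLocalRing.map_maximalIdeal_of_surjective (Ideal.Quotient.mk (maximalIdeal A ^ n))
    Ideal.Quotient.mk_surjective, ← Ideal.map_pow, Ideal.map_quotient_self]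

/-- The quotients `A ⧸ 𝔪ⁿ` of a noetherian local `𝒪`-algebra with residue field `k`
are test algebras (when local, i.e. for `n ≥ 1`). -/
theorem isATA_quotient_pow {A : Type} [CommRing A] [IsLocalRing A] [IsNoetherianRing A]
    [Algebra 𝒪 A] [IsLocalHom (algebraMap 𝒪 A)]
    (hA : Function.Surjective (residue A ∘ algebraMap 𝒪 A)) (n : ℕ)
    [IsLocalRing (A ⧸ maximalIdeal A ^ n)] : IsATA 𝒪 (A ⧸ maximalIdeal A ^ n) := by
  have hsurj : Function.Surjective (Ideal.Quotient.mkₐ 𝒪 (maximalIdeal A ^ n)) :=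
    Ideal.Quotient.mkₐ_surjective 𝒪 _
  refine ⟨TestAlg.isLocalHom_algebraMap_of_surjective inferInstance _ hsurj,
    TestAlg.residue_surjective_of_surjective hA _ hsurj, ?_⟩
  rw [isArtinianRing_iff_isNilpotent_maximalIdeal]
  exact ⟨n, maximalIdeal_quotient_pow_eq_bot n⟩

/-- If a family spans the (nilpotent) maximal ideal, it generates the algebra over `𝒪`. -/
theorem adjoin_eq_top_of_span_eq_maximalIdeal {A : Type} [CommRing A] [IsLocalRing A]
    [Algebra 𝒪 A] (hres : Function.Surjective (residue A ∘ algebraMap 𝒪 A))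
    (hnil : ∃ n : ℕ, maximalIdeal A ^ n = ⊥) {ι : Type} (y : ι → A)
    (hy : Ideal.span (Set.range y) = maximalIdeal A) :
    Algebra.adjoin 𝒪 (Set.range y) = ⊤ := by
  obtain ⟨n, hn⟩ := hnil
  rw [eq_top_iff]
  intro a _
  obtain ⟨s, hs, has⟩ := TestAlg.adjoin_approx hres y hy n a
  rw [hn, Ideal.mem_bot, sub_eq_zero] at has
  rw [has]
  exact hs

/-- The subalgebra generated by a family in a test algebra, as a test algebra of its own. -/
theorem exists_tight_sub [Finite (ResidueField 𝒪)] {Γ : Type} {A : Type} [CommRing A]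
    [IsLocalRing A] [Algebra 𝒪 A] (hA : IsATA 𝒪 A) (x : Γ → A) :
    ∃ (A' : Type) (_ : CommRing A') (_ : IsLocalRing A') (_ : Algebra 𝒪 A')
      (ι : A' →ₐ[𝒪] A) (x' : Γ → A'),
      IsATA 𝒪 A' ∧ Function.Injective ι ∧ IsLocalHom (ι : A' →+* A) ∧ ι ∘ x' = x ∧
      Algebra.adjoin 𝒪 (Set.range x') = ⊤ ∧
      (∀ n : ℕ, maximalIdeal A ^ n = ⊥ → maximalIdeal A' ^ n = ⊥) := by
  have hfin : Finite A := hA.finite
  let S : Subalgebra 𝒪 A := Algebra.adjoin 𝒪 (Set.range x)
  have hloc : IsLocalRing S := TestAlg.isLocalRing_subalgebra S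
  have hι : IsLocalHom ((S.val : S →ₐ[𝒪] A) : S →+* A) :=
    ⟨fun a ha => TestAlg.isUnit_subalgebra_of_isUnit S a.1 a.2 ha⟩
  have hmem : ∀ a : S, (a : A) ∈ maximalIdeal A → a ∈ maximalIdeal S := by
    intro a ha hu
    exact ha (hu.map S.val)
  refine ⟨S, inferInstance, hloc, inferInstance, S.val,
    fun γ => ⟨x γ, Algebra.subset_adjoin ⟨γ, rfl⟩⟩, ?_, Subtype.val_injective, hι, rfl, ?_, ?_⟩
  · -- `S` is a test algebra
    refine ⟨?_, ?_, ?_⟩
    · constructor
      intro o ho
      have h1 : IsUnit (algebraMap 𝒪 A o) := ho.map S.val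
      have := hA.isLocalHom
      exact isUnit_of_map_unit (algebraMap 𝒪 A) o h1
    · intro b
      obtain ⟨a, rfl⟩ := IsLocalRing.residue_surjective b
      obtain ⟨o, ho⟩ := hA.residue_surjective (residue A (a : A))
      refine ⟨o, ?_⟩
      show residue S (algebraMap 𝒪 S o) = residue S a
      rw [← sub_eq_zero, ← map_sub, IsLocalRing.residue_eq_zero_iff]
      apply hmem
      have h1 : algebraMap 𝒪 A o - (a : A) ∈ maximalIdeal A := by
        rw [← IsLocalRing.residue_eq_zero_iff, map_sub, sub_eq_zero]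
        exact ho
      exact h1
    · have : Finite S := inferInstance
      infer_instance
  · -- tightness
    have hrange : Set.range (fun γ => (⟨x γ, Algebra.subset_adjoin ⟨γ, rfl⟩⟩ : S)) =
        ((↑) : S → A) ⁻¹' (Set.range x) := by
      ext a
      constructor
      · rintro ⟨γ, rfl⟩
        exact ⟨γ, rfl⟩
      · rintro ⟨γ, hγ⟩
        exact ⟨γ, Subtype.ext hγ⟩
    rw [hrange]
    exact Algebra.adjoin_adjoin_coe_preimage
  · -- nilpotency level
    intro n hn
    rw [eq_bot_iff]
    intro a ha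
    have h1 : (S.val : S →+* A) a ∈ Ideal.map (S.val : S →+* A) (maximalIdeal S ^ n) :=
      Ideal.mem_map_of_mem _ ha
    rw [Ideal.map_pow] at h1
    have h2 : Ideal.map (S.val : S →+* A) (maximalIdeal S) ≤ maximalIdeal A :=
      map_maximalIdeal_le (S.val : S →+* A)
    have h3 := Ideal.pow_right_mono h2 n h1
    rw [hn] at h3
    rw [Ideal.mem_bot]
    exact Subtype.ext h3

end

end Fermat.Agent.S53b
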