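import Fermat.Agent.S53b.Defs
import Fermat.Agent.S53b.TestAlg

/-!
# S53b / P3: uniform cardinality bound for tight pairs of a given level
-/

set_option autoImplicit false

namespace Fermat.Agent.S53b

open IsLocalRing

namespace Bound

section

variable {𝒪 : Type} [CommRing 𝒪] [IsLocalRing 𝒪]

/-- The augmentation `𝒪[ι] → k`: constant coefficient, then residue. -/
noncomputable def eps (ι : Type) : MvPolynomial ι 𝒪 →+* ResidueField 𝒪 :=
  (residue 𝒪).comp (MvPolynomial.eval₂Hom (RingHom.id 𝒪) (fun _ => (0 : 𝒪)))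

theorem eps_C (ι : Type) (a : 𝒪) : eps ι (MvPolynomial.C a) = residue 𝒪 a := by
  simp [eps]

theorem eps_X (ι : Type) (i : ι) : eps (𝒪 := 𝒪) ι (MvPolynomial.X i) = 0 := by
  simp [eps]

theorem eps_surjective (ι : Type) : Function.Surjective (eps (𝒪 := 𝒪) ι) := by
  intro c
  obtain ⟨a, rfl⟩ := residue_surjective c
  exact ⟨MvPolynomial.C a, eps_C ι a⟩

/-- The quotient of the polynomial ring by a power of the augmentation ideal is finite. -/
theorem finite_quotient_pow (ι : Type) [Finite ι] [IsNoetherianRing 𝒪]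
    [Finite (ResidueField 𝒪)] (n : ℕ) :
    Finite (MvPolynomial ι 𝒪 ⧸ (RingHom.ker (eps (𝒪 := 𝒪) ι)) ^ n) := by
  have : Finite (MvPolynomial ι 𝒪 ⧸ RingHom.ker (eps (𝒪 := 𝒪) ι)) :=
    Finite.of_equiv _ (RingHom.quotientKerEquivOfSurjective (eps_surjective ι)).symm.toEquiv
  exact Ideal.finite_quotient_pow (IsNoetherian.noetherian _) n

/-- Evaluating at a family in the maximal ideal maps the augmentation ideal into the
maximal ideal. -/
theorem aeval_mem_maximalIdeal {A : Type} [CommRing A] [IsLocalRing A] [Algebra 𝒪 A]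
    [IsLocalHom (algebraMap 𝒪 A)] {ι : Type} (y : ι → A) (hy : ∀ i, y i ∈ maximalIdeal A)
    (p : MvPolynomial ι 𝒪) (hp : p ∈ RingHom.ker (eps (𝒪 := 𝒪) ι)) :
    MvPolynomial.aeval y p ∈ maximalIdeal A := by
  have key : (residue A).comp (MvPolynomial.aeval y : MvPolynomial ι 𝒪 →ₐ[𝒪] A).toRingHom =
      (ResidueField.map (algebraMap 𝒪 A)).comp (eps ι) := by
    apply MvPolynomial.ringHom_ext
    · intro a
      simp [eps_C]
    · intro i
      simp [eps_X, (residue_eq_zero_iff _).mpr (hy i)]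
  have h1 : residue A (MvPolynomial.aeval y p) = ResidueField.map (algebraMap 𝒪 A) (eps ι p) :=
    congrArg (fun f => f p) key
  rw [RingHom.mem_ker] at hp
  rw [hp, map_zero] at h1
  exact (residue_eq_zero_iff _).mp h1

/-- If a finite family spans the maximal ideal of a test algebra of level `n`, the algebra
is a quotient of the polynomial ring modulo the `n`-th power of the augmentation ideal. -/
theorem card_le_of_span [IsNoetherianRing 𝒪] [Finite (ResidueField 𝒪)]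
    {A : Type} [CommRing A] [IsLocalRing A] [Algebra 𝒪 A]
    [IsLocalHom (algebraMap 𝒪 A)] (hres : Function.Surjective (residue A ∘ algebraMap 𝒪 A))
    {n : ℕ} (hnil : maximalIdeal A ^ n = ⊥) {ι : Type} [Finite ι] (y : ι → A)
    (hy : Ideal.span (Set.range y) = maximalIdeal A) :
    Nat.card A ≤ Nat.card (MvPolynomial ι 𝒪 ⧸ (RingHom.ker (eps (𝒪 := 𝒪) ι)) ^ n) := by
  have hyi : ∀ i, y i ∈ maximalIdeal A := fun i =>
    hy ▸ Ideal.subset_span (Set.mem_range_self i)
  have hadj : Algebra.adjoin 𝒪 (Set.range y) = ⊤ :=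
    adjoin_eq_top_of_span_eq_maximalIdeal hres ⟨n, hnil⟩ y hy
  have hsurj : Function.Surjective (MvPolynomial.aeval y : MvPolynomial ι 𝒪 →ₐ[𝒪] A) := by
    rw [← AlgHom.range_eq_top, ← Algebra.adjoin_range_eq_range_aeval, hadj]
  have hle : ∀ p ∈ (RingHom.ker (eps (𝒪 := 𝒪) ι)) ^ n,
      (MvPolynomial.aeval y : MvPolynomial ι 𝒪 →ₐ[𝒪] A).toRingHom p = 0 := by
    intro p hp
    have h1 : Ideal.map (MvPolynomial.aeval y : MvPolynomial ι 𝒪 →ₐ[𝒪] A).toRingHom
        (RingHom.ker (eps (𝒪 := 𝒪) ι)) ≤ maximalIdeal A := by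
      rw [Ideal.map_le_iff_le_comap]
      intro q hq
      exact aeval_mem_maximalIdeal y hyi q hq
    have h2 : (MvPolynomial.aeval y : MvPolynomial ι 𝒪 →ₐ[𝒪] A).toRingHom p ∈
        maximalIdeal A ^ n := by
      have h3 := Ideal.mem_map_of_mem
        (MvPolynomial.aeval y : MvPolynomial ι 𝒪 →ₐ[𝒪] A).toRingHom hp
      rw [Ideal.map_pow] at h3
      exact Ideal.pow_right_mono h1 n h3
    rw [hnil] at h2
    exact h2
  have := finite_quotient_pow (𝒪 := 𝒪) ι n
  exact Nat.card_le_card_of_surjective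
    (Ideal.Quotient.lift _ (MvPolynomial.aeval y : MvPolynomial ι 𝒪 →ₐ[𝒪] A).toRingHom hle)
    (Ideal.Quotient.lift_surjective_of_surjective _ hle hsurj)

/-- The maximal ideal of a tight test algebra is spanned by a family indexed by a fixed
finite type. -/
theorem exists_family [Finite (ResidueField 𝒪)] {Γ : Type} {F : PointPred 𝒪 Γ} {x₀ : Γ → 𝒪}
    (hF : IsGoodFunctor 𝒪 F x₀) {T₀ : ℕ}
    (hT₀ : ∀ {B : Type} [CommRing B] [IsLocalRing B] [Algebra 𝒪 B], IsATA 𝒪 B →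
      maximalIdeal B ^ 2 = ⊥ → (∀ a ∈ maximalIdeal 𝒪, algebraMap 𝒪 B a = 0) →
      ∀ x : Γ → B, F B x → Algebra.adjoin 𝒪 (Set.range x) = ⊤ → Nat.card B ≤ T₀)
    {g : ℕ} (w : Fin g → 𝒪) (hw : Ideal.span (Set.range w) = maximalIdeal 𝒪)
    {A : Type} [CommRing A] [IsLocalRing A] [Algebra 𝒪 A] (hA : IsATA 𝒪 A) (x : Γ → A)
    (hx : F A x) (htight : Algebra.adjoin 𝒪 (Set.range x) = ⊤) :
    ∃ y : Fin T₀ ⊕ Fin g → A, Ideal.span (Set.range y) = maximalIdeal A := by
  classical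
  have : IsLocalHom (algebraMap 𝒪 A) := hA.isLocalHom
  set I : Ideal A := maximalIdeal A ^ 2 ⊔ Ideal.map (algebraMap 𝒪 A) (maximalIdeal 𝒪) with hI
  have hI𝔪 : I ≤ maximalIdeal A :=
    sup_le (Ideal.pow_le_self two_ne_zero) (map_maximalIdeal_le _)
  have hItop : I ≠ ⊤ := fun h =>
    (maximalIdeal.isMaximal A).ne_top (top_le_iff.mp (h ▸ hI𝔪))
  have : IsLocalRing (A ⧸ I) := isLocalRing_quotient I hItop
  have hmk : Function.Surjective (Ideal.Quotient.mkₐ 𝒪 I) := Ideal.Quotient.mkₐ_surjective 𝒪 I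
  have hB : IsATA 𝒪 (A ⧸ I) := hA.of_surjective (Ideal.Quotient.mkₐ 𝒪 I) hmk
  have hmap : Ideal.map (Ideal.Quotient.mk I) (maximalIdeal A) = maximalIdeal (A ⧸ I) :=
    map_maximalIdeal_of_surjective _ Ideal.Quotient.mk_surjective
  have hsq : maximalIdeal (A ⧸ I) ^ 2 = ⊥ := by
    rw [← hmap, ← Ideal.map_pow, Ideal.map_eq_bot_iff_le_ker, Ideal.mk_ker]
    exact le_sup_left
  have hkill : ∀ a ∈ maximalIdeal 𝒪, algebraMap 𝒪 (A ⧸ I) a = 0 := by
    intro a ha
    show Ideal.Quotient.mk I (algebraMap 𝒪 A a) = 0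
    rw [Ideal.Quotient.eq_zero_iff_mem]
    exact le_sup_right (a := maximalIdeal A ^ 2) (Ideal.mem_map_of_mem _ ha)
  have hloc : IsLocalHom ((Ideal.Quotient.mkₐ 𝒪 I : A →ₐ[𝒪] A ⧸ I) : A →+* A ⧸ I) :=
    isLocalHom_of_residue_surjective hB.residue_surjective _
  have hpt : F (A ⧸ I) (Ideal.Quotient.mkₐ 𝒪 I ∘ x) :=
    hF.baseChange hA hB (Ideal.Quotient.mkₐ 𝒪 I) hloc x hx
  have hadj : Algebra.adjoin 𝒪 (Set.range (Ideal.Quotient.mkₐ 𝒪 I ∘ x)) = ⊤ := by
    rw [Set.range_comp, ← AlgHom.map_adjoin, htight, Algebra.map_top, AlgHom.range_eq_top]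
    exact hmk
  have hcard : Nat.card (A ⧸ I) ≤ T₀ := hT₀ hB hsq hkill _ hpt hadj
  have : Finite (A ⧸ I) := hB.finite
  -- an injection of the quotient into `Fin T₀`
  let c : A ⧸ I → Fin T₀ := fun b => Fin.castLE hcard (Finite.equivFin (A ⧸ I) b)
  have hc : Function.Injective c :=
    (Fin.castLE_injective hcard).comp (Finite.equivFin _).injective
  -- the family
  let y : Fin T₀ ⊕ Fin g → A := Sum.elim
    (fun i => if h : ∃ m ∈ maximalIdeal A, c (Ideal.Quotient.mk I m) = i then h.choose else 0)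
    (fun j => algebraMap 𝒪 A (w j))
  have hy𝔪 : ∀ s, y s ∈ maximalIdeal A := by
    rintro (i | j)
    · show (if h : ∃ m ∈ maximalIdeal A, c (Ideal.Quotient.mk I m) = i then h.choose else 0) ∈
        maximalIdeal A
      split_ifs with h
      · exact h.choose_spec.1
      · exact zero_mem _
    · exact map_nonunit _ _ (hw ▸ Ideal.subset_span (Set.mem_range_self j))
  refine ⟨y, le_antisymm (Ideal.span_le.mpr (by rintro _ ⟨s, rfl⟩; exact hy𝔪 s)) ?_⟩
  -- Nakayama
  have hfg : (maximalIdeal A).FG := by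
    have : IsArtinianRing A := hA.isArtinian
    exact IsNoetherian.noetherian _
  have hIle : I ≤ Ideal.span (Set.range y) ⊔ maximalIdeal A • maximalIdeal A := by
    refine sup_le ?_ ?_
    · rw [pow_two]
      exact le_sup_right
    · rw [← hw, Ideal.map_span, Ideal.span_le]
      rintro _ ⟨_, ⟨j, rfl⟩, rfl⟩
      exact le_sup_left (b := maximalIdeal A • maximalIdeal A)
        (Ideal.subset_span ⟨Sum.inr j, rfl⟩)
  apply Submodule.le_of_le_smul_of_le_jacobson_bot (I := maximalIdeal A) hfg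
    (maximalIdeal_le_jacobson _)
  intro m hm
  have hex : ∃ m' ∈ maximalIdeal A, c (Ideal.Quotient.mk I m') = c (Ideal.Quotient.mk I m) :=
    ⟨m, hm, rfl⟩
  have hyi : y (Sum.inl (c (Ideal.Quotient.mk I m))) = hex.choose := dif_pos hex
  have h1 : Ideal.Quotient.mk I hex.choose = Ideal.Quotient.mk I m := hc hex.choose_spec.2
  have h2 : m - hex.choose ∈ I := by
    rw [← Ideal.Quotient.eq]
    exact h1.symm
  have h3 : m = hex.choose + (m - hex.choose) := by ring
  rw [h3]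
  exact add_mem (le_sup_left (b := maximalIdeal A • maximalIdeal A)
    (Ideal.subset_span ⟨_, hyi⟩)) (hIle h2)

end

end Bound

section

variable {𝒪 : Type} [CommRing 𝒪] [IsLocalRing 𝒪]

/-- Tight pairs of level `n` have uniformly bounded cardinality. -/
theorem exists_card_bound [IsNoetherianRing 𝒪] [Finite (ResidueField 𝒪)] {Γ : Type}
    {F : PointPred 𝒪 Γ} {x₀ : Γ → 𝒪} (hF : IsGoodFunctor 𝒪 F x₀) (n : ℕ) :
    ∃ N : ℕ, ∀ T : TightPair 𝒪 F n, Nat.card T.A ≤ N := by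
  obtain ⟨T₀, hT₀⟩ := hF.tangent
  obtain ⟨g, w, hw⟩ : ∃ (g : ℕ) (w : Fin g → 𝒪), Ideal.span (Set.range w) = maximalIdeal 𝒪 :=
    Submodule.fg_iff_exists_fin_generating_family.mp
      (IsNoetherian.noetherian (maximalIdeal 𝒪))
  refine ⟨Nat.card (MvPolynomial (Fin T₀ ⊕ Fin g) 𝒪 ⧸
    (RingHom.ker (Bound.eps (𝒪 := 𝒪) (Fin T₀ ⊕ Fin g))) ^ n), fun T => ?_⟩
  have : IsLocalHom (algebraMap 𝒪 T.A) := T.isATA.isLocalHom
  obtain ⟨y, hy⟩ := Bound.exists_family hF (@hT₀) w hw T.isATA T.x T.isPoint T.tight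
  exact Bound.card_le_of_span T.isATA.residue_surjective T.nil y hy

end

end Fermat.Agent.S53b
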