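import Mathlib
import Fermat.Prelude.Def_GaloisRep_DeformationRingData
import Fermat.Prelude.Def_GaloisRep_DeformationCondition

/-!
# S53 (second route, "S53b"): shared definitions

Rigidified normalized lifts + abstract pro-representability.  See the DB note `S53 blueprint`.
-/

set_option autoImplicit false

namespace Fermat.Agent.S53b

open IsLocalRing

/-- The absolute Galois group of `ℚ`. -/
abbrev Gal : Type := AlgebraicClosure ℚ ≃ₐ[ℚ] AlgebraicClosure ℚ

/-! ## Part I: abstract functors of points on Artinian test algebras -/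

section PartI

variable (𝒪 : Type) [CommRing 𝒪] [IsLocalRing 𝒪]

/-- Short name for the Prelude's Artinian test algebras. -/
abbrev IsATA (A : Type) [CommRing A] [IsLocalRing A] [Algebra 𝒪 A] : Prop :=
  GaloisRep.IsArtinianTestAlgebra 𝒪 A

/-- A predicate on `Γ`-indexed families of elements of local `𝒪`-algebras. -/
abbrev PointPred (Γ : Type) : Type 1 :=
  ∀ (A : Type) [CommRing A] [IsLocalRing A] [Algebra 𝒪 A], (Γ → A) → Prop

/-- The axioms making a point predicate pro-representable. -/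
structure IsGoodFunctor {Γ : Type} (F : PointPred 𝒪 Γ) (x₀ : Γ → 𝒪) : Prop where
  /-- (F1) base change along local `𝒪`-algebra maps of test algebras. -/
  baseChange : ∀ {A B : Type} [CommRing A] [IsLocalRing A] [Algebra 𝒪 A]
    [CommRing B] [IsLocalRing B] [Algebra 𝒪 B], IsATA 𝒪 A → IsATA 𝒪 B →
    ∀ (φ : A →ₐ[𝒪] B), IsLocalHom (φ : A →+* B) → ∀ x : Γ → A, F A x → F B (φ ∘ x)
  /-- (F2) descent along injective maps. -/
  descent : ∀ {A B : Type} [CommRing A] [IsLocalRing A] [Algebra 𝒪 A]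
    [CommRing B] [IsLocalRing B] [Algebra 𝒪 B], IsATA 𝒪 A → IsATA 𝒪 B →
    ∀ (φ : A →ₐ[𝒪] B), IsLocalHom (φ : A →+* B) → Function.Injective φ →
    ∀ x : Γ → A, F B (φ ∘ x) → F A x
  /-- (F3) pairs: a jointly injective pair of surjections. -/
  pair : ∀ {A B P : Type} [CommRing A] [IsLocalRing A] [Algebra 𝒪 A]
    [CommRing B] [IsLocalRing B] [Algebra 𝒪 B] [CommRing P] [IsLocalRing P] [Algebra 𝒪 P],
    IsATA 𝒪 A → IsATA 𝒪 B → IsATA 𝒪 P →
    ∀ (pA : P →ₐ[𝒪] A) (pB : P →ₐ[𝒪] B), IsLocalHom (pA : P →+* A) → IsLocalHom (pB : P →+* B) →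
    Function.Injective (fun z => (pA z, pB z)) → Function.Surjective pA → Function.Surjective pB →
    ∀ x : Γ → P, F A (pA ∘ x) → F B (pB ∘ x) → F P x
  /-- (F4) points are residually the fixed family `x₀`. -/
  residual : ∀ {A : Type} [CommRing A] [IsLocalRing A] [Algebra 𝒪 A], IsATA 𝒪 A →
    ∀ x : Γ → A, F A x → ∀ γ, x γ - algebraMap 𝒪 A (x₀ γ) ∈ maximalIdeal A
  /-- (F5) the base point. -/
  base : F (ResidueField 𝒪) (fun γ => residue 𝒪 (x₀ γ))
  /-- (F6) tangent bound, in "square-zero" form. -/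
  tangent : ∃ T : ℕ, ∀ {B : Type} [CommRing B] [IsLocalRing B] [Algebra 𝒪 B], IsATA 𝒪 B →
    maximalIdeal B ^ 2 = ⊥ → (∀ a ∈ maximalIdeal 𝒪, algebraMap 𝒪 B a = 0) →
    ∀ x : Γ → B, F B x → Algebra.adjoin 𝒪 (Set.range x) = ⊤ → Nat.card B ≤ T

/-- A tight pair of nilpotency level `n`: a test algebra with `𝔪ⁿ = 0`, generated by a point. -/
structure TightPair {Γ : Type} (F : PointPred 𝒪 Γ) (n : ℕ) : Type 1 where
  A : Type
  [instCommRing : CommRing A]
  [instIsLocalRing : IsLocalRing A]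
  [instAlgebra : Algebra 𝒪 A]
  isATA : IsATA 𝒪 A
  nil : maximalIdeal A ^ n = ⊥
  x : Γ → A
  isPoint : F A x
  tight : Algebra.adjoin 𝒪 (Set.range x) = ⊤

attribute [instance] TightPair.instCommRing TightPair.instIsLocalRing TightPair.instAlgebra

/-- Universality of a tight pair among all points of level `n`. -/
def TightPair.IsUniversal {Γ : Type} {F : PointPred 𝒪 Γ} {n : ℕ} (U : TightPair 𝒪 F n) : Prop :=
  ∀ (A : Type) [CommRing A] [IsLocalRing A] [Algebra 𝒪 A], IsATA 𝒪 A → maximalIdeal A ^ n = ⊥ →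
    ∀ x : Γ → A, F A x → ∃ φ : U.A →ₐ[𝒪] A, φ ∘ U.x = x

/-- The output of Part I: a pro-representing complete noetherian local `𝒪`-algebra. -/
structure ProRep {Γ : Type} (F : PointPred 𝒪 Γ) : Type 1 where
  R : Type
  [instCommRing : CommRing R]
  [instIsLocalRing : IsLocalRing R]
  [instIsNoetherianRing : IsNoetherianRing R]
  [instIsAdicComplete : IsAdicComplete (maximalIdeal R) R]
  [instAlgebra : Algebra 𝒪 R]
  [instIsLocalHom : IsLocalHom (algebraMap 𝒪 R)]
  residue_surjective : Function.Surjective (residue R ∘ algebraMap 𝒪 R)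
  /-- the universal point -/
  xu : Γ → R
  /-- (U1) every Artinian specialization of the universal point is a point. -/
  isPoint : ∀ (B : Type) [CommRing B] [IsLocalRing B] [Algebra 𝒪 B], IsATA 𝒪 B →
    ∀ q : R →ₐ[𝒪] B, F B (q ∘ xu)
  /-- (U2) universal property for complete noetherian local algebras. -/
  universal : ∀ (A : Type) [CommRing A] [IsLocalRing A] [IsNoetherianRing A]
    [IsAdicComplete (maximalIdeal A) A] [Algebra 𝒪 A] [IsLocalHom (algebraMap 𝒪 A)],
    Function.Surjective (residue A ∘ algebraMap 𝒪 A) → ∀ xA : Γ → A,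
    (∀ (n : ℕ) [IsLocalRing (A ⧸ maximalIdeal A ^ n)],
      F (A ⧸ maximalIdeal A ^ n) (Ideal.Quotient.mk (maximalIdeal A ^ n) ∘ xA)) →
    ∃! φ : R →ₐ[𝒪] A, φ ∘ xu = xA

attribute [instance] ProRep.instCommRing ProRep.instIsLocalRing ProRep.instIsNoetherianRing
  ProRep.instIsAdicComplete ProRep.instAlgebra ProRep.instIsLocalHom

/-- The `𝒪`-algebra structure on the dual numbers used by `GaloisRep.TangentFinite`. -/
@[reducible] noncomputable def dualAlg : Algebra 𝒪 (DualNumber (ResidueField 𝒪)) :=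
  ((algebraMap (ResidueField 𝒪) (DualNumber (ResidueField 𝒪))).comp
    (algebraMap 𝒪 (ResidueField 𝒪))).toAlgebra

end PartI

/-! ## Part II: rigidified matrix lifts -/

section PartII

variable (𝒪 : Type) [CommRing 𝒪] [IsLocalRing 𝒪]

/-- Rigidification data for a residual representation, in matrix form. -/
structure RigidData where
  /-- a set-theoretic lift to `𝒪` of the residual matrix representation -/
  ρt : Gal → Matrix (Fin 2) (Fin 2) 𝒪
  g0 : Gal
  h0 : Gal
  i0 : Fin 2
  j0 : Fin 2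
  res_one : (ρt 1).map (residue 𝒪) = 1
  res_mul : ∀ g g', (ρt (g * g')).map (residue 𝒪) =
    (ρt g).map (residue 𝒪) * (ρt g').map (residue 𝒪)
  g0_col0 : ρt g0 0 0 = 0
  g0_col1 : ρt g0 1 0 = 1
  comm_unit : IsUnit ((ρt h0 * ρt g0 - ρt g0 * ρt h0) i0 j0)
  schur : ∀ M : Matrix (Fin 2) (Fin 2) (ResidueField 𝒪),
    (∀ g, M * (ρt g).map (residue 𝒪) = (ρt g).map (residue 𝒪) * M) →
    ∃ c : ResidueField 𝒪, M = Matrix.scalar (Fin 2) c
  level : ∃ L : IntermediateField ℚ (AlgebraicClosure ℚ), FiniteDimensional ℚ L ∧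
    ∀ σ : Gal, (∀ x ∈ L, σ x = x) → (ρt σ).map (residue 𝒪) = 1

variable {𝒪}

/-- The residual representation attached to rigid data, on `k²`. -/
noncomputable def RigidData.resRep (D : RigidData 𝒪) : ResidualGaloisRep (ResidueField 𝒪) where
  V := Fin 2 → ResidueField 𝒪
  finrank_eq := by simp
  ρ :=
    { toFun := fun g => Matrix.toLin' ((D.ρt g).map (residue 𝒪))
      map_one' := by rw [D.res_one, Matrix.toLin'_one]; rfl
      map_mul' := fun g g' => by rw [D.res_mul, Matrix.toLin'_mul]; rfl }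
  factorsThroughFiniteLevel := by
    obtain ⟨L, hL, h⟩ := D.level
    refine ⟨L, hL, fun σ hσ => ?_⟩
    show Matrix.toLin' ((D.ρt σ).map (residue 𝒪)) = 1
    rw [h σ hσ, Matrix.toLin'_one]; rfl

/-- The residual family of rigid data, as a `Γ`-indexed family in `𝒪`. -/
def RigidData.x0 (D : RigidData 𝒪) : Gal × Fin 2 × Fin 2 → 𝒪 := fun γ => D.ρt γ.1 γ.2.1 γ.2.2

/-- Matrix-valued function from an entry family. -/
def ofFam {A : Type} (x : Gal × Fin 2 × Fin 2 → A) : Gal → Matrix (Fin 2) (Fin 2) A :=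
  fun g => Matrix.of fun a b => x (g, a, b)

/-- Entry family of a matrix-valued function. -/
def toFam {A : Type} (r : Gal → Matrix (Fin 2) (Fin 2) A) : Gal × Fin 2 × Fin 2 → A :=
  fun γ => r γ.1 γ.2.1 γ.2.2

variable (A : Type) [CommRing A] [IsLocalRing A]

/-- A continuous 2-dimensional matrix representation of `Gal` over a local ring. -/
structure IsRepFn (r : Gal → Matrix (Fin 2) (Fin 2) A) : Prop where
  map_one : r 1 = 1
  map_mul : ∀ g g', r (g * g') = r g * r g'
  cont : ∀ n : ℕ, ∃ L : IntermediateField ℚ (AlgebraicClosure ℚ), FiniteDimensional ℚ L ∧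
    ∀ σ : Gal, (∀ x ∈ L, σ x = x) → ∀ a b, (r σ - 1) a b ∈ maximalIdeal A ^ n

/-- The `GaloisRepAdic` on `A²` given by a continuous matrix representation. -/
noncomputable def repOf {r : Gal → Matrix (Fin 2) (Fin 2) A} (h : IsRepFn A r) :
    GaloisRepAdic A where
  V := Fin 2 → A
  finrank_eq := by simp
  ρ :=
    { toFun := fun g => Matrix.toLin' (r g)
      map_one' := by rw [h.map_one, Matrix.toLin'_one]; rfl
      map_mul' := fun g g' => by rw [h.map_mul, Matrix.toLin'_mul]; rfl }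
  isAdicContinuous := by
    intro n
    obtain ⟨L, hL, hc⟩ := h.cont n
    refine ⟨L, hL, fun σ hσ v => ?_⟩
    have key : ∀ w : Fin 2 → A, (∀ a, w a ∈ maximalIdeal A ^ n) →
        w ∈ (maximalIdeal A ^ n) • (⊤ : Submodule A (Fin 2 → A)) := by
      intro w hw
      have hw' : w = ∑ a, w a • (Pi.single a (1 : A) : Fin 2 → A) := by
        ext b; simp [Finset.sum_apply, Pi.single_apply]
      rw [hw']
      exact Submodule.sum_mem _ fun a _ => Submodule.smul_mem_smul (hw a) Submodule.mem_top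
    have hv : Matrix.toLin' (r σ) v - v = fun a => ∑ b, (r σ - 1) a b * v b := by
      ext a
      rw [Pi.sub_apply, Matrix.toLin'_apply, Matrix.mulVec, dotProduct]
      simp only [Matrix.sub_apply, sub_mul, Finset.sum_sub_distrib, Matrix.one_apply, ite_mul,
        one_mul, zero_mul, Finset.sum_ite_eq, Finset.mem_univ, if_true]
    show Matrix.toLin' (r σ) v - v ∈ _
    rw [hv]
    exact key _ fun a => Ideal.sum_mem _ fun b _ => Ideal.mul_mem_right _ _ (hc σ hσ a b)

/-- A normalized lift of the rigid data `D` over a local `𝒪`-algebra. -/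
structure IsNLift [Algebra 𝒪 A] (D : RigidData 𝒪) (r : Gal → Matrix (Fin 2) (Fin 2) A) : Prop
    extends IsRepFn A r where
  res : ∀ g a b, r g a b - algebraMap 𝒪 A (D.ρt g a b) ∈ maximalIdeal A
  norm0 : r D.g0 0 0 = 0
  norm1 : r D.g0 1 0 = 1
  norm2 : r D.h0 D.i0 D.j0 = algebraMap 𝒪 A (D.ρt D.h0 D.i0 D.j0)

/-- The point predicate of normalized `𝒟`-lifts. -/
def FD (D : RigidData 𝒪)
    (𝒟 : ∀ ⦃A : Type⦄ [CommRing A] [IsLocalRing A] [Algebra 𝒪 A], GaloisRepAdic A → Prop) :
    PointPred 𝒪 (Gal × Fin 2 × Fin 2) :=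
  fun A _ _ _ x => ∃ h : IsNLift A D (ofFam x), 𝒟 (repOf A h.toIsRepFn)

end PartII

end Fermat.Agent.S53b
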