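import Fermat.Agent.S53b.Defs

/-!
# S53b / G2a: dictionary between matrix representations and `GaloisRepAdic`, part 1
(functoriality, conjugation, base point)
-/

set_option autoImplicit false

namespace Fermat.Agent.S53b.Dict1

open IsLocalRing

/-- Entries of `M.map φ - 1`. -/
theorem aux_map_sub_one_apply {A B : Type} [CommRing A] [CommRing B] (φ : A →+* B)
    (M : Matrix (Fin 2) (Fin 2) A) (a b : Fin 2) :
    (M.map φ - 1) a b = φ ((M - 1) a b) := by
  rw [Matrix.sub_apply, Matrix.sub_apply, Matrix.map_apply, map_sub, Matrix.one_apply,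
    Matrix.one_apply]
  split_ifs
  · rw [map_one]
  · rw [map_zero]

/-- An element whose image under a ring hom is a non-unit is a non-unit. -/
theorem aux_mem_maximalIdeal_of_map {A B : Type} [CommRing A] [IsLocalRing A] [CommRing B]
    [IsLocalRing B] (φ : A →+* B) (z : A) (hz : φ z ∈ maximalIdeal B) : z ∈ maximalIdeal A := by
  rw [mem_maximalIdeal, mem_nonunits_iff] at hz ⊢
  exact fun hu => hz (hu.map φ)

/-- Quotients of a local ring by a proper ideal are local. -/
theorem aux_isLocalRing_quotient {A : Type} [CommRing A] [IsLocalRing A] (I : Ideal A)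
    (hI : I ≠ ⊤) : IsLocalRing (A ⧸ I) := by
  have : Nontrivial (A ⧸ I) := Ideal.Quotient.nontrivial_iff.mpr hI
  exact IsLocalRing.of_surjective' (Ideal.Quotient.mk I) Ideal.Quotient.mk_surjective

/-- Positive powers of the maximal ideal are proper. -/
theorem aux_maximalIdeal_pow_ne_top {A : Type} [CommRing A] [IsLocalRing A] (n : ℕ)
    (hn : 1 ≤ n) : maximalIdeal A ^ n ≠ ⊤ := by
  intro htop
  have hle : maximalIdeal A ^ n ≤ maximalIdeal A := Ideal.pow_le_self (by omega)
  rw [htop] at hle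
  exact (Ideal.IsMaximal.ne_top (maximalIdeal.isMaximal A)) (top_le_iff.mp hle)

/-- `A ⧸ 𝔪ⁿ` has nilpotency level `n`. -/
theorem aux_maximalIdeal_quotient_pow_eq_bot {A : Type} [CommRing A] [IsLocalRing A] (n : ℕ)
    [IsLocalRing (A ⧸ maximalIdeal A ^ n)] :
    maximalIdeal (A ⧸ maximalIdeal A ^ n) ^ n = ⊥ := by
  have hle : maximalIdeal (A ⧸ maximalIdeal A ^ n) ≤
      (maximalIdeal A).map (Ideal.Quotient.mk (maximalIdeal A ^ n)) := by
    intro x hx
    obtain ⟨a, rfl⟩ := Ideal.Quotient.mk_surjective x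
    exact Ideal.mem_map_of_mem _ (aux_mem_maximalIdeal_of_map (Ideal.Quotient.mk _) a hx)
  rw [eq_bot_iff]
  calc maximalIdeal (A ⧸ maximalIdeal A ^ n) ^ n
      ≤ ((maximalIdeal A).map (Ideal.Quotient.mk (maximalIdeal A ^ n))) ^ n :=
        Ideal.pow_right_mono hle n
    _ = (maximalIdeal A ^ n).map (Ideal.Quotient.mk (maximalIdeal A ^ n)) :=
        (Ideal.map_pow _ _ _).symm
    _ = ⊥ := Ideal.map_quotient_self _

/-- Separatedness of a noetherian local ring: elements agreeing modulo all positive powers of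
the maximal ideal are equal (Krull's intersection theorem). -/
theorem aux_eq_of_forall_mk_eq {A : Type} [CommRing A] [IsLocalRing A] [IsNoetherianRing A]
    (x y : A)
    (hxy : ∀ n : ℕ, 1 ≤ n → Ideal.Quotient.mk (maximalIdeal A ^ n) x =
      Ideal.Quotient.mk (maximalIdeal A ^ n) y) : x = y := by
  have hbot : ⨅ i : ℕ, maximalIdeal A ^ i = ⊥ :=
    Ideal.iInf_pow_eq_bot_of_isLocalRing (maximalIdeal A)
      (Ideal.IsMaximal.ne_top (maximalIdeal.isMaximal A))
  have hmem : x - y ∈ ⨅ i : ℕ, maximalIdeal A ^ i := by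
    rw [Ideal.mem_iInf]
    intro i
    rcases Nat.eq_zero_or_pos i with rfl | hi
    · rw [pow_zero, Ideal.one_eq_top]
      exact Submodule.mem_top
    · exact Ideal.Quotient.eq.mp (hxy i hi)
  rw [hbot, Ideal.mem_bot] at hmem
  exact sub_eq_zero.mp hmem

end Fermat.Agent.S53b.Dict1

namespace Fermat.Agent.S53b

open IsLocalRing

section

variable {𝒪 : Type} [CommRing 𝒪] [IsLocalRing 𝒪]
variable {A : Type} [CommRing A] [IsLocalRing A] {B : Type} [CommRing B] [IsLocalRing B]

/-- `ofFam` commutes with maps. -/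
theorem ofFam_comp {A B : Type} (φ : A → B) (x : Gal × Fin 2 × Fin 2 → A) :
    ofFam (φ ∘ x) = fun g => (ofFam x g).map φ := by
  funext g
  ext a b
  rfl

/-- Matrix representations map along local ring homomorphisms. -/
theorem IsRepFn.map {r : Gal → Matrix (Fin 2) (Fin 2) A} (h : IsRepFn A r) (φ : A →+* B)
    (hφ : IsLocalHom φ) : IsRepFn B (fun g => (r g).map φ) := by
  refine ⟨?_, ?_, ?_⟩
  · show (r 1).map φ = 1
    rw [h.map_one]
    exact Matrix.map_one φ (_root_.map_zero φ) (_root_.map_one φ)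
  · intro g g'
    show (r (g * g')).map φ = (r g).map φ * (r g').map φ
    rw [h.map_mul, Matrix.map_mul]
  · intro n
    obtain ⟨L, hL, hc⟩ := h.cont n
    refine ⟨L, hL, fun σ hσ a b => ?_⟩
    have hmap : (maximalIdeal A ^ n).map φ ≤ maximalIdeal B ^ n := by
      rw [Ideal.map_pow]
      exact Ideal.pow_right_mono (Ideal.map_le_iff_le_comap.mpr fun a ha =>
        Ideal.mem_comap.mpr (haveI := hφ; map_nonunit φ a ha)) n
    have hent : ((r σ).map φ - 1) a b = φ ((r σ - 1) a b) := by
      rw [Matrix.sub_apply, Matrix.sub_apply, Matrix.map_apply, map_sub, Matrix.one_apply,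
        Matrix.one_apply]
      split_ifs
      · rw [_root_.map_one]
      · rw [_root_.map_zero]
    show ((r σ).map φ - 1) a b ∈ maximalIdeal B ^ n
    rw [hent]
    exact hmap (Ideal.mem_map_of_mem φ (hc σ hσ a b))

/-- Base change of `repOf` is `repOf` of the mapped matrices. -/
theorem baseChange_isEquiv {r : Gal → Matrix (Fin 2) (Fin 2) A} (h : IsRepFn A r) (φ : A →+* B)
    (hφ : IsLocalHom φ) (h' : IsRepFn B (fun g => (r g).map φ)) :
    ((repOf A h).baseChangeAlong φ hφ).IsEquiv (repOf B h') := by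
  let _ : Algebra A B := φ.toAlgebra
  let e : TensorProduct A B (Fin 2 → A) ≃ₗ[B] (Fin 2 → B) :=
    TensorProduct.piScalarRight A B B (Fin 2)
  refine ⟨⟨e, ?_⟩⟩
  intro σ (x : TensorProduct A B (Fin 2 → A))
  show e ((Matrix.toLin' (r σ)).baseChange B x) = Matrix.toLin' ((r σ).map φ) (e x)
  induction x using TensorProduct.induction_on with
  | zero => simp only [map_zero]
  | tmul b v =>
    rw [LinearMap.baseChange_tmul]
    ext j
    simp only [e, TensorProduct.piScalarRight_apply, TensorProduct.piScalarRightHom_tmul,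
      Matrix.toLin'_apply, Matrix.mulVec, dotProduct, Matrix.map_apply, Algebra.smul_def,
      RingHom.algebraMap_toAlgebra, map_sum, map_mul, Finset.sum_mul, mul_assoc]
  | add x y hx hy => simp only [map_add, hx, hy]

/-- Conjugate matrix representations give equivalent `GaloisRepAdic`s. -/
theorem isEquiv_of_conj {r r' : Gal → Matrix (Fin 2) (Fin 2) A} (h : IsRepFn A r)
    (h' : IsRepFn A r') (M : (Matrix (Fin 2) (Fin 2) A)ˣ)
    (hM : ∀ g, (M : Matrix (Fin 2) (Fin 2) A) * r g = r' g * M) :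
    (repOf A h).IsEquiv (repOf A h') := by
  have h1 : (Matrix.toLin' (M : Matrix (Fin 2) (Fin 2) A)).comp
      (Matrix.toLin' ((M⁻¹ : (Matrix (Fin 2) (Fin 2) A)ˣ) : Matrix (Fin 2) (Fin 2) A)) =
      LinearMap.id := by
    rw [← Matrix.toLin'_mul, Units.mul_inv, Matrix.toLin'_one]
  have h2 : (Matrix.toLin' ((M⁻¹ : (Matrix (Fin 2) (Fin 2) A)ˣ) : Matrix (Fin 2) (Fin 2) A)).comp
      (Matrix.toLin' (M : Matrix (Fin 2) (Fin 2) A)) = LinearMap.id := by
    rw [← Matrix.toLin'_mul, Units.inv_mul, Matrix.toLin'_one]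
  refine ⟨⟨LinearEquiv.ofLinearMap (Matrix.toLin' (M : Matrix (Fin 2) (Fin 2) A))
    (Matrix.toLin' ((M⁻¹ : (Matrix (Fin 2) (Fin 2) A)ˣ) : Matrix (Fin 2) (Fin 2) A)) h1 h2, ?_⟩⟩
  intro σ (x : Fin 2 → A)
  show Matrix.toLin' (M : Matrix (Fin 2) (Fin 2) A) (Matrix.toLin' (r σ) x) =
    Matrix.toLin' (r' σ) (Matrix.toLin' (M : Matrix (Fin 2) (Fin 2) A) x)
  rw [← LinearMap.comp_apply, ← LinearMap.comp_apply, ← Matrix.toLin'_mul, ← Matrix.toLin'_mul,
    hM]

/-- Equivalent `repOf`s are conjugate. -/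
theorem conj_of_isEquiv {r r' : Gal → Matrix (Fin 2) (Fin 2) A} (h : IsRepFn A r)
    (h' : IsRepFn A r') (e : (repOf A h).IsEquiv (repOf A h')) :
    ∃ M : (Matrix (Fin 2) (Fin 2) A)ˣ, ∀ g, (M : Matrix (Fin 2) (Fin 2) A) * r g = r' g * M := by
  obtain ⟨e⟩ := e
  let f : (Fin 2 → A) ≃ₗ[A] (Fin 2 → A) := e.toLinearEquiv
  have hf : ∀ (σ : Gal) (x : Fin 2 → A),
      f (Matrix.toLin' (r σ) x) = Matrix.toLin' (r' σ) (f x) := e.map_apply
  have h1 : LinearMap.toMatrix' (f : (Fin 2 → A) →ₗ[A] (Fin 2 → A)) *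
      LinearMap.toMatrix' (f.symm : (Fin 2 → A) →ₗ[A] (Fin 2 → A)) = 1 := by
    rw [← LinearMap.toMatrix'_comp, LinearEquiv.comp_coe, LinearEquiv.symm_trans_self,
      LinearEquiv.refl_toLinearMap, LinearMap.toMatrix'_id]
  have h2 : LinearMap.toMatrix' (f.symm : (Fin 2 → A) →ₗ[A] (Fin 2 → A)) *
      LinearMap.toMatrix' (f : (Fin 2 → A) →ₗ[A] (Fin 2 → A)) = 1 := by
    rw [← LinearMap.toMatrix'_comp, LinearEquiv.comp_coe, LinearEquiv.self_trans_symm,
      LinearEquiv.refl_toLinearMap, LinearMap.toMatrix'_id]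
  refine ⟨⟨LinearMap.toMatrix' (f : (Fin 2 → A) →ₗ[A] (Fin 2 → A)),
    LinearMap.toMatrix' (f.symm : (Fin 2 → A) →ₗ[A] (Fin 2 → A)), h1, h2⟩, ?_⟩
  intro g
  show LinearMap.toMatrix' (f : (Fin 2 → A) →ₗ[A] (Fin 2 → A)) * r g =
    r' g * LinearMap.toMatrix' (f : (Fin 2 → A) →ₗ[A] (Fin 2 → A))
  have hcomp : (f : (Fin 2 → A) →ₗ[A] (Fin 2 → A)).comp (Matrix.toLin' (r g)) =
      (Matrix.toLin' (r' g)).comp (f : (Fin 2 → A) →ₗ[A] (Fin 2 → A)) :=
    LinearMap.ext (hf g)
  have hmat := congrArg LinearMap.toMatrix' hcomp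
  rwa [LinearMap.toMatrix'_comp, LinearMap.toMatrix'_comp, LinearMap.toMatrix'_toLin',
    LinearMap.toMatrix'_toLin'] at hmat

/-- Every `GaloisRepAdic` comes from a matrix representation (choose a basis). -/
theorem exists_repFn (ρ : GaloisRepAdic A) :
    ∃ (r : Gal → Matrix (Fin 2) (Fin 2) A) (h : IsRepFn A r), (repOf A h).IsEquiv ρ := by
  classical
  let b : Module.Basis (Fin 2) A ρ.V := Module.finBasisOfFinrankEq A ρ.V ρ.finrank_eq
  let r : Gal → Matrix (Fin 2) (Fin 2) A := fun σ => LinearMap.toMatrix b b (ρ.ρ σ)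
  have hr : IsRepFn A r := by
    refine ⟨?_, ?_, ?_⟩
    · show LinearMap.toMatrix b b (ρ.ρ 1) = 1
      rw [_root_.map_one]
      exact LinearMap.toMatrix_one b
    · intro g g'
      show LinearMap.toMatrix b b (ρ.ρ (g * g')) =
        LinearMap.toMatrix b b (ρ.ρ g) * LinearMap.toMatrix b b (ρ.ρ g')
      rw [_root_.map_mul]
      exact LinearMap.toMatrix_mul b _ _
    · intro n
      obtain ⟨L, hL, hc⟩ := ρ.isAdicContinuous n
      refine ⟨L, hL, fun σ hσ a c => ?_⟩
      have key : ∀ w ∈ (maximalIdeal A ^ n) • (⊤ : Submodule A ρ.V),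
          ∀ i, b.repr w i ∈ maximalIdeal A ^ n := by
        intro w hw i
        refine Submodule.smul_induction_on (p := fun w => b.repr w i ∈ maximalIdeal A ^ n) hw
          ?_ ?_
        · intro s hs v _
          rw [_root_.map_smul, Finsupp.smul_apply, smul_eq_mul]
          exact Ideal.mul_mem_right _ _ hs
        · intro x y hx hy
          rw [_root_.map_add, Finsupp.add_apply]
          exact Ideal.add_mem _ hx hy
      have hent : (r σ - 1) a c = b.repr (ρ.ρ σ (b c) - b c) a := by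
        show (LinearMap.toMatrix b b (ρ.ρ σ) - 1) a c = b.repr (ρ.ρ σ (b c) - b c) a
        rw [Matrix.sub_apply, LinearMap.toMatrix_apply, _root_.map_sub, Finsupp.sub_apply,
          Module.Basis.repr_self, Matrix.one_apply, Finsupp.single_apply]
        by_cases hac : a = c
        · rw [if_pos hac, if_pos hac.symm]
        · rw [if_neg hac, if_neg (Ne.symm hac)]
      rw [hent]
      exact key _ (hc σ hσ (b c)) a
  refine ⟨r, hr, ⟨⟨b.equivFun.symm, ?_⟩⟩⟩
  intro σ (x : Fin 2 → A)
  show b.equivFun.symm (Matrix.toLin' (LinearMap.toMatrix b b (ρ.ρ σ)) x) =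
    ρ.ρ σ (b.equivFun.symm x)
  apply b.equivFun.injective
  rw [LinearEquiv.apply_symm_apply, Matrix.toLin'_apply, Module.Basis.equivFun_apply,
    ← LinearMap.toMatrix_mulVec_repr b b (ρ.ρ σ) (b.equivFun.symm x)]
  congr 1
  have hx : b.equivFun (b.equivFun.symm x) = x := LinearEquiv.apply_symm_apply _ _
  rw [Module.Basis.equivFun_apply] at hx
  exact hx.symm

variable [Algebra 𝒪 A] [Algebra 𝒪 B] (D : RigidData 𝒪)

/-- Normalized lifts map along local `𝒪`-algebra homomorphisms. -/
theorem IsNLift.map {r : Gal → Matrix (Fin 2) (Fin 2) A} (h : IsNLift A D r) (φ : A →ₐ[𝒪] B)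
    (hφ : IsLocalHom (φ : A →+* B)) : IsNLift B D (fun g => (r g).map φ) := by
  refine { toIsRepFn := h.toIsRepFn.map (φ : A →+* B) hφ, res := ?_, norm0 := ?_, norm1 := ?_,
           norm2 := ?_ }
  · intro g a b
    have hent : (r g).map φ a b - algebraMap 𝒪 B (D.ρt g a b) =
        (φ : A →+* B) (r g a b - algebraMap 𝒪 A (D.ρt g a b)) := by
      rw [Matrix.map_apply, map_sub, RingHom.coe_coe, AlgHom.commutes]
    show (r g).map φ a b - algebraMap 𝒪 B (D.ρt g a b) ∈ maximalIdeal B
    rw [hent]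
    exact (haveI := hφ; map_nonunit (φ : A →+* B) _ (h.res g a b))
  · show (r D.g0).map φ 0 0 = 0
    rw [Matrix.map_apply, h.norm0, map_zero]
  · show (r D.g0).map φ 1 0 = 1
    rw [Matrix.map_apply, h.norm1, map_one]
  · show (r D.h0).map φ D.i0 D.j0 = algebraMap 𝒪 B (D.ρt D.h0 D.i0 D.j0)
    rw [Matrix.map_apply, h.norm2, AlgHom.commutes]

set_option linter.unusedVariables false in
/-- Normalized lifts descend along injective maps into a ring with nilpotent maximal ideal. -/
theorem IsNLift.of_map_injective {r : Gal → Matrix (Fin 2) (Fin 2) A} (φ : A →ₐ[𝒪] B)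
    (hφ : IsLocalHom (φ : A →+* B)) (hinj : Function.Injective φ)
    (hnil : ∃ n : ℕ, maximalIdeal B ^ n = ⊥)
    (h : IsNLift B D (fun g => (r g).map φ)) : IsNLift A D r := by
  have hminj : Function.Injective (fun M : Matrix (Fin 2) (Fin 2) A => M.map φ) :=
    Matrix.map_injective hinj
  refine { map_one := ?_, map_mul := ?_, cont := ?_, res := ?_, norm0 := ?_, norm1 := ?_,
           norm2 := ?_ }
  · apply hminj
    show (r 1).map φ = (1 : Matrix (Fin 2) (Fin 2) A).map φ
    rw [Matrix.map_one φ (_root_.map_zero φ) (_root_.map_one φ)]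
    exact h.map_one
  · intro g g'
    apply hminj
    show (r (g * g')).map φ = (r g * r g').map φ
    rw [Matrix.map_mul]
    exact h.map_mul g g'
  · intro n
    obtain ⟨N, hN⟩ := hnil
    obtain ⟨L, hL, hc⟩ := h.cont N
    refine ⟨L, hL, fun σ hσ a b => ?_⟩
    have h0 : (r σ - 1) a b = 0 := by
      apply hinj
      have h1 : ((r σ).map φ - 1) a b ∈ maximalIdeal B ^ N := hc σ hσ a b
      rw [hN, Ideal.mem_bot] at h1
      rw [_root_.map_zero, ← h1]
      exact (Dict1.aux_map_sub_one_apply (φ : A →+* B) (r σ) a b).symm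
    rw [h0]
    exact Ideal.zero_mem _
  · intro g a b
    apply Dict1.aux_mem_maximalIdeal_of_map (φ : A →+* B)
    have h1 : (r g).map φ a b - algebraMap 𝒪 B (D.ρt g a b) ∈ maximalIdeal B := h.res g a b
    rw [RingHom.coe_coe, _root_.map_sub, AlgHom.commutes]
    exact h1
  · apply hinj
    rw [_root_.map_zero]
    exact h.norm0
  · apply hinj
    rw [_root_.map_one]
    exact h.norm1
  · apply hinj
    rw [AlgHom.commutes]
    exact h.norm2

set_option linter.unusedVariables false in
/-- Normalized lifts descend along a jointly injective pair of local maps. -/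
theorem IsNLift.of_pair {P : Type} [CommRing P] [IsLocalRing P] [Algebra 𝒪 P]
    {r : Gal → Matrix (Fin 2) (Fin 2) P} (pA : P →ₐ[𝒪] A) (pB : P →ₐ[𝒪] B)
    (hpA : IsLocalHom (pA : P →+* A)) (hpB : IsLocalHom (pB : P →+* B))
    (hinj : Function.Injective (fun z => (pA z, pB z)))
    (hnilA : ∃ n : ℕ, maximalIdeal A ^ n = ⊥) (hnilB : ∃ n : ℕ, maximalIdeal B ^ n = ⊥)
    (hA : IsNLift A D (fun g => (r g).map pA)) (hB : IsNLift B D (fun g => (r g).map pB)) :
    IsNLift P D r := by
  have hext : ∀ x y : P, pA x = pA y → pB x = pB y → x = y :=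
    fun x y h1 h2 => hinj (Prod.ext h1 h2)
  have hmext : ∀ M N : Matrix (Fin 2) (Fin 2) P, M.map pA = N.map pA → M.map pB = N.map pB →
      M = N := by
    intro M N h1 h2
    ext i j
    refine hext _ _ ?_ ?_
    · have := congrFun (congrFun h1 i) j
      rwa [Matrix.map_apply, Matrix.map_apply] at this
    · have := congrFun (congrFun h2 i) j
      rwa [Matrix.map_apply, Matrix.map_apply] at this
  refine { map_one := ?_, map_mul := ?_, cont := ?_, res := ?_, norm0 := ?_, norm1 := ?_,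
           norm2 := ?_ }
  · apply hmext
    · rw [Matrix.map_one pA (_root_.map_zero pA) (_root_.map_one pA)]
      exact hA.map_one
    · rw [Matrix.map_one pB (_root_.map_zero pB) (_root_.map_one pB)]
      exact hB.map_one
  · intro g g'
    apply hmext
    · rw [Matrix.map_mul]
      exact hA.map_mul g g'
    · rw [Matrix.map_mul]
      exact hB.map_mul g g'
  · intro n
    obtain ⟨NA, hNA⟩ := hnilA
    obtain ⟨NB, hNB⟩ := hnilB
    obtain ⟨LA, hLA, hcA⟩ := hA.cont NA
    obtain ⟨LB, hLB, hcB⟩ := hB.cont NB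
    have := hLA
    have := hLB
    refine ⟨LA ⊔ LB, IntermediateField.finiteDimensional_sup LA LB, fun σ hσ a b => ?_⟩
    have h0 : (r σ - 1) a b = 0 := by
      apply hext
      · have h1 : ((r σ).map pA - 1) a b ∈ maximalIdeal A ^ NA :=
          hcA σ (fun x hx => hσ x ((le_sup_left : LA ≤ LA ⊔ LB) hx)) a b
        rw [hNA, Ideal.mem_bot] at h1
        rw [_root_.map_zero, ← h1]
        exact (Dict1.aux_map_sub_one_apply (pA : P →+* A) (r σ) a b).symm
      · have h1 : ((r σ).map pB - 1) a b ∈ maximalIdeal B ^ NB :=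
          hcB σ (fun x hx => hσ x ((le_sup_right : LB ≤ LA ⊔ LB) hx)) a b
        rw [hNB, Ideal.mem_bot] at h1
        rw [_root_.map_zero, ← h1]
        exact (Dict1.aux_map_sub_one_apply (pB : P →+* B) (r σ) a b).symm
    rw [h0]
    exact Ideal.zero_mem _
  · intro g a b
    apply Dict1.aux_mem_maximalIdeal_of_map (pA : P →+* A)
    have h1 : (r g).map pA a b - algebraMap 𝒪 A (D.ρt g a b) ∈ maximalIdeal A := hA.res g a b
    rw [RingHom.coe_coe, _root_.map_sub, AlgHom.commutes]
    exact h1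
  · apply hext
    · rw [_root_.map_zero]
      exact hA.norm0
    · rw [_root_.map_zero]
      exact hB.norm0
  · apply hext
    · rw [_root_.map_one]
      exact hA.norm1
    · rw [_root_.map_one]
      exact hB.norm1
  · apply hext
    · rw [AlgHom.commutes]
      exact hA.norm2
    · rw [AlgHom.commutes]
      exact hB.norm2

/-- The base point: the residual matrices form a normalized lift over the residue field. -/
theorem isNLift_base : IsNLift (ResidueField 𝒪) D (fun g => (D.ρt g).map (residue 𝒪)) := by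
  refine { map_one := D.res_one, map_mul := D.res_mul, cont := ?_, res := ?_, norm0 := ?_,
           norm1 := ?_, norm2 := ?_ }
  · intro n
    obtain ⟨L, hL, hc⟩ := D.level
    refine ⟨L, hL, fun σ hσ a b => ?_⟩
    show ((D.ρt σ).map (residue 𝒪) - 1) a b ∈ maximalIdeal (ResidueField 𝒪) ^ n
    rw [hc σ hσ, sub_self]
    exact Ideal.zero_mem _
  · intro g a b
    show (D.ρt g).map (residue 𝒪) a b - algebraMap 𝒪 (ResidueField 𝒪) (D.ρt g a b) ∈
      maximalIdeal (ResidueField 𝒪)
    rw [IsLocalRing.ResidueField.algebraMap_eq, Matrix.map_apply, sub_self]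
    exact Ideal.zero_mem _
  · show (D.ρt D.g0).map (residue 𝒪) 0 0 = 0
    rw [Matrix.map_apply, D.g0_col0, map_zero]
  · show (D.ρt D.g0).map (residue 𝒪) 1 0 = 1
    rw [Matrix.map_apply, D.g0_col1, map_one]
  · show (D.ρt D.h0).map (residue 𝒪) D.i0 D.j0 =
      algebraMap 𝒪 (ResidueField 𝒪) (D.ρt D.h0 D.i0 D.j0)
    rw [IsLocalRing.ResidueField.algebraMap_eq, Matrix.map_apply]

/-- The base point is the residual representation of the rigid data. -/
theorem repOf_base_isEquiv :
    (repOf (ResidueField 𝒪) (isNLift_base D).toIsRepFn).IsEquiv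
      (GaloisRepAdic.ofResidualGaloisRep D.resRep) := by
  exact ⟨⟨LinearEquiv.refl _ _, fun σ x => rfl⟩⟩

/-- Equivalent residual representations give equivalent `GaloisRepAdic`s over the field. -/
theorem ofResidual_isEquiv {k : Type} [Field k] {ρ₁ ρ₂ : ResidualGaloisRep k}
    (e : ResidualGaloisRep.Equiv ρ₁ ρ₂) :
    (GaloisRepAdic.ofResidualGaloisRep ρ₁).IsEquiv (GaloisRepAdic.ofResidualGaloisRep ρ₂) := by
  exact ⟨⟨e.toLinearEquiv, e.map_apply⟩⟩

/-- A family over a complete noetherian local ring all of whose reductions mod `𝔪ⁿ` are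
normalized lifts is a normalized lift. -/
theorem isNLift_of_quotients [IsNoetherianRing A] [IsAdicComplete (maximalIdeal A) A]
    (r : Gal → Matrix (Fin 2) (Fin 2) A)
    (h : ∀ (n : ℕ) [IsLocalRing (A ⧸ maximalIdeal A ^ n)],
      IsNLift (A ⧸ maximalIdeal A ^ n) D (fun g => (r g).map (Ideal.Quotient.mk _))) :
    IsNLift A D r := by
  have hloc : ∀ n : ℕ, 1 ≤ n → IsLocalRing (A ⧸ maximalIdeal A ^ n) := fun n hn =>
    Dict1.aux_isLocalRing_quotient _ (Dict1.aux_maximalIdeal_pow_ne_top n hn)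
  have hmsep : ∀ M N : Matrix (Fin 2) (Fin 2) A,
      (∀ n : ℕ, 1 ≤ n → M.map (Ideal.Quotient.mk (maximalIdeal A ^ n)) =
        N.map (Ideal.Quotient.mk (maximalIdeal A ^ n))) → M = N := by
    intro M N hMN
    ext i j
    refine Dict1.aux_eq_of_forall_mk_eq _ _ fun n hn => ?_
    have := congrFun (congrFun (hMN n hn) i) j
    rwa [Matrix.map_apply, Matrix.map_apply] at this
  refine { map_one := ?_, map_mul := ?_, cont := ?_, res := ?_, norm0 := ?_, norm1 := ?_,
           norm2 := ?_ }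
  · apply hmsep
    intro n hn
    have := hloc n hn
    rw [Matrix.map_one _ (_root_.map_zero _) (_root_.map_one _)]
    exact (h n).map_one
  · intro g g'
    apply hmsep
    intro n hn
    have := hloc n hn
    rw [Matrix.map_mul]
    exact (h n).map_mul g g'
  · intro n
    rcases Nat.eq_zero_or_pos n with rfl | hn
    · have := hloc 1 le_rfl
      obtain ⟨L, hL, -⟩ := (h 1).cont 0
      refine ⟨L, hL, fun σ _ a b => ?_⟩
      rw [pow_zero, Ideal.one_eq_top]
      exact Submodule.mem_top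
    · have := hloc n hn
      obtain ⟨L, hL, hc⟩ := (h n).cont n
      refine ⟨L, hL, fun σ hσ a b => ?_⟩
      have h1 : ((r σ).map (Ideal.Quotient.mk (maximalIdeal A ^ n)) - 1) a b ∈
          maximalIdeal (A ⧸ maximalIdeal A ^ n) ^ n := hc σ hσ a b
      rw [Dict1.aux_maximalIdeal_quotient_pow_eq_bot n, Ideal.mem_bot,
        Dict1.aux_map_sub_one_apply] at h1
      exact Ideal.Quotient.eq_zero_iff_mem.mp h1
  · intro g a b
    have := hloc 1 le_rfl
    apply Dict1.aux_mem_maximalIdeal_of_map (Ideal.Quotient.mk (maximalIdeal A ^ 1))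
    have h1 : (r g).map (Ideal.Quotient.mk (maximalIdeal A ^ 1)) a b -
        algebraMap 𝒪 (A ⧸ maximalIdeal A ^ 1) (D.ρt g a b) ∈
        maximalIdeal (A ⧸ maximalIdeal A ^ 1) := (h 1).res g a b
    rw [_root_.map_sub]
    exact h1
  · refine Dict1.aux_eq_of_forall_mk_eq _ _ fun n hn => ?_
    have := hloc n hn
    rw [_root_.map_zero]
    exact (h n).norm0
  · refine Dict1.aux_eq_of_forall_mk_eq _ _ fun n hn => ?_
    have := hloc n hn
    rw [_root_.map_one]
    exact (h n).norm1
  · refine Dict1.aux_eq_of_forall_mk_eq _ _ fun n hn => ?_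
    have := hloc n hn
    exact (h n).norm2

end

end Fermat.Agent.S53b
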