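import Fermat.Agent.S53b.Defs
import Fermat.Agent.S53b.Dict1

/-!
# S53b / G2b: dictionary, part 2 (residual representations)
-/

set_option autoImplicit false

namespace Fermat.Agent.S53b.Dict2

open IsLocalRing

/-- The standard identification `S ⊗[R] R² ≃ S²` intertwines the base change of a matrix with the
mapped matrix. -/
theorem piScalarRight_baseChange {R S : Type} [CommRing R] [CommRing S] [Algebra R S]
    (M : Matrix (Fin 2) (Fin 2) R) (x : TensorProduct R S (Fin 2 → R)) :
    TensorProduct.piScalarRight R S S (Fin 2) ((Matrix.toLin' M).baseChange S x) =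
      Matrix.toLin' (M.map (algebraMap R S)) (TensorProduct.piScalarRight R S S (Fin 2) x) := by
  induction x using TensorProduct.induction_on with
  | zero => simp only [map_zero]
  | tmul b v =>
    rw [LinearMap.baseChange_tmul]
    ext j
    simp only [TensorProduct.piScalarRight_apply, TensorProduct.piScalarRightHom_tmul,
      Matrix.toLin'_apply, Matrix.mulVec, dotProduct, Matrix.map_apply, Algebra.smul_def,
      map_sum, map_mul, Finset.sum_mul, mul_assoc]
  | add x y hx hy => simp only [map_add, hx, hy]

/-- Inverse form of `piScalarRight_baseChange`. -/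
theorem piScalarRight_symm_toLin' {R S : Type} [CommRing R] [CommRing S] [Algebra R S]
    (M : Matrix (Fin 2) (Fin 2) R) (v : Fin 2 → S) :
    (TensorProduct.piScalarRight R S S (Fin 2)).symm
        (Matrix.toLin' (M.map (algebraMap R S)) v) =
      (Matrix.toLin' M).baseChange S ((TensorProduct.piScalarRight R S S (Fin 2)).symm v) := by
  apply (TensorProduct.piScalarRight R S S (Fin 2)).injective
  rw [LinearEquiv.apply_symm_apply, piScalarRight_baseChange, LinearEquiv.apply_symm_apply]

/-- The identification `S ⊗[R] R² ≃ S²` for the algebra structure given by a ring homomorphism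
(generic rings, so that no other algebra instance can interfere). -/
noncomputable def piEquivAlong {R S : Type} [CommRing R] [CommRing S] (φ : R →+* S) :
    letI : Algebra R S := φ.toAlgebra
    TensorProduct R S (Fin 2 → R) ≃ₗ[S] (Fin 2 → S) :=
  letI : Algebra R S := φ.toAlgebra
  TensorProduct.piScalarRight R S S (Fin 2)

theorem piEquivAlong_baseChange {R S : Type} [CommRing R] [CommRing S] (φ : R →+* S)
    (M : Matrix (Fin 2) (Fin 2) R) :
    letI : Algebra R S := φ.toAlgebra
    ∀ x : TensorProduct R S (Fin 2 → R),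
      piEquivAlong φ ((Matrix.toLin' M).baseChange S x) =
        Matrix.toLin' (M.map φ) (piEquivAlong φ x) := by
  intro x
  have := @piScalarRight_baseChange R S _ _ φ.toAlgebra M x
  rw [RingHom.algebraMap_toAlgebra] at this
  exact this

section

variable {𝒪 : Type} [CommRing 𝒪] [IsLocalRing 𝒪]
variable {A : Type} [CommRing A] [IsLocalRing A] [Algebra 𝒪 A] [IsLocalHom (algebraMap 𝒪 A)]
variable (D : RigidData 𝒪)

/-- The two descriptions of the residual matrices of `D` over the residue field of `A`. -/
theorem map_map_eq (g : Gal) :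
    ((D.ρt g).map (residue 𝒪)).map (ResidueField.map (algebraMap 𝒪 A)) =
      ((D.ρt g).map (algebraMap 𝒪 A)).map (residue A) := by
  ext a b
  simp only [Matrix.map_apply]
  exact ResidueField.map_residue (algebraMap 𝒪 A) (D.ρt g a b)

/-- (R1) the identification of the space of the residual representation of `repOf` with `kA²`. -/
noncomputable def E₁ {r : Gal → Matrix (Fin 2) (Fin 2) A} (h : IsRepFn A r) :
    (repOf A h).residual.V ≃ₗ[ResidueField A] (Fin 2 → ResidueField A) :=
  TensorProduct.piScalarRight A (ResidueField A) (ResidueField A) (Fin 2)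

theorem E₁_apply {r : Gal → Matrix (Fin 2) (Fin 2) A} (h : IsRepFn A r) (σ : Gal)
    (w : (repOf A h).residual.V) :
    E₁ h ((repOf A h).residual.ρ σ w) = Matrix.toLin' ((r σ).map (residue A)) (E₁ h w) := by
  have := piScalarRight_baseChange (R := A) (S := ResidueField A) (r σ) w
  rw [ResidueField.algebraMap_eq] at this
  exact this

/-- (R2) the identification of the space of the base change of `D.resRep` with `kA²`. -/
noncomputable def E₂ :
    (D.resRep.baseChangeAlong (ResidueField.map (algebraMap 𝒪 A))).V ≃ₗ[ResidueField A]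
      (Fin 2 → ResidueField A) :=
  piEquivAlong (ResidueField.map (algebraMap 𝒪 A))

theorem E₂_apply (σ : Gal)
    (w : (D.resRep.baseChangeAlong (ResidueField.map (algebraMap 𝒪 A))).V) :
    E₂ (A := A) D ((D.resRep.baseChangeAlong (ResidueField.map (algebraMap 𝒪 A))).ρ σ w) =
      Matrix.toLin' (((D.ρt σ).map (algebraMap 𝒪 A)).map (residue A)) (E₂ (A := A) D w) := by
  have := piEquivAlong_baseChange (ResidueField.map (algebraMap 𝒪 A))
    ((D.ρt σ).map (residue 𝒪)) w
  rw [map_map_eq] at this
  exact this

end

end Fermat.Agent.S53b.Dict2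

namespace Fermat.Agent.S53b

open IsLocalRing

section

variable {𝒪 : Type} [CommRing 𝒪] [IsLocalRing 𝒪]
variable {A : Type} [CommRing A] [IsLocalRing A] [Algebra 𝒪 A] [IsLocalHom (algebraMap 𝒪 A)]
variable (D : RigidData 𝒪)

/-- The residual representation of a normalized lift is the base change of `D.resRep`. -/
theorem residual_isEquiv_of_isNLift {r : Gal → Matrix (Fin 2) (Fin 2) A} (h : IsNLift A D r) :
    (repOf A h.toIsRepFn).residual.IsEquiv
      (D.resRep.baseChangeAlong (ResidueField.map (algebraMap 𝒪 A))) := by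
  have hmat : ∀ g, (r g).map (residue A) = ((D.ρt g).map (algebraMap 𝒪 A)).map (residue A) := by
    intro g
    ext a b
    simp only [Matrix.map_apply]
    rw [← sub_eq_zero, ← map_sub]
    exact (residue_eq_zero_iff _).mpr (h.res g a b)
  refine ⟨⟨(Dict2.E₁ h.toIsRepFn).trans (Dict2.E₂ (A := A) D).symm, ?_⟩⟩
  intro σ x
  apply (Dict2.E₂ (A := A) D).injective
  rw [LinearEquiv.trans_apply, LinearEquiv.trans_apply, LinearEquiv.apply_symm_apply,
    Dict2.E₂_apply, LinearEquiv.apply_symm_apply, Dict2.E₁_apply, hmat]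

/-- A `GaloisRepAdic` whose residual representation is the base change of `D.resRep` comes from a
matrix representation which is residually conjugate to the matrices of `D`. -/
theorem exists_repFn_of_residual (ρA : GaloisRepAdic A)
    (hres : ρA.residual.IsEquiv (D.resRep.baseChangeAlong (ResidueField.map (algebraMap 𝒪 A)))) :
    ∃ (r : Gal → Matrix (Fin 2) (Fin 2) A) (h : IsRepFn A r), (repOf A h).IsEquiv ρA ∧
      ∃ N : (Matrix (Fin 2) (Fin 2) (ResidueField A))ˣ, ∀ g,
        (N : Matrix (Fin 2) (Fin 2) (ResidueField A)) * (r g).map (residue A) =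
          ((D.ρt g).map (algebraMap 𝒪 A)).map (residue A) * N := by
  obtain ⟨r, h, ⟨e⟩⟩ := exists_repFn ρA
  obtain ⟨e'⟩ := hres
  refine ⟨r, h, ⟨e⟩, ?_⟩
  let F : ResidualGaloisRep.Equiv (repOf A h).residual
      (D.resRep.baseChangeAlong (ResidueField.map (algebraMap 𝒪 A))) := e.residual.trans e'
  let f : (Fin 2 → ResidueField A) ≃ₗ[ResidueField A] (Fin 2 → ResidueField A) :=
    (Dict2.E₁ h).symm.trans (F.toLinearEquiv.trans (Dict2.E₂ (A := A) D))
  have hf : ∀ (σ : Gal) (x : Fin 2 → ResidueField A),
      f (Matrix.toLin' ((r σ).map (residue A)) x) =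
        Matrix.toLin' (((D.ρt σ).map (algebraMap 𝒪 A)).map (residue A)) (f x) := by
    intro σ x
    have h1 : (Dict2.E₁ h).symm (Matrix.toLin' ((r σ).map (residue A)) x) =
        (repOf A h).residual.ρ σ ((Dict2.E₁ h).symm x) := by
      apply (Dict2.E₁ h).injective
      rw [LinearEquiv.apply_symm_apply, Dict2.E₁_apply, LinearEquiv.apply_symm_apply]
    show (Dict2.E₂ (A := A) D) (F.toLinearEquiv ((Dict2.E₁ h).symm
        (Matrix.toLin' ((r σ).map (residue A)) x))) =
      Matrix.toLin' (((D.ρt σ).map (algebraMap 𝒪 A)).map (residue A))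
        ((Dict2.E₂ (A := A) D) (F.toLinearEquiv ((Dict2.E₁ h).symm x)))
    rw [h1, F.map_apply, Dict2.E₂_apply]
  have h1 : LinearMap.toMatrix'
        (f : (Fin 2 → ResidueField A) →ₗ[ResidueField A] (Fin 2 → ResidueField A)) *
      LinearMap.toMatrix'
        (f.symm : (Fin 2 → ResidueField A) →ₗ[ResidueField A] (Fin 2 → ResidueField A)) = 1 := by
    rw [← LinearMap.toMatrix'_comp, LinearEquiv.comp_coe, LinearEquiv.symm_trans_self,
      LinearEquiv.refl_toLinearMap, LinearMap.toMatrix'_id]
  have h2 : LinearMap.toMatrix'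
        (f.symm : (Fin 2 → ResidueField A) →ₗ[ResidueField A] (Fin 2 → ResidueField A)) *
      LinearMap.toMatrix'
        (f : (Fin 2 → ResidueField A) →ₗ[ResidueField A] (Fin 2 → ResidueField A)) = 1 := by
    rw [← LinearMap.toMatrix'_comp, LinearEquiv.comp_coe, LinearEquiv.self_trans_symm,
      LinearEquiv.refl_toLinearMap, LinearMap.toMatrix'_id]
  refine ⟨⟨LinearMap.toMatrix'
      (f : (Fin 2 → ResidueField A) →ₗ[ResidueField A] (Fin 2 → ResidueField A)),
    LinearMap.toMatrix'
      (f.symm : (Fin 2 → ResidueField A) →ₗ[ResidueField A] (Fin 2 → ResidueField A)),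
    h1, h2⟩, ?_⟩
  intro g
  show LinearMap.toMatrix'
      (f : (Fin 2 → ResidueField A) →ₗ[ResidueField A] (Fin 2 → ResidueField A)) *
      (r g).map (residue A) =
    ((D.ρt g).map (algebraMap 𝒪 A)).map (residue A) * LinearMap.toMatrix'
      (f : (Fin 2 → ResidueField A) →ₗ[ResidueField A] (Fin 2 → ResidueField A))
  have hcomp : (f : (Fin 2 → ResidueField A) →ₗ[ResidueField A] (Fin 2 → ResidueField A)).comp
      (Matrix.toLin' ((r g).map (residue A))) =
      (Matrix.toLin' (((D.ρt g).map (algebraMap 𝒪 A)).map (residue A))).comp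
        (f : (Fin 2 → ResidueField A) →ₗ[ResidueField A] (Fin 2 → ResidueField A)) :=
    LinearMap.ext (hf g)
  have hmat := congrArg LinearMap.toMatrix' hcomp
  rwa [LinearMap.toMatrix'_comp, LinearMap.toMatrix'_comp, LinearMap.toMatrix'_toLin',
    LinearMap.toMatrix'_toLin'] at hmat

end

end Fermat.Agent.S53b
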