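import Fermat.Agent.S53b.Defs
import Fermat.Agent.S53b.TestAlg
import Fermat.Agent.S53b.Dict1

/-!
# S53b / G4a: the functor of normalized `𝒟`-lifts satisfies (F1)–(F5)
-/

set_option autoImplicit false

namespace Fermat.Agent.S53b

open IsLocalRing

namespace FunctorA

/-- `ofFam` commutes with maps (local copy, true by unfolding). -/
theorem ofFam_comp' {A B : Type} (φ : A → B) (x : Gal × Fin 2 × Fin 2 → A) :
    ofFam (φ ∘ x) = fun g => (ofFam x g).map φ := by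
  funext g
  ext a b
  rfl

section Goursat

variable {𝒪 : Type} [CommRing 𝒪] [IsLocalRing 𝒪]

/-- The kernel of a ring homomorphism into a nontrivial ring lies in the maximal ideal. -/
theorem ker_le_maximalIdeal {P B : Type} [CommRing P] [IsLocalRing P] [CommRing B] [Nontrivial B]
    (p : P →+* B) : RingHom.ker p ≤ maximalIdeal P := by
  intro z hz
  rw [mem_maximalIdeal, mem_nonunits_iff]
  intro hu
  have h1 : IsUnit (p z) := hu.map p
  rw [RingHom.mem_ker] at hz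
  rw [hz] at h1
  exact not_isUnit_zero h1

/-- Goursat presentation: a jointly surjective pair of surjections `P → A`, `P → B` of test
algebras is the fibre product of `A` and `B` over a common quotient `C` (as far as the
lifting property is concerned). -/
theorem goursat {A B P : Type} [CommRing A] [IsLocalRing A] [Algebra 𝒪 A]
    [CommRing B] [IsLocalRing B] [Algebra 𝒪 B] [CommRing P] [IsLocalRing P] [Algebra 𝒪 P]
    (hA : IsATA 𝒪 A) (pA : P →ₐ[𝒪] A) (pB : P →ₐ[𝒪] B)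
    (hpA : IsLocalHom (pA : P →+* A))
    (hsA : Function.Surjective pA) (hsB : Function.Surjective pB) :
    ∃ (C : Type) (_ : CommRing C) (_ : IsLocalRing C) (_ : Algebra 𝒪 C)
      (f : A →ₐ[𝒪] C) (g : B →ₐ[𝒪] C),
      IsATA 𝒪 C ∧ f.comp pA = g.comp pB ∧ ∀ a b, f a = g b → ∃ z, pA z = a ∧ pB z = b := by
  classical
  -- the ideal `I₁ = pA (ker pB)` of `A`
  let I₁ : Ideal A := Ideal.map (pA : P →+* A) (RingHom.ker (pB : P →+* B))
  have hker_le : RingHom.ker (pB : P →+* B) ≤ maximalIdeal P :=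
    ker_le_maximalIdeal (pB : P →+* B)
  have hI_le : I₁ ≤ maximalIdeal A := by
    refine Ideal.map_le_iff_le_comap.mpr (fun z hz => ?_)
    have hz' : z ∈ maximalIdeal P := hker_le hz
    rw [Ideal.mem_comap, mem_maximalIdeal, mem_nonunits_iff]
    intro hu
    rw [mem_maximalIdeal, mem_nonunits_iff] at hz'
    exact hz' (hpA.map_nonunit z hu)
  have hI_ne : I₁ ≠ ⊤ := by
    intro h
    have h1 : (1 : A) ∈ maximalIdeal A := hI_le (h ▸ Submodule.mem_top)
    exact (Ideal.ne_top_iff_one _).mp (Ideal.IsMaximal.ne_top (maximalIdeal.isMaximal A)) h1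
  have hloc : IsLocalRing (A ⧸ I₁) := isLocalRing_quotient I₁ hI_ne
  let f : A →ₐ[𝒪] A ⧸ I₁ := Ideal.Quotient.mkₐ 𝒪 I₁
  have hf : Function.Surjective f := Ideal.Quotient.mkₐ_surjective 𝒪 I₁
  have hC : IsATA 𝒪 (A ⧸ I₁) := hA.of_surjective f hf
  have hkill : RingHom.ker pB.toRingHom ≤ RingHom.ker (f.comp pA).toRingHom := by
    intro z hz
    rw [RingHom.mem_ker]
    show Ideal.Quotient.mk I₁ (pA z) = 0
    rw [Ideal.Quotient.eq_zero_iff_mem]
    exact Ideal.mem_map_of_mem (pA : P →+* A) hz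
  let g : B →ₐ[𝒪] A ⧸ I₁ := AlgHom.liftOfSurjective pB hsB (f.comp pA) hkill
  have hg : ∀ z : P, g (pB z) = f (pA z) := fun z =>
    AlgHom.liftOfSurjective_apply pB hsB (f.comp pA) hkill z
  refine ⟨A ⧸ I₁, inferInstance, inferInstance, inferInstance, f, g, hC, ?_, ?_⟩
  · ext z
    exact (hg z).symm
  · intro a b hab
    obtain ⟨z₀, rfl⟩ := hsB b
    rw [hg z₀] at hab
    have hmem : a - pA z₀ ∈ I₁ := (Ideal.Quotient.eq).mp hab
    obtain ⟨w, hw, hw'⟩ := (Ideal.mem_map_iff_of_surjective (pA : P →+* A) hsA).mp hmem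
    refine ⟨z₀ + w, ?_, ?_⟩
    · have hw'' : pA w = a - pA z₀ := hw'
      rw [map_add, hw'']
      ring
    · have hw0 : pB w = 0 := hw
      rw [map_add, hw0, add_zero]

end Goursat

end FunctorA

section

variable {𝒪 : Type} [CommRing 𝒪] [IsLocalRing 𝒪]
variable (D : RigidData 𝒪)
variable (𝒟 : ∀ ⦃A : Type⦄ [CommRing A] [IsLocalRing A] [Algebra 𝒪 A], GaloisRepAdic A → Prop)

/-- (F1) for the functor of normalized `𝒟`-lifts: base change along local maps of test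
algebras. -/
theorem FD_baseChange (h𝒟 : GaloisRep.IsDeformationCondition 𝒪 𝒟) {A B : Type} [CommRing A]
    [IsLocalRing A] [Algebra 𝒪 A] [CommRing B] [IsLocalRing B] [Algebra 𝒪 B] (hA : IsATA 𝒪 A)
    (hB : IsATA 𝒪 B) (φ : A →ₐ[𝒪] B) (hφ : IsLocalHom (φ : A →+* B))
    (x : Gal × Fin 2 × Fin 2 → A) (hx : FD D 𝒟 A x) : FD D 𝒟 B (φ ∘ x) := by
  obtain ⟨h, hd⟩ := hx
  have h1 : IsNLift B D (fun g => (ofFam x g).map φ) := h.map D φ hφ
  have h' : IsNLift B D (ofFam (φ ∘ x)) := by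
    rw [FunctorA.ofFam_comp']
    exact h1
  refine ⟨h', ?_⟩
  have h2 : IsRepFn B (fun g => (ofFam x g).map (φ : A →+* B)) := h1.toIsRepFn
  have e : ((repOf A h.toIsRepFn).baseChangeAlong (φ : A →+* B) hφ).IsEquiv (repOf B h2) :=
    baseChange_isEquiv h.toIsRepFn (φ : A →+* B) hφ h2
  have hd' : 𝒟 ((repOf A h.toIsRepFn).baseChangeAlong (φ : A →+* B) hφ) :=
    h𝒟.baseChangeAlong hA hB φ hφ hd
  exact h𝒟.of_isEquiv hB e hd'

namespace FunctorA

/-- (F2) for the functor of normalized `𝒟`-lifts: descent along injective local maps. -/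
theorem FD_descent (h𝒟 : GaloisRep.IsDeformationCondition 𝒪 𝒟) {A B : Type} [CommRing A]
    [IsLocalRing A] [Algebra 𝒪 A] [CommRing B] [IsLocalRing B] [Algebra 𝒪 B] (hA : IsATA 𝒪 A)
    (hB : IsATA 𝒪 B) (φ : A →ₐ[𝒪] B) (hφ : IsLocalHom (φ : A →+* B))
    (hinj : Function.Injective φ)
    (x : Gal × Fin 2 × Fin 2 → A) (hx : FD D 𝒟 B (φ ∘ x)) : FD D 𝒟 A x := by
  obtain ⟨h', hd'⟩ := hx
  have h1 : IsNLift B D (fun g => (ofFam x g).map φ) := by
    rw [← FunctorA.ofFam_comp']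
    exact h'
  have h : IsNLift A D (ofFam x) :=
    IsNLift.of_map_injective D φ hφ hinj hB.exists_pow_eq_bot h1
  refine ⟨h, ?_⟩
  have h2 : IsRepFn B (fun g => (ofFam x g).map (φ : A →+* B)) := h1.toIsRepFn
  have e : ((repOf A h.toIsRepFn).baseChangeAlong (φ : A →+* B) hφ).IsEquiv (repOf B h2) :=
    baseChange_isEquiv h.toIsRepFn (φ : A →+* B) hφ h2
  obtain ⟨e'⟩ := e
  have hd2 : 𝒟 (repOf B h2) := hd'
  have hd3 : 𝒟 ((repOf A h.toIsRepFn).baseChangeAlong (φ : A →+* B) hφ) :=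
    h𝒟.of_isEquiv hB ⟨e'.symm⟩ hd2
  exact h𝒟.of_baseChangeAlong_injective hA hB φ hφ hinj hd3

/-- (F3) for the functor of normalized `𝒟`-lifts: pairs. -/
theorem FD_pair (h𝒟 : GaloisRep.IsDeformationCondition 𝒪 𝒟) {A B P : Type}
    [CommRing A] [IsLocalRing A] [Algebra 𝒪 A]
    [CommRing B] [IsLocalRing B] [Algebra 𝒪 B] [CommRing P] [IsLocalRing P] [Algebra 𝒪 P]
    (hA : IsATA 𝒪 A) (hB : IsATA 𝒪 B) (hP : IsATA 𝒪 P)
    (pA : P →ₐ[𝒪] A) (pB : P →ₐ[𝒪] B) (hpA : IsLocalHom (pA : P →+* A))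
    (hpB : IsLocalHom (pB : P →+* B))
    (hinj : Function.Injective (fun z => (pA z, pB z))) (hsA : Function.Surjective pA)
    (hsB : Function.Surjective pB)
    (x : Gal × Fin 2 × Fin 2 → P) (hxA : FD D 𝒟 A (pA ∘ x)) (hxB : FD D 𝒟 B (pB ∘ x)) :
    FD D 𝒟 P x := by
  obtain ⟨hA', hdA'⟩ := hxA
  obtain ⟨hB', hdB'⟩ := hxB
  have hA1 : IsNLift A D (fun g => (ofFam x g).map pA) := by
    rw [← FunctorA.ofFam_comp']
    exact hA'
  have hB1 : IsNLift B D (fun g => (ofFam x g).map pB) := by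
    rw [← FunctorA.ofFam_comp']
    exact hB'
  have h : IsNLift P D (ofFam x) :=
    IsNLift.of_pair D pA pB hpA hpB hinj hA.exists_pow_eq_bot hB.exists_pow_eq_bot hA1 hB1
  refine ⟨h, ?_⟩
  -- the two base changes satisfy `𝒟`
  have hA2 : IsRepFn A (fun g => (ofFam x g).map (pA : P →+* A)) := hA1.toIsRepFn
  have hB2 : IsRepFn B (fun g => (ofFam x g).map (pB : P →+* B)) := hB1.toIsRepFn
  obtain ⟨eA⟩ := baseChange_isEquiv h.toIsRepFn (pA : P →+* A) hpA hA2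
  obtain ⟨eB⟩ := baseChange_isEquiv h.toIsRepFn (pB : P →+* B) hpB hB2
  have hdA2 : 𝒟 (repOf A hA2) := hdA'
  have hdB2 : 𝒟 (repOf B hB2) := hdB'
  have hdA : 𝒟 ((repOf P h.toIsRepFn).baseChangeAlong (pA : P →+* A) hpA) :=
    h𝒟.of_isEquiv hA ⟨eA.symm⟩ hdA2
  have hdB : 𝒟 ((repOf P h.toIsRepFn).baseChangeAlong (pB : P →+* B) hpB) :=
    h𝒟.of_isEquiv hB ⟨eB.symm⟩ hdB2
  -- Goursat presentation
  obtain ⟨C, _, _, _, f, g, hC, hcomp, hfib⟩ := FunctorA.goursat hA pA pB hpA hsA hsB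
  exact h𝒟.of_fibreProduct hA hB hC hP f g pA pB hpA hpB hcomp hinj hfib hdA hdB

end FunctorA

/-- The functor of normalized `𝒟`-lifts is good, given the base point and a tangent bound. -/
theorem isGoodFunctor_FD [Finite (ResidueField 𝒪)] (h𝒟 : GaloisRep.IsDeformationCondition 𝒪 𝒟)
    (hbase : 𝒟 (repOf (ResidueField 𝒪) (isNLift_base D).toIsRepFn))
    (htan : ∃ T : ℕ, ∀ {B : Type} [CommRing B] [IsLocalRing B] [Algebra 𝒪 B], IsATA 𝒪 B →
      maximalIdeal B ^ 2 = ⊥ → (∀ a ∈ maximalIdeal 𝒪, algebraMap 𝒪 B a = 0) →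
      ∀ x : Gal × Fin 2 × Fin 2 → B, FD D 𝒟 B x → Algebra.adjoin 𝒪 (Set.range x) = ⊤ →
        Nat.card B ≤ T) :
    IsGoodFunctor 𝒪 (FD D 𝒟) D.x0 := by
  refine
    { baseChange := ?_
      descent := ?_
      pair := ?_
      residual := ?_
      base := ?_
      tangent := htan }
  · intro A B _ _ _ _ _ _ hA hB φ hφ x hx
    exact FD_baseChange D 𝒟 h𝒟 hA hB φ hφ x hx
  · intro A B _ _ _ _ _ _ hA hB φ hφ hinj x hx
    exact FunctorA.FD_descent D 𝒟 h𝒟 hA hB φ hφ hinj x hx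
  · intro A B P _ _ _ _ _ _ _ _ _ hA hB hP pA pB hpA hpB hinj hsA hsB x hxA hxB
    exact FunctorA.FD_pair D 𝒟 h𝒟 hA hB hP pA pB hpA hpB hinj hsA hsB x hxA hxB
  · intro A _ _ _ _ x hx γ
    obtain ⟨h, -⟩ := hx
    obtain ⟨g, a, b⟩ := γ
    exact h.res g a b
  · have h0 : ofFam (fun γ => residue 𝒪 (D.x0 γ)) = fun g => (D.ρt g).map (residue 𝒪) := by
      funext g
      ext a b
      rfl
    have h1 : IsNLift (ResidueField 𝒪) D (ofFam (fun γ => residue 𝒪 (D.x0 γ))) := by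
      rw [h0]
      exact isNLift_base D
    exact ⟨h1, hbase⟩

end

end Fermat.Agent.S53b
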