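import Fermat.Agent.S53b.Defs

/-!
# S53b / G3a: rigidity of normalized lifts
-/

set_option autoImplicit false

namespace Fermat.Agent.S53b.Rigidity

/-- The key `2 × 2` identity: conjugating `Y` by `a + b X` changes it by a multiple of the
commutator `[Y, X]`. -/
theorem key_identity {A : Type} [CommRing A] (X Y : Matrix (Fin 2) (Fin 2) A) (a b : A) :
    Matrix.adjugate (a • (1 : Matrix (Fin 2) (Fin 2) A) + b • X) * Y * (a • 1 + b • X)
      - (a • (1 : Matrix (Fin 2) (Fin 2) A) + b • X).det • Y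
      = b • ((Y * X - X * Y) * (a • 1 + b • X)) := by
  obtain ⟨x00, x01, x10, x11, rfl⟩ : ∃ x00 x01 x10 x11, X = !![x00, x01; x10, x11] :=
    ⟨_, _, _, _, Matrix.eta_fin_two X⟩
  obtain ⟨y00, y01, y10, y11, rfl⟩ : ∃ y00 y01 y10 y11, Y = !![y00, y01; y10, y11] :=
    ⟨_, _, _, _, Matrix.eta_fin_two Y⟩
  rw [Matrix.one_fin_two]
  simp only [Matrix.smul_of, Matrix.smul_cons, Matrix.smul_empty, smul_eq_mul, Matrix.of_add_of,
    Matrix.cons_add_cons, Matrix.empty_add_empty, Matrix.adjugate_fin_two_of, Matrix.det_fin_two_of,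
    Matrix.mul_fin_two, Matrix.of_sub_of, Matrix.cons_sub_cons, Matrix.empty_sub_empty]
  ext i j
  fin_cases i <;> fin_cases j <;> simp <;> ring

/-- An intertwiner between two matrices with first column `(0, 1)` is of the form `a + b X'`. -/
theorem eq_smul_one_add {A : Type} [CommRing A] (M X X' : Matrix (Fin 2) (Fin 2) A)
    (hX0 : X 0 0 = 0) (hX1 : X 1 0 = 1) (hX'0 : X' 0 0 = 0) (hX'1 : X' 1 0 = 1)
    (h : M * X = X' * M) :
    M = M 0 0 • (1 : Matrix (Fin 2) (Fin 2) A) + M 1 0 • X' := by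
  have h0 := congrFun (congrFun h 0) 0
  have h1 := congrFun (congrFun h 1) 0
  simp only [Matrix.mul_apply, Fin.sum_univ_two, hX0, hX1, hX'0, hX'1, mul_zero, mul_one,
    zero_mul, one_mul, zero_add] at h0 h1
  ext i j
  fin_cases i <;> fin_cases j
  · simp [hX'0]
  · simp [h0, mul_comm]
  · simp [hX'1]
  · simp [h1, mul_comm]

end Fermat.Agent.S53b.Rigidity

namespace Fermat.Agent.S53b

open IsLocalRing

section

variable {𝒪 : Type} [CommRing 𝒪] [IsLocalRing 𝒪]
variable {A : Type} [CommRing A] [IsLocalRing A] [Algebra 𝒪 A] [IsLocalHom (algebraMap 𝒪 A)]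
variable (D : RigidData 𝒪)

/-- Two conjugate normalized lifts are equal. -/
theorem rigidity (hres : Function.Surjective (residue A ∘ algebraMap 𝒪 A))
    {r r' : Gal → Matrix (Fin 2) (Fin 2) A} (h : IsNLift A D r) (h' : IsNLift A D r')
    (M : (Matrix (Fin 2) (Fin 2) A)ˣ)
    (hM : ∀ g, (M : Matrix (Fin 2) (Fin 2) A) * r g = r' g * M) : r = r' := by
  classical
  -- notation
  obtain ⟨π, hπ⟩ : ∃ π : A →+* ResidueField A, π = residue A := ⟨_, rfl⟩
  obtain ⟨ι, hι⟩ : ∃ ι : ResidueField 𝒪 →+* ResidueField A,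
      ι = ResidueField.map (algebraMap 𝒪 A) := ⟨_, rfl⟩
  have hιinj : Function.Injective ι := ι.injective
  have hπalg : ∀ o : 𝒪, π (algebraMap 𝒪 A o) = ι (residue 𝒪 o) := by
    intro o
    rw [hπ, hι, ResidueField.map_residue]
  have hπker : ∀ x y : A, x - y ∈ maximalIdeal A → π x = π y := by
    intro x y hxy
    rw [← sub_eq_zero, ← map_sub, hπ]
    exact (residue_eq_zero_iff _).mpr hxy
  have hπunit : ∀ x : A, π x ≠ 0 → IsUnit x := by
    intro x hx
    rw [hπ] at hx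
    exact (residue_ne_zero_iff_isUnit x).mp hx
  -- Step 1: the residual matrices agree
  have hr : ∀ g, (r g).map π = ((D.ρt g).map (residue 𝒪)).map ι := by
    intro g
    ext a b
    simp only [Matrix.map_apply]
    rw [← hπalg]
    exact hπker _ _ (h.res g a b)
  have hr' : ∀ g, (r' g).map π = ((D.ρt g).map (residue 𝒪)).map ι := by
    intro g
    ext a b
    simp only [Matrix.map_apply]
    rw [← hπalg]
    exact hπker _ _ (h'.res g a b)
  -- Step 2: Schur
  have hMbar : ∀ g, (M : Matrix (Fin 2) (Fin 2) A).map π * ((D.ρt g).map (residue 𝒪)).map ι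
      = ((D.ρt g).map (residue 𝒪)).map ι * (M : Matrix (Fin 2) (Fin 2) A).map π := by
    intro g
    have h1 := congrArg (fun N : Matrix (Fin 2) (Fin 2) A => N.map π) (hM g)
    simp only [Matrix.map_mul] at h1
    rw [hr, hr'] at h1
    exact h1
  have hN : ∀ a b, ∃ o : 𝒪, π (algebraMap 𝒪 A o) = π ((M : Matrix (Fin 2) (Fin 2) A) a b) := by
    intro a b
    obtain ⟨o, ho⟩ := hres (residue A ((M : Matrix (Fin 2) (Fin 2) A) a b))
    exact ⟨o, by rw [hπ]; exact ho⟩
  choose N hN using hN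
  have hM₀map : (Matrix.of fun a b => residue 𝒪 (N a b) :
      Matrix (Fin 2) (Fin 2) (ResidueField 𝒪)).map ι
      = (M : Matrix (Fin 2) (Fin 2) A).map π := by
    ext a b
    simp only [Matrix.map_apply, Matrix.of_apply]
    rw [← hπalg, hN]
  have hcomm : ∀ g, (Matrix.of fun a b => residue 𝒪 (N a b) :
      Matrix (Fin 2) (Fin 2) (ResidueField 𝒪)) * (D.ρt g).map (residue 𝒪)
      = (D.ρt g).map (residue 𝒪) * (Matrix.of fun a b => residue 𝒪 (N a b)) := by
    intro g
    apply Matrix.map_injective hιinj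
    beta_reduce
    rw [Matrix.map_mul, Matrix.map_mul, hM₀map]
    exact hMbar g
  obtain ⟨c, hc⟩ := D.schur _ hcomm
  have hMπ : ∀ a b, π ((M : Matrix (Fin 2) (Fin 2) A) a b) = if a = b then ι c else 0 := by
    intro a b
    have h1 := congrFun (congrFun hM₀map a) b
    rw [hc] at h1
    simp only [Matrix.map_apply] at h1
    rw [← h1, Matrix.scalar_apply, Matrix.diagonal_apply]
    split_ifs <;> simp
  -- `ι c ≠ 0` since `M` is invertible
  have hιc : ι c ≠ 0 := by
    intro h0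
    have h1 : (M : Matrix (Fin 2) (Fin 2) A) * ((M⁻¹ : (Matrix (Fin 2) (Fin 2) A)ˣ) :
        Matrix (Fin 2) (Fin 2) A) = 1 := M.mul_inv
    have h2 := congrArg π (congrFun (congrFun h1 0) 0)
    simp only [Matrix.mul_apply, Fin.sum_univ_two, map_add, map_mul, hMπ, h0, ite_self,
      zero_mul, add_zero, Matrix.one_apply_eq, map_one] at h2
    exact zero_ne_one h2
  -- Step 3: `M = a + b X'`
  have hMform := Rigidity.eq_smul_one_add (M : Matrix (Fin 2) (Fin 2) A) (r D.g0) (r' D.g0)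
    h.norm0 h.norm1 h'.norm0 h'.norm1 (hM D.g0)
  -- Steps 4-5: `b * ([Y', X'] M) i0 j0 = 0`
  have hconj : Matrix.adjugate (M : Matrix (Fin 2) (Fin 2) A) * r' D.h0 * M
      = (M : Matrix (Fin 2) (Fin 2) A).det • r D.h0 := by
    rw [Matrix.mul_assoc, ← hM D.h0, ← Matrix.mul_assoc, Matrix.adjugate_mul, Matrix.smul_mul,
      Matrix.one_mul]
  have hkey : (M : Matrix (Fin 2) (Fin 2) A) 1 0 •
      ((r' D.h0 * r' D.g0 - r' D.g0 * r' D.h0) * (M : Matrix (Fin 2) (Fin 2) A))
      = (M : Matrix (Fin 2) (Fin 2) A).det • (r D.h0 - r' D.h0) := by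
    have h1 := Rigidity.key_identity (r' D.g0) (r' D.h0) ((M : Matrix (Fin 2) (Fin 2) A) 0 0)
      ((M : Matrix (Fin 2) (Fin 2) A) 1 0)
    rw [← hMform] at h1
    rw [← h1, hconj, smul_sub]
  have hb0 : (M : Matrix (Fin 2) (Fin 2) A) 1 0 *
      ((r' D.h0 * r' D.g0 - r' D.g0 * r' D.h0) * (M : Matrix (Fin 2) (Fin 2) A)) D.i0 D.j0
      = 0 := by
    have h1 := congrFun (congrFun hkey D.i0) D.j0
    simp only [Matrix.smul_apply, Matrix.sub_apply, smul_eq_mul] at h1
    rw [h1, h.norm2, h'.norm2, sub_self, mul_zero]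
  -- Step 6: the commutator entry is a unit
  have hunit : IsUnit (((r' D.h0 * r' D.g0 - r' D.g0 * r' D.h0) *
      (M : Matrix (Fin 2) (Fin 2) A)) D.i0 D.j0) := by
    apply hπunit
    have h1 : π (((r' D.h0 * r' D.g0 - r' D.g0 * r' D.h0) *
        (M : Matrix (Fin 2) (Fin 2) A)) D.i0 D.j0)
        = ((((r' D.h0).map π * (r' D.g0).map π - (r' D.g0).map π * (r' D.h0).map π) *
          (M : Matrix (Fin 2) (Fin 2) A).map π)) D.i0 D.j0 := by
      rw [← Matrix.map_mul, ← Matrix.map_mul, ← Matrix.map_sub _ (map_sub π), ← Matrix.map_mul,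
        Matrix.map_apply]
    have h2 : (M : Matrix (Fin 2) (Fin 2) A).map π = Matrix.scalar (Fin 2) (ι c) := by
      ext a b
      rw [Matrix.map_apply, hMπ, Matrix.scalar_apply, Matrix.diagonal_apply]
    have h3 : ((D.ρt D.h0).map (residue 𝒪)).map ι * ((D.ρt D.g0).map (residue 𝒪)).map ι
        - ((D.ρt D.g0).map (residue 𝒪)).map ι * ((D.ρt D.h0).map (residue 𝒪)).map ι
        = (D.ρt D.h0 * D.ρt D.g0 - D.ρt D.g0 * D.ρt D.h0).map
          (fun x => ι (residue 𝒪 x)) := by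
      rw [← Matrix.map_mul, ← Matrix.map_mul, ← Matrix.map_mul, ← Matrix.map_mul,
        ← Matrix.map_sub _ (map_sub ι), ← Matrix.map_sub _ (map_sub (residue 𝒪)), Matrix.map_map]
      rfl
    rw [h1, hr', hr', h2, h3]
    have h4 : ((D.ρt D.h0 * D.ρt D.g0 - D.ρt D.g0 * D.ρt D.h0).map
        (fun x => ι (residue 𝒪 x)) * Matrix.scalar (Fin 2) (ι c)) D.i0 D.j0
        = ι (residue 𝒪 ((D.ρt D.h0 * D.ρt D.g0 - D.ρt D.g0 * D.ρt D.h0) D.i0 D.j0)) * ι c := by
      rw [Matrix.scalar_apply, Matrix.mul_diagonal, Matrix.map_apply]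
    rw [h4]
    refine mul_ne_zero ?_ hιc
    have h5 : residue 𝒪 ((D.ρt D.h0 * D.ρt D.g0 - D.ρt D.g0 * D.ρt D.h0) D.i0 D.j0) ≠ 0 :=
      (residue_ne_zero_iff_isUnit _).mpr D.comm_unit
    intro h6
    exact h5 (hιinj (by rw [h6, map_zero]))
  have hb : (M : Matrix (Fin 2) (Fin 2) A) 1 0 = 0 := by
    rcases hunit with ⟨v, hv⟩
    rw [← hv] at hb0
    exact (Units.mul_left_eq_zero v).mp hb0
  -- Step 7: `M = a • 1` with `a` a unit
  have ha : IsUnit ((M : Matrix (Fin 2) (Fin 2) A) 0 0) := by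
    apply hπunit
    rw [hMπ, if_pos rfl]
    exact hιc
  rw [hb, zero_smul, add_zero] at hMform
  funext g
  have h1 := hM g
  rw [hMform, Matrix.smul_mul, Matrix.mul_smul, Matrix.one_mul, Matrix.mul_one] at h1
  rcases ha with ⟨v, hv⟩
  rw [← hv] at h1
  have h2 := congrArg (fun N : Matrix (Fin 2) (Fin 2) A => (↑v⁻¹ : A) • N) h1
  simpa [smul_smul] using h2

end

end Fermat.Agent.S53b
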