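import Fermat.Agent.S53b.Defs

/-!
# S53b / P2: maps to the dual numbers from functionals
-/

set_option autoImplicit false

namespace Fermat.Agent.S53b.Tangent

open IsLocalRing

section

variable {𝒪 : Type} [CommRing 𝒪] [IsLocalRing 𝒪] {B : Type} [CommRing B] [Algebra 𝒪 B]

/-- The section `k → B` induced by the structure map (which kills `𝔪_𝒪`). -/
noncomputable def sec (hϖ : ∀ a ∈ maximalIdeal 𝒪, algebraMap 𝒪 B a = 0) :
    ResidueField 𝒪 →+* B :=
  Ideal.Quotient.lift (maximalIdeal 𝒪) (algebraMap 𝒪 B) hϖ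

theorem sec_residue (hϖ : ∀ a ∈ maximalIdeal 𝒪, algebraMap 𝒪 B a = 0) (o : 𝒪) :
    sec hϖ (residue 𝒪 o) = algebraMap 𝒪 B o :=
  rfl

variable [IsLocalRing B]

/-- The identification `k ≃ ResidueField B` for a test algebra. -/
noncomputable def resEquiv (hB : IsATA 𝒪 B) : ResidueField 𝒪 ≃+* ResidueField B :=
  haveI := hB.isLocalHom
  RingEquiv.ofBijective (ResidueField.map (algebraMap 𝒪 B))
    ⟨RingHom.injective _, fun y => by
      obtain ⟨o, ho⟩ := hB.residue_surjective y
      exact ⟨residue 𝒪 o, ho⟩⟩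

theorem resEquiv_residue (hB : IsATA 𝒪 B) (o : 𝒪) :
    resEquiv hB (residue 𝒪 o) = residue B (algebraMap 𝒪 B o) :=
  rfl

/-- The retraction `B → k` (the residue map of `B`, read in `k`). -/
noncomputable def ret (hB : IsATA 𝒪 B) : B →+* ResidueField 𝒪 :=
  ((resEquiv hB).symm : ResidueField B →+* ResidueField 𝒪).comp (residue B)

theorem ret_apply (hB : IsATA 𝒪 B) (b : B) : ret hB b = (resEquiv hB).symm (residue B b) :=
  rfl

theorem ret_algebraMap (hB : IsATA 𝒪 B) (o : 𝒪) : ret hB (algebraMap 𝒪 B o) = residue 𝒪 o := by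
  rw [ret_apply, ← resEquiv_residue hB, RingEquiv.symm_apply_apply]

theorem ret_eq_zero_iff (hB : IsATA 𝒪 B) (b : B) : ret hB b = 0 ↔ b ∈ maximalIdeal B := by
  rw [ret_apply, map_eq_zero_iff _ (resEquiv hB).symm.injective, residue_eq_zero_iff]

theorem ret_sec (hB : IsATA 𝒪 B) (hϖ : ∀ a ∈ maximalIdeal 𝒪, algebraMap 𝒪 B a = 0)
    (c : ResidueField 𝒪) : ret hB (sec hϖ c) = c := by
  obtain ⟨o, rfl⟩ := residue_surjective c
  rw [sec_residue, ret_algebraMap]

theorem sub_sec_ret_mem (hB : IsATA 𝒪 B) (hϖ : ∀ a ∈ maximalIdeal 𝒪, algebraMap 𝒪 B a = 0)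
    (b : B) : b - sec hϖ (ret hB b) ∈ maximalIdeal B := by
  rw [← ret_eq_zero_iff hB, map_sub, ret_sec, sub_self]

/-- In a square-zero test algebra, products are determined by the residues. -/
theorem mul_eq (hB : IsATA 𝒪 B) (hsq : maximalIdeal B ^ 2 = ⊥)
    (hϖ : ∀ a ∈ maximalIdeal 𝒪, algebraMap 𝒪 B a = 0) (a b : B) :
    a * b = sec hϖ (ret hB a) * b + sec hϖ (ret hB b) * a
      - sec hϖ (ret hB a * ret hB b) * 1 := by
  have h : (a - sec hϖ (ret hB a)) * (b - sec hϖ (ret hB b)) ∈ maximalIdeal B ^ 2 := by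
    rw [pow_two]
    exact Ideal.mul_mem_mul (sub_sec_ret_mem hB hϖ a) (sub_sec_ret_mem hB hϖ b)
  rw [hsq, Ideal.mem_bot] at h
  rw [map_mul]
  linear_combination h

/-- The algebra map to the dual numbers attached to a functional vanishing at `1`. -/
noncomputable def psi (hB : IsATA 𝒪 B) (hsq : maximalIdeal B ^ 2 = ⊥)
    (hϖ : ∀ a ∈ maximalIdeal 𝒪, algebraMap 𝒪 B a = 0) (l : B →+ ResidueField 𝒪)
    (hl : ∀ c b, l (sec hϖ c * b) = c * l b) (h1 : l 1 = 0) :
    letI := dualAlg 𝒪
    B →ₐ[𝒪] DualNumber (ResidueField 𝒪) :=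
  letI := dualAlg 𝒪
  { toFun := fun b => TrivSqZeroExt.inl (ret hB b) + TrivSqZeroExt.inr (l b)
    map_one' := by
      rw [map_one, h1, TrivSqZeroExt.inr_zero, add_zero, TrivSqZeroExt.inl_one]
    map_mul' := fun a b => by
      have key : l (a * b) = ret hB a * l b + ret hB b * l a := by
        rw [mul_eq hB hsq hϖ a b, map_sub, map_add, hl, hl, hl, h1, mul_zero, sub_zero]
      ext
      · simp
      · simp [key, mul_comm]
    map_zero' := by simp
    map_add' := fun a b => by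
      ext
      · simp
      · simp
    commutes' := fun o => by
      have h0 : l (algebraMap 𝒪 B o) = 0 := by
        rw [← sec_residue hϖ o, ← mul_one (sec hϖ (residue 𝒪 o)), hl, h1, mul_zero]
      show TrivSqZeroExt.inl (ret hB (algebraMap 𝒪 B o)) +
          TrivSqZeroExt.inr (l (algebraMap 𝒪 B o)) = TrivSqZeroExt.inl (residue 𝒪 o)
      rw [ret_algebraMap, h0, TrivSqZeroExt.inr_zero, add_zero] }

theorem psi_apply_snd (hB : IsATA 𝒪 B) (hsq : maximalIdeal B ^ 2 = ⊥)
    (hϖ : ∀ a ∈ maximalIdeal 𝒪, algebraMap 𝒪 B a = 0) (l : B →+ ResidueField 𝒪)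
    (hl : ∀ c b, l (sec hϖ c * b) = c * l b) (h1 : l 1 = 0) (b : B) :
    TrivSqZeroExt.snd (psi hB hsq hϖ l hl h1 b) = l b := by
  show TrivSqZeroExt.snd (TrivSqZeroExt.inl (ret hB b) + TrivSqZeroExt.inr (l b)) = l b
  simp

end

end Fermat.Agent.S53b.Tangent

namespace Fermat.Agent.S53b

open IsLocalRing

section

variable (𝒪 : Type) [CommRing 𝒪] [IsLocalRing 𝒪]

/-- The dual numbers over the residue field, with the `TangentFinite` algebra structure,
are a test algebra. -/
theorem dualNumber_isATA :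
    letI := dualAlg 𝒪
    IsATA 𝒪 (DualNumber (ResidueField 𝒪)) := by
  let _ := dualAlg 𝒪
  have halg : ∀ o : 𝒪, algebraMap 𝒪 (DualNumber (ResidueField 𝒪)) o
      = TrivSqZeroExt.inl (residue 𝒪 o) := fun o => rfl
  refine ⟨⟨fun a ha => ?_⟩, ?_, ?_⟩
  · -- the structure map is local
    rw [halg, TrivSqZeroExt.isUnit_inl_iff] at ha
    exact (isUnit_map_iff (residue 𝒪) a).mp ha
  · -- residue surjectivity
    intro y
    obtain ⟨z, rfl⟩ := residue_surjective y
    obtain ⟨o, ho⟩ := residue_surjective z.fst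
    refine ⟨o, ?_⟩
    show residue _ (algebraMap 𝒪 _ o) = residue _ z
    rw [← sub_eq_zero, ← map_sub, residue_eq_zero_iff, mem_maximalIdeal, mem_nonunits_iff, halg,
      TrivSqZeroExt.isUnit_iff_isUnit_fst]
    simp [ho]
  · -- Artinian: finite-dimensional over the field `k`
    have : Module.Finite (ResidueField 𝒪) (DualNumber (ResidueField 𝒪)) :=
      (inferInstance : Module.Finite (ResidueField 𝒪) (ResidueField 𝒪 × ResidueField 𝒪))
    exact IsArtinianRing.of_finite (ResidueField 𝒪) _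

variable {𝒪}

/-- A square-zero test algebra killed by `𝔪_𝒪` has at least `|B| / |k|` algebra maps to `k[ε]`. -/
theorem card_le_mul_card_algHom_dual [Finite (ResidueField 𝒪)] {B : Type} [CommRing B]
    [IsLocalRing B] [Algebra 𝒪 B] (hB : IsATA 𝒪 B) (hsq : maximalIdeal B ^ 2 = ⊥)
    (hϖ : ∀ a ∈ maximalIdeal 𝒪, algebraMap 𝒪 B a = 0) :
    letI := dualAlg 𝒪
    Nat.card B ≤ Nat.card (ResidueField 𝒪) *
      Nat.card (B →ₐ[𝒪] DualNumber (ResidueField 𝒪)) := by
  let _ := dualAlg 𝒪
  rcases finite_or_infinite B with hfin | hinf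
  swap
  · -- an infinite `B` has `Nat.card B = 0`
    rw [Nat.card_eq_zero_of_infinite]
    exact Nat.zero_le _
  -- `B` is a `k`-vector space through the section `k → B`
  let _ : Algebra (ResidueField 𝒪) B := (Tangent.sec hϖ).toAlgebra
  have hsmul : ∀ (c : ResidueField 𝒪) (b : B), c • b = Tangent.sec hϖ c * b := fun c b => rfl
  -- evaluation at `1` on the dual space
  let ev1 : Module.Dual (ResidueField 𝒪) B →ₗ[ResidueField 𝒪] ResidueField 𝒪 :=
    { toFun := fun l => l 1
      map_add' := fun l l' => rfl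
      map_smul' := fun c l => rfl }
  have h1 : Nat.card B = Nat.card (Module.Dual (ResidueField 𝒪) B) :=
    Nat.card_congr (Module.finBasis (ResidueField 𝒪) B).toDualEquiv.toEquiv
  have h2 : Nat.card (Module.Dual (ResidueField 𝒪) B) = Nat.card (LinearMap.ker ev1) *
      Nat.card (Module.Dual (ResidueField 𝒪) B ⧸ LinearMap.ker ev1) :=
    Submodule.card_eq_card_quotient_mul_card _
  have h3 : Nat.card (Module.Dual (ResidueField 𝒪) B ⧸ LinearMap.ker ev1) ≤
      Nat.card (ResidueField 𝒪) := by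
    rw [Nat.card_congr ev1.quotKerEquivRange.toEquiv]
    exact Nat.card_le_card_of_injective _ Subtype.val_injective
  have h4 : Nat.card (LinearMap.ker ev1) ≤
      Nat.card (B →ₐ[𝒪] DualNumber (ResidueField 𝒪)) := by
    have : Finite (DualNumber (ResidueField 𝒪)) :=
      (inferInstance : Finite (ResidueField 𝒪 × ResidueField 𝒪))
    have : Finite (B →ₐ[𝒪] DualNumber (ResidueField 𝒪)) := DFunLike.finite _
    refine Nat.card_le_card_of_injective
      (fun l => Tangent.psi hB hsq hϖ l.1.toAddMonoidHom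
        (fun c b => by
          rw [← hsmul]
          exact l.1.map_smul c b)
        (LinearMap.mem_ker.mp l.2)) ?_
    intro l l' h
    ext b
    have h' := congrArg (fun f => TrivSqZeroExt.snd (f b)) h
    exact (Tangent.psi_apply_snd hB hsq hϖ _ _ _ b).symm.trans
      (h'.trans (Tangent.psi_apply_snd hB hsq hϖ _ _ _ b))
  calc Nat.card B = Nat.card (LinearMap.ker ev1) *
        Nat.card (Module.Dual (ResidueField 𝒪) B ⧸ LinearMap.ker ev1) := h1.trans h2
    _ ≤ Nat.card (B →ₐ[𝒪] DualNumber (ResidueField 𝒪)) * Nat.card (ResidueField 𝒪) :=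
        Nat.mul_le_mul h4 h3
    _ = _ := Nat.mul_comm _ _

end

end Fermat.Agent.S53b
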