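import Fermat.Agent.S53b.Defs
import Fermat.Agent.S53b.TestAlg
import Fermat.Agent.S53b.Tangent
import Fermat.Agent.S53b.Dict1
import Fermat.Agent.S53b.Dict2
import Fermat.Agent.S53b.Rigidity

/-!
# S53b / G4b: the tangent bound (F6) for normalized `𝒟`-lifts from `TangentFinite`
-/

set_option autoImplicit false

namespace Fermat.Agent.S53b

open IsLocalRing

namespace FunctorB

section

variable {𝒪 : Type} [CommRing 𝒪] [IsLocalRing 𝒪]
variable (D : RigidData 𝒪)
variable (𝒟 : ∀ ⦃A : Type⦄ [CommRing A] [IsLocalRing A] [Algebra 𝒪 A], GaloisRepAdic A → Prop)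

/-- `ofFam` is injective. -/
theorem ofFam_injective {A : Type} {x x' : Gal × Fin 2 × Fin 2 → A} (h : ofFam x = ofFam x') :
    x = x' := by
  funext ⟨g, a, b⟩
  exact congrFun (congrFun (congrFun h g) a) b

/-- Base change of points of `FD` along local maps of test algebras. -/
theorem FD_map (h𝒟 : GaloisRep.IsDeformationCondition 𝒪 𝒟)
    {B C : Type} [CommRing B] [IsLocalRing B] [Algebra 𝒪 B]
    [CommRing C] [IsLocalRing C] [Algebra 𝒪 C] (hB : IsATA 𝒪 B) (hC : IsATA 𝒪 C)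
    (ψ : B →ₐ[𝒪] C) (hψ : IsLocalHom (ψ : B →+* C)) (x : Gal × Fin 2 × Fin 2 → B)
    (hx : FD D 𝒟 B x) : FD D 𝒟 C (ψ ∘ x) := by
  obtain ⟨h, hd⟩ := hx
  have key : ∀ r' : Gal → Matrix (Fin 2) (Fin 2) C, r' = (fun g => (ofFam x g).map ψ) →
      ∃ h' : IsNLift C D r', 𝒟 (repOf C h'.toIsRepFn) := by
    rintro _ rfl
    have h1 : IsNLift C D (fun g => (ofFam x g).map ψ) := h.map D ψ hψ
    refine ⟨h1, ?_⟩
    exact h𝒟.of_isEquiv hC (baseChange_isEquiv h.toIsRepFn (ψ : B →+* C) hψ h1.toIsRepFn)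
      (h𝒟.baseChangeAlong hB hC ψ hψ hd)
  exact key _ (ofFam_comp ψ x)

/-- A type mapping to a setoid with finite quotient, injectively up to the relation, is finite. -/
theorem finite_of_finite_quotient {X : Type} {Y : Type 1} (S : Setoid Y)
    (hS : Finite (Quotient S)) (f : X → Y) (hf : ∀ a b, S.r (f a) (f b) → a = b) : Finite X :=
  Finite.of_injective (fun a => Quotient.mk S (f a)) (fun a b h => hf a b (Quotient.exact h))

end

end FunctorB

section

variable {𝒪 : Type} [CommRing 𝒪] [IsLocalRing 𝒪]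
variable (D : RigidData 𝒪)
variable (𝒟 : ∀ ⦃A : Type⦄ [CommRing A] [IsLocalRing A] [Algebra 𝒪 A], GaloisRepAdic A → Prop)

/-- `TangentFinite` gives finitely many normalized `𝒟`-lifts over the dual numbers. -/
theorem finite_dual_points [Finite (ResidueField 𝒪)]
    (ρbar : ResidualGaloisRep (ResidueField 𝒪)) (e : ResidualGaloisRep.Equiv D.resRep ρbar)
    (h𝒟 : GaloisRep.IsDeformationCondition 𝒪 𝒟) (hfin : GaloisRep.TangentFinite 𝒪 ρbar 𝒟) :
    letI := dualAlg 𝒪
    Finite {x : Gal × Fin 2 × Fin 2 → DualNumber (ResidueField 𝒪) //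
      FD D 𝒟 (DualNumber (ResidueField 𝒪)) x} := by
  -- (`h𝒟` is not needed for this statement.)
  have _ := h𝒟
  let _ := dualAlg 𝒪
  have hdual : IsATA 𝒪 (DualNumber (ResidueField 𝒪)) := dualNumber_isATA 𝒪
  have hloc : IsLocalHom (algebraMap 𝒪 (DualNumber (ResidueField 𝒪))) := hdual.isLocalHom
  -- the two ring homomorphisms `k → ResidueField k[ε]` agree
  have hψ : ResidueField.map (algebraMap 𝒪 (DualNumber (ResidueField 𝒪))) =
      (residue (DualNumber (ResidueField 𝒪))).comp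
        (algebraMap (ResidueField 𝒪) (DualNumber (ResidueField 𝒪))) := by
    apply Ideal.Quotient.ringHom_ext
    ext o
    rfl
  -- the residual representation of a normalized lift over `k[ε]`
  have hres : ∀ (x : Gal × Fin 2 × Fin 2 → DualNumber (ResidueField 𝒪))
      (h : IsNLift (DualNumber (ResidueField 𝒪)) D (ofFam x)),
      (repOf (DualNumber (ResidueField 𝒪)) h.toIsRepFn).residual.IsEquiv
        (ρbar.baseChangeAlong ((residue (DualNumber (ResidueField 𝒪))).comp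
          (algebraMap (ResidueField 𝒪) (DualNumber (ResidueField 𝒪))))) := by
    intro x h
    obtain ⟨e1⟩ := residual_isEquiv_of_isNLift D h
    have e2 := e.baseChangeAlong
      (ResidueField.map (algebraMap 𝒪 (DualNumber (ResidueField 𝒪))))
    have e3 := e1.trans e2
    rw [hψ] at e3
    exact ⟨e3⟩
  unfold GaloisRep.TangentFinite at hfin
  refine FunctorB.finite_of_finite_quotient _ hfin
    (fun x => ⟨repOf (DualNumber (ResidueField 𝒪)) x.2.choose.toIsRepFn,
      x.2.choose_spec, hres x.1 x.2.choose⟩) ?_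
  rintro ⟨x, hx⟩ ⟨x', hx'⟩ hrel
  have hrel' : (repOf (DualNumber (ResidueField 𝒪)) hx.choose.toIsRepFn).IsEquiv
      (repOf (DualNumber (ResidueField 𝒪)) hx'.choose.toIsRepFn) := hrel
  obtain ⟨M, hM⟩ := conj_of_isEquiv hx.choose.toIsRepFn hx'.choose.toIsRepFn hrel'
  have hxx' : ofFam x = ofFam x' :=
    rigidity D hdual.residue_surjective hx.choose hx'.choose M hM
  exact Subtype.ext (FunctorB.ofFam_injective hxx')

/-- The square-zero tangent bound (F6) for the functor of normalized `𝒟`-lifts. -/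
theorem tangent_bound_FD [Finite (ResidueField 𝒪)]
    (h𝒟 : GaloisRep.IsDeformationCondition 𝒪 𝒟)
    (hfin : letI := dualAlg 𝒪
      Finite {x : Gal × Fin 2 × Fin 2 → DualNumber (ResidueField 𝒪) //
        FD D 𝒟 (DualNumber (ResidueField 𝒪)) x}) :
    ∃ T : ℕ, ∀ {B : Type} [CommRing B] [IsLocalRing B] [Algebra 𝒪 B], IsATA 𝒪 B →
      maximalIdeal B ^ 2 = ⊥ → (∀ a ∈ maximalIdeal 𝒪, algebraMap 𝒪 B a = 0) →
      ∀ x : Gal × Fin 2 × Fin 2 → B, FD D 𝒟 B x → Algebra.adjoin 𝒪 (Set.range x) = ⊤ →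
        Nat.card B ≤ T := by
  let _ := dualAlg 𝒪
  have hdual : IsATA 𝒪 (DualNumber (ResidueField 𝒪)) := dualNumber_isATA 𝒪
  refine ⟨Nat.card (ResidueField 𝒪) *
    Nat.card {x : Gal × Fin 2 × Fin 2 → DualNumber (ResidueField 𝒪) //
      FD D 𝒟 (DualNumber (ResidueField 𝒪)) x}, ?_⟩
  intro B _ _ _ hB hsq hϖ x hx htight
  have hlocal : ∀ ψ : B →ₐ[𝒪] DualNumber (ResidueField 𝒪),
      IsLocalHom (ψ : B →+* DualNumber (ResidueField 𝒪)) :=
    fun ψ => isLocalHom_of_residue_surjective hdual.residue_surjective ψ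
  have hinj : Function.Injective
      (fun ψ : B →ₐ[𝒪] DualNumber (ResidueField 𝒪) =>
        (⟨ψ ∘ x, FunctorB.FD_map D 𝒟 h𝒟 hB hdual ψ (hlocal ψ) x hx⟩ :
          {x : Gal × Fin 2 × Fin 2 → DualNumber (ResidueField 𝒪) //
            FD D 𝒟 (DualNumber (ResidueField 𝒪)) x})) := by
    intro ψ ψ' hψ
    have h1 : ψ ∘ x = ψ' ∘ x := congrArg Subtype.val hψ
    refine AlgHom.ext_of_adjoin_eq_top htight ?_
    rintro _ ⟨γ, rfl⟩
    exact congrFun h1 γ
  have := hfin
  have hle : Nat.card (B →ₐ[𝒪] DualNumber (ResidueField 𝒪)) ≤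
      Nat.card {x : Gal × Fin 2 × Fin 2 → DualNumber (ResidueField 𝒪) //
        FD D 𝒟 (DualNumber (ResidueField 𝒪)) x} :=
    Nat.card_le_card_of_injective _ hinj
  exact (card_le_mul_card_algHom_dual hB hsq hϖ).trans (Nat.mul_le_mul_left _ hle)

end

end Fermat.Agent.S53b
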