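import Fermat.Agent.S53b.Defs

/-!
# S53b / G3b: existence of normalized lifts over complete local rings
-/

set_option autoImplicit false

namespace Fermat.Agent.S53b.Normalize

open IsLocalRing

/-! ### Two by two polynomial identities -/

section identities

variable {A : Type} [CommRing A]

theorem adj_identity (X Y : Matrix (Fin 2) (Fin 2) A) (a b : A) :
    Matrix.adjugate (a • (1 : Matrix (Fin 2) (Fin 2) A) + b • X) * Y * (a • 1 + b • X)
      - (a • (1 : Matrix (Fin 2) (Fin 2) A) + b • X).det • Y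
      = b • ((Y * X - X * Y) * (a • 1 + b • X)) := by
  obtain ⟨x00, x01, x10, x11, rfl⟩ : ∃ x00 x01 x10 x11, X = !![x00, x01; x10, x11] :=
    ⟨_, _, _, _, Matrix.eta_fin_two X⟩
  obtain ⟨y00, y01, y10, y11, rfl⟩ : ∃ y00 y01 y10 y11, Y = !![y00, y01; y10, y11] :=
    ⟨_, _, _, _, Matrix.eta_fin_two Y⟩
  rw [Matrix.one_fin_two]
  simp only [Matrix.smul_of, Matrix.smul_cons, Matrix.smul_empty, smul_eq_mul, Matrix.of_add_of,
    Matrix.cons_add_cons, Matrix.empty_add_empty, Matrix.adjugate_fin_two_of, Matrix.det_fin_two_of,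
    Matrix.mul_fin_two, Matrix.of_sub_of, Matrix.cons_sub_cons, Matrix.empty_sub_empty]
  ext i j
  fin_cases i <;> fin_cases j <;> simp <;> ring

theorem det_one_add_smul (X : Matrix (Fin 2) (Fin 2) A) (b : A) :
    ((1 : Matrix (Fin 2) (Fin 2) A) + b • X).det = 1 + b * X.trace + b ^ 2 * X.det := by
  simp [Matrix.det_fin_two, Matrix.trace_fin_two]
  ring

/-- The `(i, j)` entry of `adj(M_b) * Y * M_b` for `M_b = 1 + b • X`. -/
theorem adj_entry (X Y : Matrix (Fin 2) (Fin 2) A) (b : A) (i j : Fin 2) :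
    (Matrix.adjugate ((1 : Matrix (Fin 2) (Fin 2) A) + b • X) * Y * (1 + b • X)) i j
      = ((1 : Matrix (Fin 2) (Fin 2) A) + b • X).det * Y i j + b * (Y * X - X * Y) i j
        + b ^ 2 * ((Y * X - X * Y) * X) i j := by
  have h := adj_identity X Y 1 b
  rw [one_smul] at h
  have h2 := congrFun (congrFun h i) j
  rw [Matrix.sub_apply, Matrix.smul_apply, Matrix.smul_apply, smul_eq_mul, smul_eq_mul] at h2
  have hK : ((Y * X - X * Y) * (1 + b • X)) i j
      = (Y * X - X * Y) i j + b * ((Y * X - X * Y) * X) i j := by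
    rw [mul_add, mul_one, Matrix.mul_smul, Matrix.add_apply, Matrix.smul_apply, smul_eq_mul]
  rw [hK] at h2
  linear_combination h2

end identities

/-! ### General tools over a local ring -/

section general

variable {A : Type} [CommRing A] [IsLocalRing A]

omit [IsLocalRing A] in
/-- Entries of `P * M * Q` lie in an ideal as soon as the entries of `M` do. -/
theorem mul_mul_mem (I : Ideal A) (P Q M : Matrix (Fin 2) (Fin 2) A)
    (hM : ∀ a b, M a b ∈ I) : ∀ a b, (P * M * Q) a b ∈ I := by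
  intro a b
  rw [Matrix.mul_apply]
  refine Ideal.sum_mem _ fun j _ => Ideal.mul_mem_right _ _ ?_
  rw [Matrix.mul_apply]
  exact Ideal.sum_mem _ fun i _ => Ideal.mul_mem_left _ _ (hM i j)

/-- Conjugating a continuous matrix representation by a unit gives one again. -/
theorem isRepFn_conj {r : Gal → Matrix (Fin 2) (Fin 2) A} (h : IsRepFn A r)
    (P : (Matrix (Fin 2) (Fin 2) A)ˣ) :
    IsRepFn A (fun g => (P : Matrix (Fin 2) (Fin 2) A) * r g *
      ((P⁻¹ : (Matrix (Fin 2) (Fin 2) A)ˣ) : Matrix (Fin 2) (Fin 2) A)) where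
  map_one := by
    show (P : Matrix (Fin 2) (Fin 2) A) * r 1 * _ = 1
    rw [h.map_one, mul_one, Units.mul_inv]
  map_mul := fun g g' => by
    show (P : Matrix (Fin 2) (Fin 2) A) * r (g * g') * _ = _
    rw [h.map_mul]
    simp only [mul_assoc, Units.inv_mul_cancel_left]
  cont := fun n => by
    obtain ⟨L, hL, hc⟩ := h.cont n
    refine ⟨L, hL, fun σ hσ => ?_⟩
    have key : (P : Matrix (Fin 2) (Fin 2) A) * r σ *
        ((P⁻¹ : (Matrix (Fin 2) (Fin 2) A)ˣ) : Matrix (Fin 2) (Fin 2) A) - 1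
        = P * (r σ - 1) * ((P⁻¹ : (Matrix (Fin 2) (Fin 2) A)ˣ) : Matrix (Fin 2) (Fin 2) A) := by
      rw [mul_sub, sub_mul, mul_one, Units.mul_inv]
    intro a b
    have hmem := mul_mul_mem (maximalIdeal A ^ n) (P : Matrix (Fin 2) (Fin 2) A)
      ((P⁻¹ : (Matrix (Fin 2) (Fin 2) A)ˣ) : Matrix (Fin 2) (Fin 2) A) (r σ - 1) (hc σ hσ) a b
    rw [← key] at hmem
    exact hmem

/-- A matrix which is invertible modulo the maximal ideal is invertible. -/
theorem isUnit_of_map_residue (M : Matrix (Fin 2) (Fin 2) A)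
    (hM : IsUnit (M.map (residue A))) : IsUnit M := by
  rw [Matrix.isUnit_iff_isUnit_det] at hM ⊢
  have hdet : (M.map (residue A)).det = residue A M.det := by
    rw [RingHom.map_det]; rfl
  rw [hdet] at hM
  exact (isUnit_map_iff (residue A) _).mp hM

theorem map_inv_eq_one (P : (Matrix (Fin 2) (Fin 2) A)ˣ)
    (hP : (P : Matrix (Fin 2) (Fin 2) A).map (residue A) = 1) :
    ((P⁻¹ : (Matrix (Fin 2) (Fin 2) A)ˣ) : Matrix (Fin 2) (Fin 2) A).map (residue A) = 1 := by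
  have h := congrArg (fun M : Matrix (Fin 2) (Fin 2) A => M.map (residue A)) P.mul_inv
  simp only [Matrix.map_mul, hP, one_mul] at h
  rw [h]
  exact Matrix.map_one _ (map_zero _) (map_one _)

/-- Conjugation by a matrix `≡ 1` does not change the reduction. -/
theorem map_conj_of_map_eq_one (P : (Matrix (Fin 2) (Fin 2) A)ˣ)
    (hP : (P : Matrix (Fin 2) (Fin 2) A).map (residue A) = 1) (M : Matrix (Fin 2) (Fin 2) A) :
    ((P : Matrix (Fin 2) (Fin 2) A) * M *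
      ((P⁻¹ : (Matrix (Fin 2) (Fin 2) A)ˣ) : Matrix (Fin 2) (Fin 2) A)).map (residue A)
      = M.map (residue A) := by
  rw [Matrix.map_mul, Matrix.map_mul, hP, map_inv_eq_one P hP, one_mul, mul_one]

/-- The Hensel step: a quadratic equation with small constant term and unit linear term has a
small root. -/
theorem hensel_quadratic [IsAdicComplete (maximalIdeal A) A] (α β γ : A)
    (hα : α ∈ maximalIdeal A) (hβ : IsUnit β) :
    ∃ b ∈ maximalIdeal A, α + β * b + γ * b ^ 2 = 0 := by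
  open Polynomial in
  classical
  let f : A[X] := X ^ 2 + (C β * X + C (γ * α))
  have hf : f.Monic := by
    refine Polynomial.monic_X_pow_add ?_
    exact lt_of_le_of_lt (Polynomial.degree_linear_le) (by norm_num)
  have hev : ∀ x : A, f.eval x = x ^ 2 + β * x + γ * α := by
    intro x
    simp only [f, Polynomial.eval_add, Polynomial.eval_pow, Polynomial.eval_X, Polynomial.eval_mul,
      Polynomial.eval_C]
    ring
  have hder : f.derivative.eval (-β) = -β := by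
    simp only [f, Polynomial.derivative_add, Polynomial.derivative_X_pow, Polynomial.derivative_mul,
      Polynomial.derivative_C, Polynomial.derivative_X, Polynomial.eval_add, Polynomial.eval_mul,
      Polynomial.eval_C, Polynomial.eval_X, Polynomial.eval_pow, Polynomial.eval_zero,
      Polynomial.eval_one]
    norm_num
    ring
  have h1 : f.eval (-β) ∈ maximalIdeal A := by
    rw [hev]
    have : (-β) ^ 2 + β * -β + γ * α = γ * α := by ring
    rw [this]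
    exact Ideal.mul_mem_left _ _ hα
  have h2 : IsUnit (Ideal.Quotient.mk (maximalIdeal A) (f.derivative.eval (-β))) := by
    rw [hder]
    exact (hβ.neg).map _
  obtain ⟨U, hroot, hU⟩ := HenselianRing.is_henselian (I := maximalIdeal A) f hf (-β) h1 h2
  have hroot' : U ^ 2 + β * U + γ * α = 0 := by
    rw [← hev U]; exact hroot
  have hUunit : IsUnit U := by
    by_contra hnu
    have hUm : U ∈ maximalIdeal A := (mem_maximalIdeal U).mpr hnu
    have hβm : β ∈ maximalIdeal A := by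
      have := (maximalIdeal A).sub_mem hU hUm
      have e : U - -β - U = β := by ring
      rwa [e] at this
    exact (mem_maximalIdeal β).mp hβm hβ
  obtain ⟨u, rfl⟩ := hUunit
  refine ⟨α * ((u⁻¹ : Aˣ) : A), Ideal.mul_mem_right _ _ hα, ?_⟩
  have huv : (u : A) * ((u⁻¹ : Aˣ) : A) = 1 := u.mul_inv
  linear_combination (α * ((u⁻¹ : Aˣ) : A) ^ 2) * hroot'
    + (-(α + α * (u : A) * ((u⁻¹ : Aˣ) : A) + α * β * ((u⁻¹ : Aˣ) : A))) * huv

end general

/-! ### The three normalisation steps -/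

section steps

variable {𝒪 : Type} [CommRing 𝒪] [IsLocalRing 𝒪]
variable {A : Type} [CommRing A] [IsLocalRing A] [Algebra 𝒪 A]
variable (D : RigidData 𝒪)

/-- Step 1: conjugate by a lift of `N` to make the representation residually equal to `ρt`. -/
theorem step1 {r : Gal → Matrix (Fin 2) (Fin 2) A}
    (N : (Matrix (Fin 2) (Fin 2) (ResidueField A))ˣ)
    (hN : ∀ g, (N : Matrix (Fin 2) (Fin 2) (ResidueField A)) * (r g).map (residue A) =
      ((D.ρt g).map (algebraMap 𝒪 A)).map (residue A) * N) :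
    ∃ Q : (Matrix (Fin 2) (Fin 2) A)ˣ, ∀ g,
      ((Q : Matrix (Fin 2) (Fin 2) A) * r g *
        ((Q⁻¹ : (Matrix (Fin 2) (Fin 2) A)ˣ) : Matrix (Fin 2) (Fin 2) A)).map (residue A)
      = ((D.ρt g).map (algebraMap 𝒪 A)).map (residue A) := by
  have hsurj : ∀ i j, ∃ x : A, residue A x = (N : Matrix (Fin 2) (Fin 2) (ResidueField A)) i j :=
    fun i j => residue_surjective _
  choose Nt hNt using hsurj
  have hmap : (Matrix.of Nt).map (residue A) = (N : Matrix (Fin 2) (Fin 2) (ResidueField A)) := by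
    ext i j
    exact hNt i j
  have hunit : IsUnit (Matrix.of Nt) := isUnit_of_map_residue _ (by rw [hmap]; exact N.isUnit)
  obtain ⟨Q, hQ⟩ := hunit
  refine ⟨Q, fun g => ?_⟩
  have hQmap : (Q : Matrix (Fin 2) (Fin 2) A).map (residue A)
      = (N : Matrix (Fin 2) (Fin 2) (ResidueField A)) := by rw [hQ, hmap]
  have h1 : ((Q : Matrix (Fin 2) (Fin 2) A) * r g *
        ((Q⁻¹ : (Matrix (Fin 2) (Fin 2) A)ˣ) : Matrix (Fin 2) (Fin 2) A)).map (residue A)
        * (N : Matrix (Fin 2) (Fin 2) (ResidueField A))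
      = ((D.ρt g).map (algebraMap 𝒪 A)).map (residue A) * N := by
    rw [← hN g, ← hQmap, ← Matrix.map_mul, ← Matrix.map_mul, mul_assoc, Units.inv_mul, mul_one]
  exact (Units.mul_left_inj N).mp h1

/-- Step 2: make the first column of the image of `g0` equal to `(0, 1)`. -/
theorem step2 {r : Gal → Matrix (Fin 2) (Fin 2) A}
    (hres : ∀ g, (r g).map (residue A) = ((D.ρt g).map (algebraMap 𝒪 A)).map (residue A)) :
    ∃ Q : (Matrix (Fin 2) (Fin 2) A)ˣ, (Q : Matrix (Fin 2) (Fin 2) A).map (residue A) = 1 ∧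
      ((Q : Matrix (Fin 2) (Fin 2) A) * r D.g0 *
        ((Q⁻¹ : (Matrix (Fin 2) (Fin 2) A)ˣ) : Matrix (Fin 2) (Fin 2) A)) 0 0 = 0 ∧
      ((Q : Matrix (Fin 2) (Fin 2) A) * r D.g0 *
        ((Q⁻¹ : (Matrix (Fin 2) (Fin 2) A)ˣ) : Matrix (Fin 2) (Fin 2) A)) 1 0 = 1 := by
  have hres' : ∀ g a b, residue A (r g a b) = residue A (algebraMap 𝒪 A (D.ρt g a b)) :=
    fun g a b => congrFun (congrFun (hres g) a) b
  have hx : residue A (r D.g0 0 0) = 0 := by
    rw [hres', D.g0_col0, map_zero, map_zero]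
  have hy : residue A (r D.g0 1 0) = 1 := by
    rw [hres', D.g0_col1, map_one, map_one]
  have hyu : IsUnit (r D.g0 1 0) := by
    rw [← residue_ne_zero_iff_isUnit, hy]
    exact one_ne_zero
  have hPmap : (!![1, r D.g0 0 0; 0, r D.g0 1 0] : Matrix (Fin 2) (Fin 2) A).map (residue A) = 1 := by
    ext i j
    fin_cases i <;> fin_cases j <;> simp [hx, hy]
  have hPu : IsUnit (!![1, r D.g0 0 0; 0, r D.g0 1 0] : Matrix (Fin 2) (Fin 2) A) :=
    isUnit_of_map_residue _ (by rw [hPmap]; exact isUnit_one)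
  obtain ⟨u, hu⟩ := hPu
  have humap : (u : Matrix (Fin 2) (Fin 2) A).map (residue A) = 1 := by rw [hu, hPmap]
  obtain ⟨Z, hZ⟩ : ∃ Z : Matrix (Fin 2) (Fin 2) A,
      Z = ((u⁻¹ : (Matrix (Fin 2) (Fin 2) A)ˣ) : Matrix (Fin 2) (Fin 2) A) * r D.g0 * u := ⟨_, rfl⟩
  have hkey : (!![1, r D.g0 0 0; 0, r D.g0 1 0] : Matrix (Fin 2) (Fin 2) A) * Z
      = r D.g0 * !![1, r D.g0 0 0; 0, r D.g0 1 0] := by
    rw [hZ, ← hu, mul_assoc, Units.mul_inv_cancel_left]
  have e10 := congrFun (congrFun hkey 1) 0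
  have e00 := congrFun (congrFun hkey 0) 0
  simp only [Matrix.mul_apply, Fin.sum_univ_two, Matrix.of_apply, Matrix.cons_val', Matrix.cons_val_zero,
    Matrix.cons_val_one, Matrix.empty_val', Matrix.cons_val_fin_one, zero_mul, one_mul, mul_one,
    mul_zero, add_zero, zero_add] at e10 e00
  have hZ10 : Z 1 0 = 1 := hyu.mul_left_cancel (by rw [e10, mul_one])
  have hZ00 : Z 0 0 = 0 := by linear_combination e00 - r D.g0 0 0 * hZ10
  refine ⟨u⁻¹, map_inv_eq_one u humap, ?_, ?_⟩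
  · rw [inv_inv, ← hZ]
    exact hZ00
  · rw [inv_inv, ← hZ]
    exact hZ10

/-- Step 3: keep the image of `g0` and normalise the `(i0, j0)` entry of the image of `h0`. -/
theorem step3 [IsAdicComplete (maximalIdeal A) A] {r : Gal → Matrix (Fin 2) (Fin 2) A}
    (hres : ∀ g, (r g).map (residue A) = ((D.ρt g).map (algebraMap 𝒪 A)).map (residue A)) :
    ∃ Q : (Matrix (Fin 2) (Fin 2) A)ˣ, (Q : Matrix (Fin 2) (Fin 2) A).map (residue A) = 1 ∧
      (Q : Matrix (Fin 2) (Fin 2) A) * r D.g0 *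
        ((Q⁻¹ : (Matrix (Fin 2) (Fin 2) A)ˣ) : Matrix (Fin 2) (Fin 2) A) = r D.g0 ∧
      ((Q : Matrix (Fin 2) (Fin 2) A) * r D.h0 *
        ((Q⁻¹ : (Matrix (Fin 2) (Fin 2) A)ˣ) : Matrix (Fin 2) (Fin 2) A)) D.i0 D.j0
        = algebraMap 𝒪 A (D.ρt D.h0 D.i0 D.j0) := by
  have hres' : ∀ g a b, residue A (r g a b) = residue A (algebraMap 𝒪 A (D.ρt g a b)) :=
    fun g a b => congrFun (congrFun (hres g) a) b
  obtain ⟨X, hX⟩ : ∃ X : Matrix (Fin 2) (Fin 2) A, X = r D.g0 := ⟨_, rfl⟩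
  obtain ⟨Y, hY⟩ : ∃ Y : Matrix (Fin 2) (Fin 2) A, Y = r D.h0 := ⟨_, rfl⟩
  obtain ⟨c, hc⟩ : ∃ c : A, c = algebraMap 𝒪 A (D.ρt D.h0 D.i0 D.j0) := ⟨_, rfl⟩
  -- `α` is small
  have hα : Y D.i0 D.j0 - c ∈ maximalIdeal A := by
    rw [← residue_eq_zero_iff, map_sub, hY, hc, hres', sub_self]
  -- the commutator entry is a unit
  have hKres : residue A ((Y * X - X * Y) D.i0 D.j0)
      = residue A (algebraMap 𝒪 A
          ((D.ρt D.h0 * D.ρt D.g0 - D.ρt D.g0 * D.ρt D.h0) D.i0 D.j0)) := by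
    rw [hX, hY]
    simp only [Matrix.sub_apply, Matrix.mul_apply, map_sub, map_sum, map_mul, hres']
  have hKne : residue A ((Y * X - X * Y) D.i0 D.j0) ≠ 0 := by
    rw [hKres]
    exact ((D.comm_unit.map (algebraMap 𝒪 A)).map (residue A)).ne_zero
  have hβ : IsUnit (X.trace * (Y D.i0 D.j0 - c) + (Y * X - X * Y) D.i0 D.j0) := by
    rw [← residue_ne_zero_iff_isUnit, map_add, map_mul, (residue_eq_zero_iff _).mpr hα, mul_zero,
      zero_add]
    exact hKne
  obtain ⟨b, hb, hbeq⟩ := hensel_quadratic (Y D.i0 D.j0 - c)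
    (X.trace * (Y D.i0 D.j0 - c) + (Y * X - X * Y) D.i0 D.j0)
    (X.det * (Y D.i0 D.j0 - c) + ((Y * X - X * Y) * X) D.i0 D.j0) hα hβ
  have hb' : residue A b = 0 := (residue_eq_zero_iff b).mpr hb
  -- `M_b = 1 + b • X` is a unit, residually `1`
  have hMbmap : ((1 : Matrix (Fin 2) (Fin 2) A) + b • X).map (residue A) = 1 := by
    ext i j
    fin_cases i <;> fin_cases j <;> simp [hb']
  have hMbu : IsUnit ((1 : Matrix (Fin 2) (Fin 2) A) + b • X) :=
    isUnit_of_map_residue _ (by rw [hMbmap]; exact isUnit_one)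
  have hdetu : IsUnit ((1 : Matrix (Fin 2) (Fin 2) A) + b • X).det :=
    (Matrix.isUnit_iff_isUnit_det _).mp hMbu
  obtain ⟨u, hu⟩ := hMbu
  have humap : (u : Matrix (Fin 2) (Fin 2) A).map (residue A) = 1 := by rw [hu, hMbmap]
  refine ⟨u⁻¹, map_inv_eq_one u humap, ?_, ?_⟩
  · -- `M_b` commutes with `X`
    have hcomm : X * (1 + b • X) = (1 + b • X) * X := by
      rw [mul_add, add_mul, mul_one, one_mul, Matrix.mul_smul, Matrix.smul_mul]
    rw [inv_inv, ← hX, mul_assoc, hu, hcomm, ← hu, Units.inv_mul_cancel_left]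
  · rw [inv_inv, ← hY, ← hc]
    have hadj : Matrix.adjugate ((1 : Matrix (Fin 2) (Fin 2) A) + b • X)
        = ((1 : Matrix (Fin 2) (Fin 2) A) + b • X).det •
          ((u⁻¹ : (Matrix (Fin 2) (Fin 2) A)ˣ) : Matrix (Fin 2) (Fin 2) A) := by
      have h1 : Matrix.adjugate ((1 : Matrix (Fin 2) (Fin 2) A) + b • X) *
          (u : Matrix (Fin 2) (Fin 2) A)
          = ((1 : Matrix (Fin 2) (Fin 2) A) + b • X).det • (1 : Matrix (Fin 2) (Fin 2) A) := by
        rw [hu, Matrix.adjugate_mul]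
      calc Matrix.adjugate ((1 : Matrix (Fin 2) (Fin 2) A) + b • X)
          = Matrix.adjugate ((1 : Matrix (Fin 2) (Fin 2) A) + b • X) *
              (u : Matrix (Fin 2) (Fin 2) A) *
              ((u⁻¹ : (Matrix (Fin 2) (Fin 2) A)ˣ) : Matrix (Fin 2) (Fin 2) A) := by
            rw [mul_assoc, Units.mul_inv, mul_one]
        _ = _ := by rw [h1, Matrix.smul_mul, one_mul]
    have hentry : ((1 : Matrix (Fin 2) (Fin 2) A) + b • X).det *
        (((u⁻¹ : (Matrix (Fin 2) (Fin 2) A)ˣ) : Matrix (Fin 2) (Fin 2) A) * Y *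
          (u : Matrix (Fin 2) (Fin 2) A)) D.i0 D.j0
        = ((1 : Matrix (Fin 2) (Fin 2) A) + b • X).det * Y D.i0 D.j0
          + b * (Y * X - X * Y) D.i0 D.j0 + b ^ 2 * ((Y * X - X * Y) * X) D.i0 D.j0 := by
      rw [← adj_entry X Y b D.i0 D.j0, hadj, Matrix.smul_mul, Matrix.smul_mul, Matrix.smul_apply,
        smul_eq_mul, hu]
    apply hdetu.mul_left_cancel
    rw [hentry, det_one_add_smul]
    linear_combination hbeq

end steps

end Fermat.Agent.S53b.Normalize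

namespace Fermat.Agent.S53b

open IsLocalRing

section

variable {𝒪 : Type} [CommRing 𝒪] [IsLocalRing 𝒪]
variable {A : Type} [CommRing A] [IsLocalRing A] [Algebra 𝒪 A] [IsLocalHom (algebraMap 𝒪 A)]
variable (D : RigidData 𝒪)

set_option linter.unusedSectionVars false in
/-- Over a complete local `𝒪`-algebra, a matrix representation that is residually conjugate to
the matrices of `D` is conjugate to a normalized lift. -/
theorem exists_normalized [IsAdicComplete (maximalIdeal A) A]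
    {r : Gal → Matrix (Fin 2) (Fin 2) A} (h : IsRepFn A r)
    (N : (Matrix (Fin 2) (Fin 2) (ResidueField A))ˣ)
    (hN : ∀ g, (N : Matrix (Fin 2) (Fin 2) (ResidueField A)) * (r g).map (residue A) =
      ((D.ρt g).map (algebraMap 𝒪 A)).map (residue A) * N) :
    ∃ r' : Gal → Matrix (Fin 2) (Fin 2) A, IsNLift A D r' ∧
      ∃ M : (Matrix (Fin 2) (Fin 2) A)ˣ, ∀ g, (M : Matrix (Fin 2) (Fin 2) A) * r g = r' g * M := by
  -- Step 1
  obtain ⟨Q₁, hQ₁⟩ := Normalize.step1 D N hN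
  have hr₁ : IsRepFn A (fun g => (Q₁ : Matrix (Fin 2) (Fin 2) A) * r g *
      ((Q₁⁻¹ : (Matrix (Fin 2) (Fin 2) A)ˣ) : Matrix (Fin 2) (Fin 2) A)) :=
    Normalize.isRepFn_conj h Q₁
  -- Step 2
  obtain ⟨Q₂, hQ₂, h20, h21⟩ := Normalize.step2 D
    (r := fun g => (Q₁ : Matrix (Fin 2) (Fin 2) A) * r g *
      ((Q₁⁻¹ : (Matrix (Fin 2) (Fin 2) A)ˣ) : Matrix (Fin 2) (Fin 2) A)) hQ₁
  have hr₂ : IsRepFn A (fun g => (Q₂ : Matrix (Fin 2) (Fin 2) A) *
      ((Q₁ : Matrix (Fin 2) (Fin 2) A) * r g *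
        ((Q₁⁻¹ : (Matrix (Fin 2) (Fin 2) A)ˣ) : Matrix (Fin 2) (Fin 2) A)) *
      ((Q₂⁻¹ : (Matrix (Fin 2) (Fin 2) A)ˣ) : Matrix (Fin 2) (Fin 2) A)) :=
    Normalize.isRepFn_conj hr₁ Q₂
  have hres₂ : ∀ g, ((Q₂ : Matrix (Fin 2) (Fin 2) A) *
      ((Q₁ : Matrix (Fin 2) (Fin 2) A) * r g *
        ((Q₁⁻¹ : (Matrix (Fin 2) (Fin 2) A)ˣ) : Matrix (Fin 2) (Fin 2) A)) *
      ((Q₂⁻¹ : (Matrix (Fin 2) (Fin 2) A)ˣ) : Matrix (Fin 2) (Fin 2) A)).map (residue A)
      = ((D.ρt g).map (algebraMap 𝒪 A)).map (residue A) := fun g => by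
    rw [Normalize.map_conj_of_map_eq_one Q₂ hQ₂]
    exact hQ₁ g
  -- Step 3
  obtain ⟨Q₃, hQ₃, h3g, h3h⟩ := Normalize.step3 D
    (r := fun g => (Q₂ : Matrix (Fin 2) (Fin 2) A) *
      ((Q₁ : Matrix (Fin 2) (Fin 2) A) * r g *
        ((Q₁⁻¹ : (Matrix (Fin 2) (Fin 2) A)ˣ) : Matrix (Fin 2) (Fin 2) A)) *
      ((Q₂⁻¹ : (Matrix (Fin 2) (Fin 2) A)ˣ) : Matrix (Fin 2) (Fin 2) A)) hres₂
  have hr₃ : IsRepFn A (fun g => (Q₃ : Matrix (Fin 2) (Fin 2) A) *
      ((Q₂ : Matrix (Fin 2) (Fin 2) A) *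
        ((Q₁ : Matrix (Fin 2) (Fin 2) A) * r g *
          ((Q₁⁻¹ : (Matrix (Fin 2) (Fin 2) A)ˣ) : Matrix (Fin 2) (Fin 2) A)) *
        ((Q₂⁻¹ : (Matrix (Fin 2) (Fin 2) A)ˣ) : Matrix (Fin 2) (Fin 2) A)) *
      ((Q₃⁻¹ : (Matrix (Fin 2) (Fin 2) A)ˣ) : Matrix (Fin 2) (Fin 2) A)) :=
    Normalize.isRepFn_conj hr₂ Q₃
  have hres₃ : ∀ g, ((Q₃ : Matrix (Fin 2) (Fin 2) A) *
      ((Q₂ : Matrix (Fin 2) (Fin 2) A) *
        ((Q₁ : Matrix (Fin 2) (Fin 2) A) * r g *
          ((Q₁⁻¹ : (Matrix (Fin 2) (Fin 2) A)ˣ) : Matrix (Fin 2) (Fin 2) A)) *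
        ((Q₂⁻¹ : (Matrix (Fin 2) (Fin 2) A)ˣ) : Matrix (Fin 2) (Fin 2) A)) *
      ((Q₃⁻¹ : (Matrix (Fin 2) (Fin 2) A)ˣ) : Matrix (Fin 2) (Fin 2) A)).map (residue A)
      = ((D.ρt g).map (algebraMap 𝒪 A)).map (residue A) := fun g => by
    rw [Normalize.map_conj_of_map_eq_one Q₃ hQ₃]
    exact hres₂ g
  -- Assembly
  refine ⟨fun g => (Q₃ : Matrix (Fin 2) (Fin 2) A) *
      ((Q₂ : Matrix (Fin 2) (Fin 2) A) *
        ((Q₁ : Matrix (Fin 2) (Fin 2) A) * r g *
          ((Q₁⁻¹ : (Matrix (Fin 2) (Fin 2) A)ˣ) : Matrix (Fin 2) (Fin 2) A)) *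
        ((Q₂⁻¹ : (Matrix (Fin 2) (Fin 2) A)ˣ) : Matrix (Fin 2) (Fin 2) A)) *
      ((Q₃⁻¹ : (Matrix (Fin 2) (Fin 2) A)ˣ) : Matrix (Fin 2) (Fin 2) A),
    { toIsRepFn := hr₃, res := ?_, norm0 := ?_, norm1 := ?_, norm2 := ?_ }, Q₃ * Q₂ * Q₁, ?_⟩
  · intro g a b
    have hgab : residue A (((Q₃ : Matrix (Fin 2) (Fin 2) A) *
      ((Q₂ : Matrix (Fin 2) (Fin 2) A) *
        ((Q₁ : Matrix (Fin 2) (Fin 2) A) * r g *
          ((Q₁⁻¹ : (Matrix (Fin 2) (Fin 2) A)ˣ) : Matrix (Fin 2) (Fin 2) A)) *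
        ((Q₂⁻¹ : (Matrix (Fin 2) (Fin 2) A)ˣ) : Matrix (Fin 2) (Fin 2) A)) *
      ((Q₃⁻¹ : (Matrix (Fin 2) (Fin 2) A)ˣ) : Matrix (Fin 2) (Fin 2) A)) a b)
        = residue A (algebraMap 𝒪 A (D.ρt g a b)) := congrFun (congrFun (hres₃ g) a) b
    rw [← residue_eq_zero_iff, map_sub, sub_eq_zero]
    exact hgab
  · rw [h3g]
    exact h20
  · rw [h3g]
    exact h21
  · exact h3h
  · intro g
    simp only [Units.val_mul, mul_assoc, Units.inv_mul_cancel_left, Units.inv_mul, mul_one]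

end

end Fermat.Agent.S53b
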