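import Fermat.Agent.S53b.Defs
import Fermat.Agent.S53b.TestAlg

/-!
# S53b / P5a: the limit of a nilpotent tower of test algebras is complete noetherian local
-/

set_option autoImplicit false

namespace Fermat.Agent.S53b

open IsLocalRing

section

variable (𝒪 : Type) [CommRing 𝒪] [IsLocalRing 𝒪]

/-- A limit of a tower `⋯ → A 2 → A 1 → A 0` of test algebras. -/
structure TowerLimit (A : ℕ → Type) [∀ n, CommRing (A n)] [∀ n, IsLocalRing (A n)]
    [∀ n, Algebra 𝒪 (A n)] (π : ∀ n, A (n + 1) →ₐ[𝒪] A n) : Type 1 where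
  R : Type
  [instCommRing : CommRing R]
  [instIsLocalRing : IsLocalRing R]
  [instIsNoetherianRing : IsNoetherianRing R]
  [instIsAdicComplete : IsAdicComplete (maximalIdeal R) R]
  [instAlgebra : Algebra 𝒪 R]
  [instIsLocalHom : IsLocalHom (algebraMap 𝒪 R)]
  residue_surjective : Function.Surjective (residue R ∘ algebraMap 𝒪 R)
  p : ∀ n, R →ₐ[𝒪] A n
  p_comp : ∀ n, (π n).comp (p (n + 1)) = p n
  p_surjective : ∀ n, Function.Surjective (p n)
  ker_p : ∀ n, RingHom.ker (p n : R →+* A n) = maximalIdeal R ^ (n + 1)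
  exists_lim : ∀ a : ∀ n, A n, (∀ n, π n (a (n + 1)) = a n) → ∃ r : R, ∀ n, p n r = a n

attribute [instance] TowerLimit.instCommRing TowerLimit.instIsLocalRing
  TowerLimit.instIsNoetherianRing TowerLimit.instIsAdicComplete TowerLimit.instAlgebra
  TowerLimit.instIsLocalHom

end

/-! ## Auxiliary results

The limit is constructed as a quotient of a power series ring `MvPowerSeries (Fin s) 𝒪`:
* Part A: compatible finite generating families `y n` of the maximal ideals of the `A n`;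
* Part B1: the induced compatible surjections `Φ n : MvPowerSeries (Fin s) 𝒪 →ₐ[𝒪] A n`;
* Part B2: the quotient by `⋂ ker (Φ n)` is the limit, and it is complete noetherian local.
-/

namespace Tower

section

variable {𝒪 : Type} [CommRing 𝒪]

namespace PartA

/-- Preimages of non-units under a ring hom between local rings are non-units. -/
theorem mem_maximalIdeal_of_map_mem {R S : Type} [CommRing R] [IsLocalRing R] [CommRing S]
    [IsLocalRing S] (f : R →+* S) {x : R} (hx : f x ∈ maximalIdeal S) :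
    x ∈ maximalIdeal R := by
  rw [IsLocalRing.mem_maximalIdeal, mem_nonunits_iff] at hx ⊢
  exact fun h => hx (h.map f)

/-- A surjective ring hom between local rings maps the maximal ideal into the maximal ideal. -/
theorem map_mem_maximalIdeal_of_surjective {R S : Type} [CommRing R] [IsLocalRing R]
    [CommRing S] [IsLocalRing S] (f : R →+* S) (hf : Function.Surjective f) {x : R}
    (hx : x ∈ maximalIdeal R) : f x ∈ maximalIdeal S := by
  have hloc : IsLocalHom f := IsLocalHom.of_surjective f hf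
  rw [IsLocalRing.mem_maximalIdeal, mem_nonunits_iff] at hx ⊢
  exact fun h => hx (isUnit_of_map_unit f x h)

/-- Nakayama step: if `f : R → S` is a surjection of local rings, `R` noetherian, with kernel
inside `𝔪 ^ 2`, then a family in `R` whose image spans the maximal ideal of `S` spans the
maximal ideal of `R`. -/
theorem span_eq_maximalIdeal_of_map {R S : Type} [CommRing R] [IsLocalRing R]
    [IsNoetherianRing R] [CommRing S] [IsLocalRing S] (f : R →+* S)
    (hf : Function.Surjective f) (hker : RingHom.ker f ≤ maximalIdeal R ^ 2) {ι : Type}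
    (y : ι → R) (hy : Ideal.span (Set.range (fun i => f (y i))) = maximalIdeal S) :
    Ideal.span (Set.range y) = maximalIdeal R := by
  have hmem : ∀ i, y i ∈ maximalIdeal R := by
    intro i
    apply mem_maximalIdeal_of_map_mem f
    rw [← hy]
    exact Ideal.subset_span ⟨i, rfl⟩
  have hle : Ideal.span (Set.range y) ≤ maximalIdeal R := by
    rw [Ideal.span_le]
    rintro _ ⟨i, rfl⟩
    exact hmem i
  refine le_antisymm hle ?_
  have hmap : Ideal.map f (Ideal.span (Set.range y)) = maximalIdeal S := by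
    rw [Ideal.map_span, ← hy]
    congr 1
    ext b
    constructor
    · rintro ⟨_, ⟨i, rfl⟩, rfl⟩
      exact ⟨i, rfl⟩
    · rintro ⟨i, rfl⟩
      exact ⟨y i, ⟨i, rfl⟩, rfl⟩
  have hfg : (maximalIdeal R : Submodule R R).FG := IsNoetherian.noetherian _
  have hjac : maximalIdeal R ≤ Ideal.jacobson (⊥ : Ideal R) :=
    IsLocalRing.maximalIdeal_le_jacobson ⊥
  have hsup : (maximalIdeal R : Submodule R R) ≤
      (Ideal.span (Set.range y) : Submodule R R) ⊔
        (maximalIdeal R) • (maximalIdeal R : Submodule R R) := by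
    intro x hx
    have hfx : f x ∈ Ideal.map f (Ideal.span (Set.range y)) := by
      rw [hmap]
      exact map_mem_maximalIdeal_of_surjective f hf hx
    obtain ⟨j, hj, hjx⟩ := (Ideal.mem_map_iff_of_surjective f hf).1 hfx
    have hk : x - j ∈ RingHom.ker f := by
      rw [RingHom.mem_ker, map_sub, hjx, sub_self]
    have hk2 : x - j ∈ (maximalIdeal R) • (maximalIdeal R : Submodule R R) := by
      have hk' := hker hk
      rwa [pow_two] at hk'
    have hx' : x = j + (x - j) := by ring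
    rw [hx']
    exact Submodule.add_mem_sup hj hk2
  exact Submodule.le_of_le_smul_of_le_jacobson_bot hfg hjac hsup

end PartA

/-- Part A: compatible finite families of generators of the maximal ideals. -/
theorem exists_generators (A : ℕ → Type) [∀ n, CommRing (A n)]
    [∀ n, IsLocalRing (A n)] [∀ n, Algebra 𝒪 (A n)] (hA : ∀ n, IsATA 𝒪 (A n))
    (hnil : ∀ n, maximalIdeal (A n) ^ (n + 1) = ⊥)
    (π : ∀ n, A (n + 1) →ₐ[𝒪] A n) (hπ : ∀ n, Function.Surjective (π n))
    (hker : ∀ n, RingHom.ker (π n : A (n + 1) →+* A n) = maximalIdeal (A (n + 1)) ^ (n + 1)) :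
    ∃ (s : ℕ) (y : ∀ n, Fin s → A n), (∀ n i, π n (y (n + 1) i) = y n i) ∧
      ∀ n, Ideal.span (Set.range (y n)) = maximalIdeal (A n) := by
  -- the rings `A n` are artinian, hence noetherian
  have hnoeth : ∀ n, IsNoetherianRing (A n) := fun n =>
    have : IsArtinianRing (A n) := (hA n).isArtinian
    inferInstance
  -- Step 1: a finite generating family `y1` of the maximal ideal of `A 1`
  have hfg1 : (maximalIdeal (A 1) : Submodule (A 1) (A 1)).FG :=
    (hnoeth 1).noetherian _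
  obtain ⟨s, y1, hy1⟩ := Submodule.fg_iff_exists_fin_generating_family.1 hfg1
  -- Step 2: lift it successively along the tower; `z n` lives in `A (n + 1)`
  let z : ∀ n, Fin s → A (n + 1) := fun n =>
    Nat.rec (motive := fun n => Fin s → A (n + 1)) y1
      (fun n zn i => Function.surjInv (hπ (n + 1)) (zn i)) n
  have hzs : ∀ n i, π (n + 1) (z (n + 1) i) = z n i := fun n i =>
    Function.surjInv_eq (hπ (n + 1)) (z n i)
  -- Step 3: each lifted family spans the maximal ideal (Nakayama)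
  have hzspan : ∀ n, Ideal.span (Set.range (z n)) = maximalIdeal (A (n + 1)) := by
    intro n
    induction n with
    | zero => exact hy1
    | succ m ih =>
      have hnoeth' : IsNoetherianRing (A (m + 1 + 1)) := hnoeth (m + 1 + 1)
      refine PartA.span_eq_maximalIdeal_of_map (π (m + 1) : A (m + 1 + 1) →+* A (m + 1))
        (hπ (m + 1)) ?_ (z (m + 1)) ?_
      · rw [hker (m + 1)]
        exact Ideal.pow_le_pow_right (by omega)
      · have hfun :
            (fun i => (π (m + 1) : A (m + 1 + 1) →+* A (m + 1)) (z (m + 1) i)) = z m := by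
          funext i
          exact hzs m i
        rw [hfun]
        exact ih
  -- Step 4: the family `y`, with `y 0` the image of `z 0` and `y (n + 1) = z n`
  let y : ∀ n, Fin s → A n := fun n =>
    Nat.rec (motive := fun n => Fin s → A n) (fun i => π 0 (z 0 i)) (fun m _ => z m) n
  refine ⟨s, y, ?_, ?_⟩
  · intro n i
    cases n with
    | zero => rfl
    | succ m => exact hzs m i
  · intro n
    cases n with
    | zero =>
      have hbot : maximalIdeal (A 0) = ⊥ := by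
        have h0 := hnil 0
        rwa [zero_add, pow_one] at h0
      have hle : Ideal.span (Set.range (y 0)) ≤ maximalIdeal (A 0) := by
        rw [Ideal.span_le]
        rintro _ ⟨i, rfl⟩
        have hz0 : z 0 i ∈ maximalIdeal (A (0 + 1)) := by
          rw [← hzspan 0]
          exact Ideal.subset_span ⟨i, rfl⟩
        exact PartA.map_mem_maximalIdeal_of_surjective (π 0 : A (0 + 1) →+* A 0) (hπ 0) hz0
      rw [hbot] at hle ⊢
      exact le_antisymm hle bot_le
    | succ m => exact hzspan m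

namespace PartB1

/-- Evaluating at a family in the maximal ideal maps `idealOfVars ^ m` into `𝔪 ^ m`. -/
theorem aeval_mem_pow {B : Type} [CommRing B] [IsLocalRing B] [Algebra 𝒪 B] {s : ℕ}
    (y : Fin s → B) (hy : ∀ i, y i ∈ maximalIdeal B) (m : ℕ) {q : MvPolynomial (Fin s) 𝒪}
    (hq : q ∈ MvPolynomial.idealOfVars (Fin s) 𝒪 ^ m) :
    MvPolynomial.aeval y q ∈ maximalIdeal B ^ m := by
  have h1 : Ideal.map (MvPolynomial.aeval y : MvPolynomial (Fin s) 𝒪 →ₐ[𝒪] B)
      (MvPolynomial.idealOfVars (Fin s) 𝒪) ≤ maximalIdeal B := by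
    rw [MvPolynomial.idealOfVars, Ideal.map_span, Ideal.span_le]
    rintro _ ⟨_, ⟨i, rfl⟩, rfl⟩
    rw [MvPolynomial.aeval_X]
    exact hy i
  have h2 : MvPolynomial.aeval y q ∈
      Ideal.map (MvPolynomial.aeval y : MvPolynomial (Fin s) 𝒪 →ₐ[𝒪] B)
        (MvPolynomial.idealOfVars (Fin s) 𝒪 ^ m) := Ideal.mem_map_of_mem _ hq
  rw [Ideal.map_pow] at h2
  exact Ideal.pow_right_mono h1 m h2

/-- Evaluation of power series at a family `y` in a nilpotent maximal ideal:
truncate, then evaluate the polynomial. -/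
theorem exists_evalHom {B : Type} [CommRing B] [IsLocalRing B] [Algebra 𝒪 B] {s : ℕ}
    (y : Fin s → B) (hy : ∀ i, y i ∈ maximalIdeal B) (n : ℕ)
    (hnil : maximalIdeal B ^ (n + 1) = ⊥) :
    ∃ Φ : MvPowerSeries (Fin s) 𝒪 →ₐ[𝒪] B,
      (∀ f, Φ f = MvPolynomial.aeval y (MvPowerSeries.truncTotal (n + 1) f)) ∧
      ∀ q : MvPolynomial (Fin s) 𝒪,
        Φ (q : MvPowerSeries (Fin s) 𝒪) = MvPolynomial.aeval y q := by
  have h : ∀ q : MvPolynomial (Fin s) 𝒪, q ∈ MvPolynomial.idealOfVars (Fin s) 𝒪 ^ (n + 1) →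
      (MvPolynomial.aeval y : MvPolynomial (Fin s) 𝒪 →ₐ[𝒪] B).toRingHom q = 0 := by
    intro q hq
    have := aeval_mem_pow y hy (n + 1) hq
    rw [hnil, Ideal.mem_bot] at this
    exact this
  let ψ : MvPolynomial (Fin s) 𝒪 ⧸ MvPolynomial.idealOfVars (Fin s) 𝒪 ^ (n + 1) →+* B :=
    Ideal.Quotient.lift _ (MvPolynomial.aeval y : MvPolynomial (Fin s) 𝒪 →ₐ[𝒪] B).toRingHom h
  let φ : MvPowerSeries (Fin s) 𝒪 →+* B :=
    ψ.comp (MvPowerSeries.truncTotalAlgHom (Fin s) 𝒪 (n + 1) : MvPowerSeries (Fin s) 𝒪 →+* _)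
  have hφ : ∀ f, φ f = MvPolynomial.aeval y (MvPowerSeries.truncTotal (n + 1) f) :=
    fun f => rfl
  have hφ' : ∀ q : MvPolynomial (Fin s) 𝒪,
      φ (q : MvPowerSeries (Fin s) 𝒪) = MvPolynomial.aeval y q := by
    intro q
    have h1 := (MvPowerSeries.truncTotalAlgHom (Fin s) 𝒪 (n + 1)).commutes q
    show ψ (MvPowerSeries.truncTotalAlgHom (Fin s) 𝒪 (n + 1) (q : MvPowerSeries (Fin s) 𝒪)) = _
    have h2 : (q : MvPowerSeries (Fin s) 𝒪) =
        algebraMap (MvPolynomial (Fin s) 𝒪) (MvPowerSeries (Fin s) 𝒪) q := rfl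
    rw [h2, h1]
    rfl
  refine ⟨{ toRingHom := φ, commutes' := fun o => ?_ }, hφ, hφ'⟩
  show φ (algebraMap 𝒪 (MvPowerSeries (Fin s) 𝒪) o) = algebraMap 𝒪 B o
  have h3 : algebraMap 𝒪 (MvPowerSeries (Fin s) 𝒪) o =
      ((MvPolynomial.C o : MvPolynomial (Fin s) 𝒪) : MvPowerSeries (Fin s) 𝒪) := by
    rw [MvPolynomial.coe_C]
    rfl
  rw [h3, hφ', MvPolynomial.aeval_C]

end PartB1

namespace PartB2

section

variable {A : ℕ → Type} [∀ n, CommRing (A n)] [∀ n, IsLocalRing (A n)] [∀ n, Algebra 𝒪 (A n)]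
variable {π : ∀ n, A (n + 1) →ₐ[𝒪] A n}

/-- Congruence modulo `J • ⊤` in a ring is membership of the difference in `J`. -/
theorem smodEq_iff {R : Type} [CommRing R] (J : Ideal R) (x y : R) :
    x ≡ y [SMOD (J • ⊤ : Submodule R R)] ↔ x - y ∈ J := by
  rw [SModEq.sub_mem, smul_eq_mul, Ideal.mul_top]

/-- Abstract packaging: a ring with compatible surjections onto the tower, whose kernels are the
powers of an ideal `𝔫`, which is the limit of the tower, is a `TowerLimit`. -/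
theorem of_projections (hA0 : IsATA 𝒪 (A 0)) (hnil0 : maximalIdeal (A 0) ^ (0 + 1) = ⊥)
    (R : Type) [CommRing R] [IsNoetherianRing R] [Algebra 𝒪 R] (𝔫 : Ideal R)
    (p : ∀ n, R →ₐ[𝒪] A n) (p_comp : ∀ n, (π n).comp (p (n + 1)) = p n)
    (p_surj : ∀ n, Function.Surjective (p n))
    (hkerp : ∀ n, RingHom.ker (p n : R →+* A n) = 𝔫 ^ (n + 1))
    (hlim : ∀ a : ∀ n, A n, (∀ n, π n (a (n + 1)) = a n) → ∃ r : R, ∀ n, p n r = a n)
    (hinj : ∀ r : R, (∀ n, p n r = 0) → r = 0) :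
    Nonempty (TowerLimit 𝒪 A π) := by
  have h𝔪0 : maximalIdeal (A 0) = ⊥ := by simpa using hnil0
  have hmem : ∀ (n : ℕ) (r : R), r ∈ 𝔫 ^ (n + 1) ↔ p n r = 0 := by
    intro n r
    rw [← hkerp n, RingHom.mem_ker]
    rfl
  have hmem0 : ∀ r : R, r ∈ 𝔫 ↔ p 0 r = 0 := by
    intro r
    have := hmem 0 r
    rwa [zero_add, pow_one] at this
  have hpπ : ∀ (n : ℕ) (r : R), π n (p (n + 1) r) = p n r := fun n r =>
    AlgHom.congr_fun (p_comp n) r
  have h𝔫max : 𝔫.IsMaximal := by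
    have h𝔫 : 𝔫 = Ideal.comap (p 0 : R →+* A 0) (maximalIdeal (A 0)) := by
      ext r
      rw [hmem0 r, Ideal.mem_comap, h𝔪0, Ideal.mem_bot]
      rfl
    rw [h𝔫]
    exact Ideal.comap_isMaximal_of_surjective (p 0 : R →+* A 0) (p_surj 0)
  have hH : IsHausdorff 𝔫 R := by
    refine ⟨fun x hx => hinj x fun n => (hmem n x).1 ?_⟩
    have := (smodEq_iff (𝔫 ^ (n + 1)) x 0).1 (hx (n + 1))
    rwa [sub_zero] at this
  have hP : IsPrecomplete 𝔫 R := by
    refine ⟨fun f hf => ?_⟩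
    have hf' : ∀ n, p n (f (n + 2)) = p n (f (n + 1)) := by
      intro n
      have h1 := (smodEq_iff (𝔫 ^ (n + 1)) _ _).1 (hf (Nat.le_succ (n + 1)))
      have h2 := (hmem n _).1 h1
      rw [map_sub, sub_eq_zero] at h2
      exact h2.symm
    obtain ⟨r, hr⟩ := hlim (fun n => p n (f (n + 1))) (fun n => by
      show π n (p (n + 1) (f (n + 1 + 1))) = p n (f (n + 1))
      rw [hpπ]
      exact hf' n)
    refine ⟨r, fun n => ?_⟩
    rw [smodEq_iff]
    cases n with
    | zero => rw [pow_zero, Ideal.one_eq_top]; exact Submodule.mem_top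
    | succ m =>
      rw [hmem m, map_sub, sub_eq_zero]
      exact (hr m).symm
  have hcomplete : IsAdicComplete 𝔫 R := { toIsHausdorff := hH, toIsPrecomplete := hP }
  have hloc : IsLocalRing R := isLocalRing_of_isAdicComplete_maximal 𝔫
  have hmax : maximalIdeal R = 𝔫 := (IsLocalRing.eq_maximalIdeal h𝔫max).symm
  have hcomplete' : IsAdicComplete (maximalIdeal R) R := by
    rw [hmax]
    exact hcomplete
  have hlocalHom : IsLocalHom (algebraMap 𝒪 R) := by
    refine ⟨fun o ho => ?_⟩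
    have h1 : IsUnit (p 0 (algebraMap 𝒪 R o)) := ho.map (p 0)
    rw [AlgHom.commutes] at h1
    exact hA0.isLocalHom.map_nonunit o h1
  have hres : Function.Surjective (residue R ∘ algebraMap 𝒪 R) := by
    intro x
    obtain ⟨r, rfl⟩ := IsLocalRing.residue_surjective x
    obtain ⟨o, ho⟩ := hA0.residue_surjective (residue (A 0) (p 0 r))
    refine ⟨o, ?_⟩
    have h1 : algebraMap 𝒪 (A 0) o - p 0 r ∈ maximalIdeal (A 0) := by
      rw [← IsLocalRing.residue_eq_zero_iff, map_sub, sub_eq_zero]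
      exact ho
    rw [h𝔪0, Ideal.mem_bot, sub_eq_zero] at h1
    show residue R (algebraMap 𝒪 R o) = residue R r
    rw [← sub_eq_zero, ← map_sub, IsLocalRing.residue_eq_zero_iff, hmax, hmem0, map_sub,
      AlgHom.commutes, h1, sub_self]
  exact ⟨{ R := R
           residue_surjective := hres
           p := p
           p_comp := p_comp
           p_surjective := p_surj
           ker_p := fun n => by rw [hmax]; exact hkerp n
           exists_lim := hlim }⟩

variable {Λ : Type} [CommRing Λ] [Algebra 𝒪 Λ] {I : Ideal Λ} {Φ : ∀ n, Λ →ₐ[𝒪] A n}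

/-- `Φ n` kills `I ^ (n + 1)`. -/
theorem pow_le_ker {n : ℕ} (hnil : maximalIdeal (A n) ^ (n + 1) = ⊥)
    (hΦI : Ideal.map (Φ n) I = maximalIdeal (A n)) {g : Λ} (hg : g ∈ I ^ (n + 1)) :
    Φ n g = 0 := by
  have h1 : Φ n g ∈ Ideal.map (Φ n) (I ^ (n + 1)) := Ideal.mem_map_of_mem _ hg
  rw [Ideal.map_pow, hΦI, hnil, Ideal.mem_bot] at h1
  exact h1

/-- `Φ n` kills `I ^ m` for `m ≥ n + 1`. -/
theorem pow_le_ker' (hnil : ∀ n, maximalIdeal (A n) ^ (n + 1) = ⊥)
    (hΦI : ∀ n, Ideal.map (Φ n) I = maximalIdeal (A n)) {n m : ℕ} (hnm : n + 1 ≤ m) {g : Λ}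
    (hg : g ∈ I ^ m) : Φ n g = 0 :=
  pow_le_ker (hnil n) (hΦI n) (Ideal.pow_le_pow_right hnm hg)

/-- Elements of `ker (π n)` are images under `Φ (n + 1)` of elements of `I ^ (n + 1)`. -/
theorem exists_mem_pow {n : ℕ}
    (hker : RingHom.ker (π n : A (n + 1) →+* A n) = maximalIdeal (A (n + 1)) ^ (n + 1))
    (hΦs : Function.Surjective (Φ (n + 1)))
    (hΦI : Ideal.map (Φ (n + 1)) I = maximalIdeal (A (n + 1))) {c : A (n + 1)}
    (hc : π n c = 0) : ∃ g ∈ I ^ (n + 1), Φ (n + 1) g = c := by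
  have h1 : c ∈ RingHom.ker (π n : A (n + 1) →+* A n) := by
    rw [RingHom.mem_ker]
    exact hc
  rw [hker, ← hΦI, ← Ideal.map_pow] at h1
  exact (Ideal.mem_map_iff_of_surjective (Φ (n + 1)) hΦs).1 h1

/-- The approximation lemma: compatible families lift to the complete ring `Λ`. -/
theorem approx [IsPrecomplete I Λ] (hnil : ∀ n, maximalIdeal (A n) ^ (n + 1) = ⊥)
    (hker : ∀ n, RingHom.ker (π n : A (n + 1) →+* A n) = maximalIdeal (A (n + 1)) ^ (n + 1))
    (hΦs : ∀ n, Function.Surjective (Φ n))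
    (hΦπ : ∀ n, (π n).comp (Φ (n + 1)) = Φ n)
    (hΦI : ∀ n, Ideal.map (Φ n) I = maximalIdeal (A n))
    (a : ∀ n, A n) (ha : ∀ n, π n (a (n + 1)) = a n) (N : ℕ) (haN : ∀ j, j < N → a j = 0) :
    ∃ g ∈ I ^ N, ∀ n, Φ n g = a n := by
  have hΦπ' : ∀ (n : ℕ) (g : Λ), π n (Φ (n + 1) g) = Φ n g := fun n g =>
    AlgHom.congr_fun (hΦπ n) g
  -- the inductive step
  have step : ∀ (n : ℕ) (g : Λ), Φ n g = a n → g ∈ I ^ N →
      ∃ g' : Λ, (Φ (n + 1) g' = a (n + 1) ∧ g' ∈ I ^ N) ∧ g' - g ∈ I ^ (n + 1) := by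
    intro n g hg hgN
    by_cases hn : n + 1 < N
    · refine ⟨g, ⟨?_, hgN⟩, ?_⟩
      · rw [haN (n + 1) hn]
        exact pow_le_ker' hnil hΦI hn hgN
      · rw [sub_self]
        exact Ideal.zero_mem _
    · have hc : π n (a (n + 1) - Φ (n + 1) g) = 0 := by
        rw [map_sub, ha, hΦπ', hg, sub_self]
      obtain ⟨h, hh, hh'⟩ := exists_mem_pow (hker n) (hΦs (n + 1)) (hΦI (n + 1)) hc
      refine ⟨g + h, ⟨?_, ?_⟩, ?_⟩
      · rw [map_add, hh']
        abel
      · exact Ideal.add_mem _ hgN (Ideal.pow_le_pow_right (not_lt.1 hn) hh)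
      · rw [add_sub_cancel_left]
        exact hh
  -- the base point
  obtain ⟨g0, hg0, hg0N⟩ : ∃ g0 : Λ, Φ 0 g0 = a 0 ∧ g0 ∈ I ^ N := by
    by_cases hN : 0 < N
    · exact ⟨0, by rw [map_zero, haN 0 hN], Ideal.zero_mem _⟩
    · obtain ⟨g0, hg0⟩ := hΦs 0 (a 0)
      have hN0 : N = 0 := by omega
      refine ⟨g0, hg0, ?_⟩
      rw [hN0, pow_zero, Ideal.one_eq_top]
      exact Submodule.mem_top
  choose! F hF using step
  let s : ℕ → Λ := fun n => Nat.rec g0 (fun n g => F n g) n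
  have hsS : ∀ n, s (n + 1) = F n (s n) := fun n => rfl
  have hs : ∀ n, Φ n (s n) = a n ∧ s n ∈ I ^ N := by
    intro n
    induction n with
    | zero => exact ⟨hg0, hg0N⟩
    | succ n ih =>
      rw [hsS]
      exact (hF n (s n) ih.1 ih.2).1
  have hdiff : ∀ n, s (n + 1) - s n ∈ I ^ (n + 1) := fun n => by
    rw [hsS]
    exact (hF n (s n) (hs n).1 (hs n).2).2
  have hcauchy : ∀ m n, m ≤ n → s n - s m ∈ I ^ m := by
    intro m n hmn
    induction n, hmn using Nat.le_induction with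
    | base => rw [sub_self]; exact Ideal.zero_mem _
    | succ n hmn ih =>
      have h1 : s (n + 1) - s m = (s (n + 1) - s n) + (s n - s m) := by abel
      rw [h1]
      exact Ideal.add_mem _ (Ideal.pow_le_pow_right (by omega) (hdiff n)) ih
  obtain ⟨L, hL⟩ := IsPrecomplete.prec' (I := I) s (fun {m n} hmn => by
    rw [smodEq_iff]
    have := hcauchy m n hmn
    rw [← neg_sub]
    exact Ideal.neg_mem_iff _ |>.2 this)
  have hL' : ∀ n, s n - L ∈ I ^ n := fun n => (smodEq_iff (I ^ n) (s n) L).1 (hL n)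
  refine ⟨L, ?_, fun n => ?_⟩
  · have h1 : L = s N - (s N - L) := by abel
    rw [h1]
    exact Ideal.sub_mem _ (hs N).2 (hL' N)
  · have h1 : Φ n (s (n + 1) - L) = 0 := pow_le_ker (hnil n) (hΦI n) (hL' (n + 1))
    rw [map_sub, sub_eq_zero] at h1
    rw [← h1, ← hΦπ', (hs (n + 1)).1, ha]

end

end PartB2

/-- Part B2: the abstract limit construction. -/
theorem nonempty_towerLimit_of_maps (A : ℕ → Type) [∀ n, CommRing (A n)]
    [∀ n, IsLocalRing (A n)] [∀ n, Algebra 𝒪 (A n)] (hA : ∀ n, IsATA 𝒪 (A n))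
    (hnil : ∀ n, maximalIdeal (A n) ^ (n + 1) = ⊥)
    (π : ∀ n, A (n + 1) →ₐ[𝒪] A n)
    (hker : ∀ n, RingHom.ker (π n : A (n + 1) →+* A n) = maximalIdeal (A (n + 1)) ^ (n + 1))
    (Λ : Type) [CommRing Λ] [IsNoetherianRing Λ] [Algebra 𝒪 Λ] (I : Ideal Λ) [IsAdicComplete I Λ]
    (Φ : ∀ n, Λ →ₐ[𝒪] A n) (hΦs : ∀ n, Function.Surjective (Φ n))
    (hΦπ : ∀ n, (π n).comp (Φ (n + 1)) = Φ n)
    (hΦI : ∀ n, Ideal.map (Φ n) I = maximalIdeal (A n)) :
    Nonempty (TowerLimit 𝒪 A π) := by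
  obtain ⟨𝔟, h𝔟⟩ : ∃ 𝔟 : Ideal Λ, ∀ g : Λ, g ∈ 𝔟 ↔ ∀ n, Φ n g = 0 := by
    refine ⟨⨅ n, RingHom.ker (Φ n : Λ →+* A n), fun g => ?_⟩
    simp only [Ideal.mem_iInf, RingHom.mem_ker]
    rfl
  let p : ∀ n, (Λ ⧸ 𝔟) →ₐ[𝒪] A n := fun n =>
    Ideal.Quotient.liftₐ 𝔟 (Φ n) (fun g hg => (h𝔟 g).1 hg n)
  have hp : ∀ (n : ℕ) (g : Λ), p n (Ideal.Quotient.mk 𝔟 g) = Φ n g := fun n g => rfl
  have p_comp : ∀ n, (π n).comp (p (n + 1)) = p n := by
    intro n
    apply AlgHom.ext
    intro x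
    obtain ⟨g, rfl⟩ := Ideal.Quotient.mk_surjective x
    show π n (p (n + 1) (Ideal.Quotient.mk 𝔟 g)) = p n (Ideal.Quotient.mk 𝔟 g)
    rw [hp, hp]
    exact AlgHom.congr_fun (hΦπ n) g
  have hpπ : ∀ (n : ℕ) (r : Λ ⧸ 𝔟), π n (p (n + 1) r) = p n r := fun n r =>
    AlgHom.congr_fun (p_comp n) r
  have hdown : ∀ (r : Λ ⧸ 𝔟) (m k : ℕ), p (m + k) r = 0 → p m r = 0 := by
    intro r m k
    induction k with
    | zero => exact fun h => h
    | succ k ih =>
      intro h
      apply ih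
      rw [← hpπ]
      show π (m + k) (p (m + (k + 1)) r) = 0
      rw [h, map_zero]
  have hinj : ∀ r : Λ ⧸ 𝔟, (∀ n, p n r = 0) → r = 0 := by
    intro r hr
    obtain ⟨g, rfl⟩ := Ideal.Quotient.mk_surjective r
    rw [Ideal.Quotient.eq_zero_iff_mem, h𝔟]
    intro n
    rw [← hp]
    exact hr n
  refine PartB2.of_projections (hA 0) (hnil 0) (Λ ⧸ 𝔟) (Ideal.map (Ideal.Quotient.mk 𝔟) I) p
    p_comp ?_ ?_ ?_ hinj
  · intro n b
    obtain ⟨g, rfl⟩ := hΦs n b
    exact ⟨Ideal.Quotient.mk 𝔟 g, hp n g⟩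
  · intro n
    rw [← Ideal.map_pow]
    apply le_antisymm
    · intro r hr
      rw [RingHom.mem_ker] at hr
      have hr' : p n r = 0 := hr
      obtain ⟨g, hgI, hg⟩ := PartB2.approx (I := I) hnil hker hΦs hΦπ hΦI (fun j => p j r)
        (fun j => hpπ j r) (n + 1) (fun j hj => by
          obtain ⟨k, rfl⟩ := Nat.exists_eq_add_of_le (Nat.lt_succ_iff.1 hj)
          exact hdown r j k hr')
      have hrg : r = Ideal.Quotient.mk 𝔟 g := by
        rw [← sub_eq_zero]
        apply hinj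
        intro j
        rw [map_sub, hp, hg j, sub_self]
      rw [hrg]
      exact Ideal.mem_map_of_mem _ hgI
    · intro r hr
      obtain ⟨g, hg, rfl⟩ := (Ideal.mem_map_iff_of_surjective _ Ideal.Quotient.mk_surjective).1 hr
      rw [RingHom.mem_ker]
      show p n (Ideal.Quotient.mk 𝔟 g) = 0
      rw [hp]
      exact PartB2.pow_le_ker (hnil n) (hΦI n) hg
  · intro a ha
    obtain ⟨g, -, hg⟩ := PartB2.approx (I := I) hnil hker hΦs hΦπ hΦI a ha 0
      (fun j hj => absurd hj (Nat.not_lt_zero j))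
    exact ⟨Ideal.Quotient.mk 𝔟 g, fun n => by rw [hp]; exact hg n⟩

end

section

variable {𝒪 : Type} [CommRing 𝒪] [IsLocalRing 𝒪]

/-- Part B1: the compatible surjections from the power series ring. -/
theorem exists_maps (A : ℕ → Type) [∀ n, CommRing (A n)]
    [∀ n, IsLocalRing (A n)] [∀ n, Algebra 𝒪 (A n)] (hA : ∀ n, IsATA 𝒪 (A n))
    (hnil : ∀ n, maximalIdeal (A n) ^ (n + 1) = ⊥)
    (π : ∀ n, A (n + 1) →ₐ[𝒪] A n)
    (s : ℕ) (y : ∀ n, Fin s → A n) (hy : ∀ n i, π n (y (n + 1) i) = y n i)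
    (hspan : ∀ n, Ideal.span (Set.range (y n)) = maximalIdeal (A n)) :
    ∃ Φ : ∀ n, MvPowerSeries (Fin s) 𝒪 →ₐ[𝒪] A n,
      (∀ n, Function.Surjective (Φ n)) ∧ (∀ n, (π n).comp (Φ (n + 1)) = Φ n) ∧
      ∀ n, Ideal.map (Φ n)
        (Ideal.span (Set.range (MvPowerSeries.X : Fin s → MvPowerSeries (Fin s) 𝒪))) =
          maximalIdeal (A n) := by
  have hym : ∀ n i, y n i ∈ maximalIdeal (A n) := fun n i => by
    rw [← hspan n]
    exact Ideal.subset_span ⟨i, rfl⟩
  choose Φ hΦ hΦpoly using fun n => PartB1.exists_evalHom (𝒪 := 𝒪) (y n) (hym n) n (hnil n)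
  have hΦX : ∀ n i, Φ n (MvPowerSeries.X i) = y n i := by
    intro n i
    rw [← MvPolynomial.coe_X, hΦpoly, MvPolynomial.aeval_X]
  have hcomp : ∀ n (q : MvPolynomial (Fin s) 𝒪),
      π n (MvPolynomial.aeval (y (n + 1)) q) = MvPolynomial.aeval (y n) q := by
    intro n q
    have h1 : (π n).comp (MvPolynomial.aeval (y (n + 1))) = MvPolynomial.aeval (y n) := by
      apply MvPolynomial.algHom_ext
      intro i
      rw [AlgHom.comp_apply, MvPolynomial.aeval_X, MvPolynomial.aeval_X, hy]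
    exact AlgHom.congr_fun h1 q
  refine ⟨Φ, fun n => ?_, fun n => ?_, fun n => ?_⟩
  · intro b
    have h1 : Algebra.adjoin 𝒪 (Set.range (y n)) = ⊤ :=
      adjoin_eq_top_of_span_eq_maximalIdeal (hA n).residue_surjective ⟨n + 1, hnil n⟩ (y n)
        (hspan n)
    have h2 : b ∈ (MvPolynomial.aeval (y n) : MvPolynomial (Fin s) 𝒪 →ₐ[𝒪] A n).range := by
      rw [← Algebra.adjoin_range_eq_range_aeval, h1]
      exact Algebra.mem_top
    obtain ⟨q, rfl⟩ := h2
    exact ⟨(q : MvPowerSeries (Fin s) 𝒪), hΦpoly n q⟩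
  · apply AlgHom.ext
    intro f
    rw [AlgHom.comp_apply, hΦ, hΦ, hcomp, ← sub_eq_zero, ← map_sub]
    have h1 := PartB1.aeval_mem_pow (y n) (hym n) (n + 1)
      (MvPowerSeries.truncTotal_sub_truncTotal_mem_pow_idealOfVars (Nat.le_succ (n + 1))
        (le_refl (n + 1)) f)
    rw [hnil n, Ideal.mem_bot] at h1
    exact h1
  · rw [Ideal.map_span, ← hspan n]
    congr 1
    ext b
    constructor
    · rintro ⟨_, ⟨i, rfl⟩, rfl⟩
      exact ⟨i, (hΦX n i).symm⟩
    · rintro ⟨i, rfl⟩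
      exact ⟨_, ⟨i, rfl⟩, hΦX n i⟩

end

end Tower

section

variable {𝒪 : Type} [CommRing 𝒪] [IsLocalRing 𝒪]

/-- A surjective tower of test algebras with `A n` of nilpotency level `n + 1` and
`ker (A (n+1) → A n) = 𝔪^(n+1)` has a complete noetherian local limit `R` with
`R ⧸ 𝔪^(n+1) ≅ A n`. -/
theorem nonempty_towerLimit [IsNoetherianRing 𝒪] (A : ℕ → Type) [∀ n, CommRing (A n)]
    [∀ n, IsLocalRing (A n)] [∀ n, Algebra 𝒪 (A n)] (hA : ∀ n, IsATA 𝒪 (A n))
    (hnil : ∀ n, maximalIdeal (A n) ^ (n + 1) = ⊥)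
    (π : ∀ n, A (n + 1) →ₐ[𝒪] A n) (hπ : ∀ n, Function.Surjective (π n))
    (hker : ∀ n, RingHom.ker (π n : A (n + 1) →+* A n) = maximalIdeal (A (n + 1)) ^ (n + 1)) :
    Nonempty (TowerLimit 𝒪 A π) := by
  obtain ⟨s, y, hy, hspan⟩ := Tower.exists_generators A hA hnil π hπ hker
  obtain ⟨Φ, hΦs, hΦπ, hΦI⟩ := Tower.exists_maps A hA hnil π s y hy hspan
  exact Tower.nonempty_towerLimit_of_maps A hA hnil π hker (MvPowerSeries (Fin s) 𝒪)
    (Ideal.span (Set.range (MvPowerSeries.X : Fin s → MvPowerSeries (Fin s) 𝒪))) Φ hΦs hΦπ hΦI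

end

end Fermat.Agent.S53b
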