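import Fermat.Agent.S53b.Defs
import Fermat.Agent.S53b.TestAlg

/-!
# S53b / P1b: the subalgebra of a product generated by a pair of families
-/

set_option autoImplicit false

namespace Fermat.Agent.S53b.PairSub

open IsLocalRing

section

variable {𝒪 : Type} [CommRing 𝒪] [IsLocalRing 𝒪] {Γ : Type} {A B : Type}
  [CommRing A] [IsLocalRing A] [Algebra 𝒪 A] [CommRing B] [IsLocalRing B] [Algebra 𝒪 B]

/-- The subalgebra of `A × B` generated by the pairs `(x γ, y γ)`. -/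
def pairSub (𝒪 : Type) [CommRing 𝒪] {Γ : Type} {A B : Type} [CommRing A] [Algebra 𝒪 A]
    [CommRing B] [Algebra 𝒪 B] (x : Γ → A) (y : Γ → B) : Subalgebra 𝒪 (A × B) :=
  Algebra.adjoin 𝒪 (Set.range fun γ => ((x γ, y γ) : A × B))

omit [IsLocalRing 𝒪] in
/-- Every element of the pair subalgebra is residually a scalar, the same on both sides. -/
theorem exists_scalar (x₀ : Γ → 𝒪) (x : Γ → A) (y : Γ → B)
    (hx : ∀ γ, x γ - algebraMap 𝒪 A (x₀ γ) ∈ maximalIdeal A)
    (hy : ∀ γ, y γ - algebraMap 𝒪 B (x₀ γ) ∈ maximalIdeal B)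
    {w : A × B} (hw : w ∈ pairSub 𝒪 x y) :
    ∃ o : 𝒪, w.1 - algebraMap 𝒪 A o ∈ maximalIdeal A ∧
      w.2 - algebraMap 𝒪 B o ∈ maximalIdeal B := by
  unfold pairSub at hw
  induction hw using Algebra.adjoin_induction with
  | mem w hw =>
    obtain ⟨γ, rfl⟩ := hw
    exact ⟨x₀ γ, hx γ, hy γ⟩
  | algebraMap r =>
    refine ⟨r, ?_, ?_⟩
    · have h : ((algebraMap 𝒪 (A × B)) r).1 - algebraMap 𝒪 A r = 0 := by
        simp [Prod.algebraMap_apply]
      rw [h]; exact Ideal.zero_mem _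
    · have h : ((algebraMap 𝒪 (A × B)) r).2 - algebraMap 𝒪 B r = 0 := by
        simp [Prod.algebraMap_apply]
      rw [h]; exact Ideal.zero_mem _
  | add w₁ w₂ _ _ h₁ h₂ =>
    obtain ⟨o₁, ha₁, hb₁⟩ := h₁
    obtain ⟨o₂, ha₂, hb₂⟩ := h₂
    refine ⟨o₁ + o₂, ?_, ?_⟩
    · have h : (w₁ + w₂).1 - algebraMap 𝒪 A (o₁ + o₂) =
          (w₁.1 - algebraMap 𝒪 A o₁) + (w₂.1 - algebraMap 𝒪 A o₂) := by
        rw [map_add, Prod.fst_add]; ring
      rw [h]; exact Ideal.add_mem _ ha₁ ha₂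
    · have h : (w₁ + w₂).2 - algebraMap 𝒪 B (o₁ + o₂) =
          (w₁.2 - algebraMap 𝒪 B o₁) + (w₂.2 - algebraMap 𝒪 B o₂) := by
        rw [map_add, Prod.snd_add]; ring
      rw [h]; exact Ideal.add_mem _ hb₁ hb₂
  | mul w₁ w₂ _ _ h₁ h₂ =>
    obtain ⟨o₁, ha₁, hb₁⟩ := h₁
    obtain ⟨o₂, ha₂, hb₂⟩ := h₂
    refine ⟨o₁ * o₂, ?_, ?_⟩
    · have h : (w₁ * w₂).1 - algebraMap 𝒪 A (o₁ * o₂) =
          w₁.1 * (w₂.1 - algebraMap 𝒪 A o₂) + algebraMap 𝒪 A o₂ * (w₁.1 - algebraMap 𝒪 A o₁) := by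
        rw [map_mul, Prod.fst_mul]; ring
      rw [h]
      exact Ideal.add_mem _ (Ideal.mul_mem_left _ _ ha₂) (Ideal.mul_mem_left _ _ ha₁)
    · have h : (w₁ * w₂).2 - algebraMap 𝒪 B (o₁ * o₂) =
          w₁.2 * (w₂.2 - algebraMap 𝒪 B o₂) + algebraMap 𝒪 B o₂ * (w₁.2 - algebraMap 𝒪 B o₁) := by
        rw [map_mul, Prod.snd_mul]; ring
      rw [h]
      exact Ideal.add_mem _ (Ideal.mul_mem_left _ _ hb₂) (Ideal.mul_mem_left _ _ hb₁)

/-- An element residually equal to the scalar `o` lies in the maximal ideal iff `o` does. -/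
theorem mem_maximalIdeal_iff_of_sub (hloc : IsLocalHom (algebraMap 𝒪 A)) {a : A} {o : 𝒪}
    (h : a - algebraMap 𝒪 A o ∈ maximalIdeal A) :
    a ∈ maximalIdeal A ↔ o ∈ maximalIdeal 𝒪 := by
  have h1 : a ∈ maximalIdeal A ↔ algebraMap 𝒪 A o ∈ maximalIdeal A := by
    constructor
    · intro ha
      have := Ideal.sub_mem _ ha h
      simpa using this
    · intro ho
      have := Ideal.add_mem _ h ho
      simpa using this
  rw [h1, mem_maximalIdeal, mem_maximalIdeal, map_mem_nonunits_iff]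

/-- For elements of the pair subalgebra, the two components are simultaneously non-units. -/
theorem fst_mem_iff_snd_mem (hA : IsATA 𝒪 A) (hB : IsATA 𝒪 B) (x₀ : Γ → 𝒪) (x : Γ → A)
    (y : Γ → B) (hx : ∀ γ, x γ - algebraMap 𝒪 A (x₀ γ) ∈ maximalIdeal A)
    (hy : ∀ γ, y γ - algebraMap 𝒪 B (x₀ γ) ∈ maximalIdeal B)
    {w : A × B} (hw : w ∈ pairSub 𝒪 x y) :
    w.1 ∈ maximalIdeal A ↔ w.2 ∈ maximalIdeal B := by
  obtain ⟨o, ha, hb⟩ := exists_scalar x₀ x y hx hy hw
  rw [mem_maximalIdeal_iff_of_sub hA.isLocalHom ha, mem_maximalIdeal_iff_of_sub hB.isLocalHom hb]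

omit [IsLocalRing 𝒪] in
/-- In a finite ring, a subalgebra element that is a unit of the ambient ring is a unit of the
subalgebra. -/
theorem isUnit_of_isUnit_val {R : Type} [CommRing R] [Algebra 𝒪 R] [Finite R]
    (S : Subalgebra 𝒪 R) (w : S)
    (hw : IsUnit (w : R)) : IsUnit w := by
  obtain ⟨u, hu⟩ := hw
  have hn : 0 < Nat.card Rˣ := Nat.card_pos
  have h1 : u ^ Nat.card Rˣ = 1 := pow_card_eq_one'
  have h2 : (w : R) ^ Nat.card Rˣ = 1 := by
    rw [← hu, ← Units.val_pow_eq_pow_val, h1, Units.val_one]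
  have h3 : w * w ^ (Nat.card Rˣ - 1) = 1 := by
    apply Subtype.ext
    rw [← pow_succ', Nat.sub_add_cancel hn]
    simpa using h2
  exact IsUnit.of_mul_eq_one _ h3

end

end Fermat.Agent.S53b.PairSub

namespace Fermat.Agent.S53b

open IsLocalRing

section

variable {𝒪 : Type} [CommRing 𝒪] [IsLocalRing 𝒪]

/-- Given two test algebras generated by families `x`, `y` that are both residually equal to the
same family `x₀` of `𝒪`, the subalgebra `P ⊆ A × B` generated by the pairs `(x γ, y γ)` is a test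
algebra surjecting onto both factors. -/
theorem exists_pair_sub [Finite (ResidueField 𝒪)] {Γ : Type} {A B : Type}
    [CommRing A] [IsLocalRing A] [Algebra 𝒪 A] [CommRing B] [IsLocalRing B] [Algebra 𝒪 B]
    (hA : IsATA 𝒪 A) (hB : IsATA 𝒪 B) (x₀ : Γ → 𝒪) (x : Γ → A) (y : Γ → B)
    (hx : ∀ γ, x γ - algebraMap 𝒪 A (x₀ γ) ∈ maximalIdeal A)
    (hy : ∀ γ, y γ - algebraMap 𝒪 B (x₀ γ) ∈ maximalIdeal B)
    (hxt : Algebra.adjoin 𝒪 (Set.range x) = ⊤) (hyt : Algebra.adjoin 𝒪 (Set.range y) = ⊤) :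
    ∃ (P : Type) (_ : CommRing P) (_ : IsLocalRing P) (_ : Algebra 𝒪 P)
      (pA : P →ₐ[𝒪] A) (pB : P →ₐ[𝒪] B) (z : Γ → P),
      IsATA 𝒪 P ∧ IsLocalHom (pA : P →+* A) ∧ IsLocalHom (pB : P →+* B) ∧
      Function.Injective (fun w => (pA w, pB w)) ∧ Function.Surjective pA ∧
      Function.Surjective pB ∧ pA ∘ z = x ∧ pB ∘ z = y ∧
      Algebra.adjoin 𝒪 (Set.range z) = ⊤ ∧
      (∀ n : ℕ, maximalIdeal A ^ n = ⊥ → maximalIdeal B ^ n = ⊥ → maximalIdeal P ^ n = ⊥) := by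
  classical
  have : Finite A := hA.finite
  have : Finite B := hB.finite
  -- the subalgebra and its structure maps
  let S : Subalgebra 𝒪 (A × B) := PairSub.pairSub 𝒪 x y
  let pA : S →ₐ[𝒪] A := (AlgHom.fst 𝒪 A B).comp S.val
  let pB : S →ₐ[𝒪] B := (AlgHom.snd 𝒪 A B).comp S.val
  let z : Γ → S := fun γ => ⟨(x γ, y γ), Algebra.subset_adjoin ⟨γ, rfl⟩⟩
  have hpA : ∀ w : S, pA w = (w : A × B).1 := fun _ => rfl
  have hpB : ∀ w : S, pB w = (w : A × B).2 := fun _ => rfl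
  have : Finite S := inferInstance
  -- units of `S` are detected on either factor
  have hiff : ∀ w : S, (w : A × B).1 ∈ maximalIdeal A ↔ (w : A × B).2 ∈ maximalIdeal B :=
    fun w => PairSub.fst_mem_iff_snd_mem hA hB x₀ x y hx hy w.2
  have hunitA : ∀ w : S, IsUnit (w : A × B).1 → IsUnit w := by
    intro w hw
    apply PairSub.isUnit_of_isUnit_val
    rw [Prod.isUnit_iff]
    refine ⟨hw, ?_⟩
    by_contra hb
    have hb' : (w : A × B).2 ∈ maximalIdeal B := (mem_maximalIdeal _).2 hb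
    exact ((mem_maximalIdeal _).1 ((hiff w).2 hb')) hw
  have hunitB : ∀ w : S, IsUnit (w : A × B).2 → IsUnit w := by
    intro w hw
    apply hunitA
    by_contra ha
    have ha' : (w : A × B).1 ∈ maximalIdeal A := (mem_maximalIdeal _).2 ha
    exact ((mem_maximalIdeal _).1 ((hiff w).1 ha')) hw
  have hnonunit : ∀ w : S, w ∈ nonunits S ↔ (w : A × B).1 ∈ maximalIdeal A := by
    intro w
    rw [mem_maximalIdeal, mem_nonunits_iff, mem_nonunits_iff, not_iff_not]
    constructor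
    · intro h
      have := h.map pA
      rwa [hpA] at this
    · exact hunitA w
  -- `S` is local
  have : Nontrivial S := inferInstance
  have hlocal : IsLocalRing S := by
    apply IsLocalRing.of_nonunits_add
    intro a b ha hb
    rw [hnonunit] at ha hb ⊢
    exact Ideal.add_mem _ ha hb
  have hmemS : ∀ w : S, w ∈ maximalIdeal S ↔ (w : A × B).1 ∈ maximalIdeal A := by
    intro w
    rw [mem_maximalIdeal, hnonunit]
  have hlocA : IsLocalHom (pA : S →+* A) := ⟨fun w hw => hunitA w hw⟩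
  have hlocB : IsLocalHom (pB : S →+* B) := ⟨fun w hw => hunitB w hw⟩
  have hinj : Function.Injective (fun w : S => (pA w, pB w)) := by
    intro w₁ w₂ h
    exact Subtype.ext h
  have hsurjA : Function.Surjective pA := by
    rw [← AlgHom.range_eq_top, ← top_le_iff, ← hxt]
    apply Algebra.adjoin_le
    rintro _ ⟨γ, rfl⟩
    exact ⟨z γ, rfl⟩
  have hsurjB : Function.Surjective pB := by
    rw [← AlgHom.range_eq_top, ← top_le_iff, ← hyt]
    apply Algebra.adjoin_le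
    rintro _ ⟨γ, rfl⟩
    exact ⟨z γ, rfl⟩
  have hATA : IsATA 𝒪 S := by
    refine ⟨⟨fun o ho => ?_⟩, ?_, inferInstance⟩
    · have := hA.isLocalHom
      have h1 : IsUnit (pA (algebraMap 𝒪 S o)) := ho.map pA
      rw [AlgHom.commutes] at h1
      exact isUnit_of_map_unit (algebraMap 𝒪 A) o h1
    · intro q
      obtain ⟨w, rfl⟩ := residue_surjective q
      obtain ⟨o, ha, -⟩ := PairSub.exists_scalar x₀ x y hx hy w.2
      refine ⟨o, ?_⟩
      symm
      show residue S w = residue S (algebraMap 𝒪 S o)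
      rw [← sub_eq_zero, ← map_sub, residue_eq_zero_iff, hmemS]
      exact ha
  have hadj : Algebra.adjoin 𝒪 (Set.range z) = ⊤ := by
    have h : Set.range z =
        ((↑) : Algebra.adjoin 𝒪 (Set.range fun γ => ((x γ, y γ) : A × B)) → A × B) ⁻¹'
          (Set.range fun γ => ((x γ, y γ) : A × B)) := by
      ext w
      constructor
      · rintro ⟨γ, rfl⟩
        exact ⟨γ, rfl⟩
      · rintro ⟨γ, hγ⟩
        exact ⟨γ, Subtype.ext hγ⟩
    rw [h]
    exact Algebra.adjoin_adjoin_coe_preimage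
  have hnil : ∀ n : ℕ, maximalIdeal A ^ n = ⊥ → maximalIdeal B ^ n = ⊥ →
      maximalIdeal S ^ n = ⊥ := by
    intro n hAn hBn
    rw [eq_bot_iff]
    intro w hw
    have hleA : maximalIdeal S ≤ (maximalIdeal A).comap (pA : S →+* A) := by
      intro v hv
      exact (hmemS v).1 hv
    have hleB : maximalIdeal S ≤ (maximalIdeal B).comap (pB : S →+* B) := by
      intro v hv
      exact (hiff v).1 ((hmemS v).1 hv)
    have h1 : w ∈ (maximalIdeal A ^ n).comap (pA : S →+* A) :=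
      Ideal.le_comap_pow _ n (Ideal.pow_right_mono hleA n hw)
    have h2 : w ∈ (maximalIdeal B ^ n).comap (pB : S →+* B) :=
      Ideal.le_comap_pow _ n (Ideal.pow_right_mono hleB n hw)
    rw [hAn] at h1
    rw [hBn] at h2
    have h1' : (w : A × B).1 = 0 := h1
    have h2' : (w : A × B).2 = 0 := h2
    have : w = 0 := Subtype.ext (Prod.ext h1' h2')
    rw [this]
    exact Ideal.zero_mem _
  exact ⟨S, inferInstance, hlocal, inferInstance, pA, pB, z, hATA, hlocA, hlocB, hinj, hsurjA,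
    hsurjB, rfl, rfl, hadj, hnil⟩

end

end Fermat.Agent.S53b
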