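import Fermat.Agent.S53b.Defs
import Fermat.Agent.S53b.TestAlg
import Fermat.Agent.S53b.PairSub
import Fermat.Agent.S53b.Bound

/-!
# S53b / P4: universal tight pairs and their transition maps
-/

set_option autoImplicit false

namespace Fermat.Agent.S53b

open IsLocalRing

namespace Universal

section

variable {𝒪 : Type} [CommRing 𝒪] [IsLocalRing 𝒪]

/-- The base tight pair over the residue field, at every level `n + 1`. -/
theorem exists_base_pair {Γ : Type} {F : PointPred 𝒪 Γ} {x₀ : Γ → 𝒪}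
    (hF : IsGoodFunctor 𝒪 F x₀) (n : ℕ) : Nonempty (TightPair 𝒪 F (n + 1)) := by
  have hnil : maximalIdeal (ResidueField 𝒪) ^ (n + 1) = ⊥ := by
    rw [IsLocalRing.maximalIdeal_eq_bot]
    exact Ideal.bot_pow (Nat.succ_ne_zero n)
  have htight : Algebra.adjoin 𝒪 (Set.range fun γ => residue 𝒪 (x₀ γ)) = ⊤ := by
    rw [Algebra.eq_top_iff]
    intro a
    obtain ⟨b, rfl⟩ := IsLocalRing.residue_surjective a
    exact Subalgebra.algebraMap_mem _ b
  exact ⟨⟨ResidueField 𝒪, residueField_isATA, hnil, fun γ => residue 𝒪 (x₀ γ), hF.base, htight⟩⟩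

/-- A tight pair of maximal cardinality exists at every level `n + 1`. -/
theorem exists_max_pair [IsNoetherianRing 𝒪] [Finite (ResidueField 𝒪)] {Γ : Type}
    {F : PointPred 𝒪 Γ} {x₀ : Γ → 𝒪} (hF : IsGoodFunctor 𝒪 F x₀) (n : ℕ) :
    ∃ U : TightPair 𝒪 F (n + 1), ∀ T : TightPair 𝒪 F (n + 1), Nat.card T.A ≤ Nat.card U.A := by
  obtain ⟨N, hN⟩ := exists_card_bound hF (n + 1)
  obtain ⟨T₀⟩ := exists_base_pair hF n
  let S : Set ℕ := {c | ∃ T : TightPair 𝒪 F (n + 1), Nat.card T.A = c}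
  have hne : S.Nonempty := ⟨Nat.card T₀.A, T₀, rfl⟩
  have hbdd : BddAbove S := by
    refine ⟨N, ?_⟩
    rintro c ⟨T, rfl⟩
    exact hN T
  obtain ⟨U, hU⟩ := Nat.sSup_mem hne hbdd
  refine ⟨U, fun T => ?_⟩
  rw [hU]
  exact le_csSup hbdd ⟨T, rfl⟩

end

end Universal

section

variable {𝒪 : Type} [CommRing 𝒪] [IsLocalRing 𝒪]

/-- Universal tight pairs exist at every level `n + 1`. -/
theorem exists_universal [IsNoetherianRing 𝒪] [Finite (ResidueField 𝒪)] {Γ : Type}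
    {F : PointPred 𝒪 Γ} {x₀ : Γ → 𝒪} (hF : IsGoodFunctor 𝒪 F x₀) (n : ℕ) :
    ∃ U : TightPair 𝒪 F (n + 1), U.IsUniversal := by
  obtain ⟨U, hmax⟩ := Universal.exists_max_pair hF n
  refine ⟨U, ?_⟩
  intro A _ _ _ hA hnil x hx
  -- (i) the tight subalgebra generated by `x`
  obtain ⟨A', _, _, _, ι, x', hA', hι_inj, hι_loc, hιx, htight', hnil'⟩ := exists_tight_sub hA x
  have hx' : F A' x' := hF.descent hA' hA ι hι_loc hι_inj x' (by rw [hιx]; exact hx)
  -- (ii) the pair subalgebra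
  obtain ⟨P, _, _, _, pA, pB, z, hP, hpA_loc, hpB_loc, hinj, hpA_surj, hpB_surj, hpAz, hpBz,
    hztight, hPnil⟩ := exists_pair_sub U.isATA hA' x₀ U.x x'
      (hF.residual U.isATA U.x U.isPoint) (hF.residual hA' x' hx') U.tight htight'
  have hz : F P z := hF.pair U.isATA hA' hP pA pB hpA_loc hpB_loc hinj hpA_surj hpB_surj z
    (by rw [hpAz]; exact U.isPoint) (by rw [hpBz]; exact hx')
  -- (iii) maximality forces `pA` to be bijective
  have hcard : Nat.card P ≤ Nat.card U.A :=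
    hmax ⟨P, hP, hPnil (n + 1) U.nil (hnil' (n + 1) hnil), z, hz, hztight⟩
  have : Finite P := hP.finite
  have hbij : Function.Bijective pA := hpA_surj.bijective_of_nat_card_le hcard
  let e : P ≃ₐ[𝒪] U.A := AlgEquiv.ofBijective pA hbij
  refine ⟨ι.comp (pB.comp (e.symm : U.A →ₐ[𝒪] P)), ?_⟩
  funext γ
  have h1 : e.symm (U.x γ) = z γ := by
    rw [AlgEquiv.symm_apply_eq]
    exact (congrFun hpAz γ).symm
  show ι (pB (e.symm (U.x γ))) = x γ
  rw [h1]
  have h2 : pB (z γ) = x' γ := congrFun hpBz γ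
  rw [h2]
  exact congrFun hιx γ

/-- Transition maps between universal tight pairs: surjective with kernel `𝔪^(m+1)`. -/
theorem exists_transition [Finite (ResidueField 𝒪)] {Γ : Type}
    {F : PointPred 𝒪 Γ} {x₀ : Γ → 𝒪} (hF : IsGoodFunctor 𝒪 F x₀) {m n : ℕ} (hmn : m ≤ n)
    (U : TightPair 𝒪 F (m + 1)) (hU : U.IsUniversal)
    (U' : TightPair 𝒪 F (n + 1)) (hU' : U'.IsUniversal) :
    ∃ π : U'.A →ₐ[𝒪] U.A, π ∘ U'.x = U.x ∧ Function.Surjective π ∧
      RingHom.ker (π : U'.A →+* U.A) = maximalIdeal U'.A ^ (m + 1) := by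
  have hnil : maximalIdeal U.A ^ (n + 1) = ⊥ := by
    rw [← le_bot_iff, ← U.nil]
    exact Ideal.pow_le_pow_right (Nat.succ_le_succ hmn)
  obtain ⟨π, hπ⟩ := hU' U.A U.isATA hnil U.x U.isPoint
  have hπx : ∀ γ, π (U'.x γ) = U.x γ := fun γ => congrFun hπ γ
  -- surjectivity
  have hsurj : Function.Surjective π := by
    rw [← AlgHom.range_eq_top, ← top_le_iff, ← U.tight]
    refine Algebra.adjoin_le ?_
    rintro _ ⟨γ, rfl⟩
    exact ⟨U'.x γ, hπx γ⟩
  refine ⟨π, hπ, hsurj, ?_⟩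
  -- the quotient `Q = U'.A ⧸ 𝔪^(m+1)`
  have hne : maximalIdeal U'.A ^ (m + 1) ≠ ⊤ := by
    intro h
    have h1 : maximalIdeal U'.A ^ (m + 1) ≤ maximalIdeal U'.A :=
      Ideal.pow_le_self (Nat.succ_ne_zero m)
    rw [h, top_le_iff] at h1
    exact (IsLocalRing.maximalIdeal.isMaximal U'.A).ne_top h1
  have : IsLocalRing (U'.A ⧸ maximalIdeal U'.A ^ (m + 1)) := isLocalRing_quotient _ hne
  have hQ : IsATA 𝒪 (U'.A ⧸ maximalIdeal U'.A ^ (m + 1)) :=
    U'.isATA.of_surjective (Ideal.Quotient.mkₐ 𝒪 (maximalIdeal U'.A ^ (m + 1)))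
      (Ideal.Quotient.mkₐ_surjective 𝒪 _)
  have hQnil : maximalIdeal (U'.A ⧸ maximalIdeal U'.A ^ (m + 1)) ^ (m + 1) = ⊥ :=
    maximalIdeal_quotient_pow_eq_bot (m + 1)
  have hpoint : F (U'.A ⧸ maximalIdeal U'.A ^ (m + 1))
      (Ideal.Quotient.mkₐ 𝒪 (maximalIdeal U'.A ^ (m + 1)) ∘ U'.x) :=
    hF.baseChange U'.isATA hQ (Ideal.Quotient.mkₐ 𝒪 (maximalIdeal U'.A ^ (m + 1)))
      (isLocalHom_of_residue_surjective hQ.residue_surjective _) U'.x U'.isPoint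
  obtain ⟨ψ, hψ⟩ := hU (U'.A ⧸ maximalIdeal U'.A ^ (m + 1)) hQ hQnil _ hpoint
  have heq : ψ.comp π = Ideal.Quotient.mkₐ 𝒪 (maximalIdeal U'.A ^ (m + 1)) := by
    refine AlgHom.ext_of_adjoin_eq_top U'.tight ?_
    rintro _ ⟨γ, rfl⟩
    show ψ (π (U'.x γ)) = Ideal.Quotient.mkₐ 𝒪 (maximalIdeal U'.A ^ (m + 1)) (U'.x γ)
    rw [hπx γ]
    exact congrFun hψ γ
  have hπloc : IsLocalHom (π : U'.A →+* U.A) :=
    isLocalHom_of_residue_surjective U.isATA.residue_surjective π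
  apply le_antisymm
  · -- `ker π ≤ 𝔪^(m+1)`
    intro a ha
    have ha' : π a = 0 := ha
    have h1 : Ideal.Quotient.mkₐ 𝒪 (maximalIdeal U'.A ^ (m + 1)) a = 0 := by
      rw [← heq]
      show ψ (π a) = 0
      rw [ha', map_zero]
    exact Ideal.Quotient.eq_zero_iff_mem.mp h1
  · -- `𝔪^(m+1) ≤ ker π`
    have h1 : Ideal.map (π : U'.A →+* U.A) (maximalIdeal U'.A) ≤ maximalIdeal U.A := by
      rw [Ideal.map_le_iff_le_comap]
      intro a ha
      exact _root_.map_nonunit (π : U'.A →+* U.A) a ha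
    have h2 : Ideal.map (π : U'.A →+* U.A) (maximalIdeal U'.A ^ (m + 1)) ≤ ⊥ := by
      rw [Ideal.map_pow, ← U.nil]
      exact Ideal.pow_right_mono h1 (m + 1)
    intro a ha
    have h3 : (π : U'.A →+* U.A) a ∈ (⊥ : Ideal U.A) := h2 (Ideal.mem_map_of_mem _ ha)
    exact h3

end

end Fermat.Agent.S53b
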