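import Fermat.Agent.S53b.Defs
import Fermat.Agent.S53b.TestAlg
import Fermat.Agent.S53b.Universal
import Fermat.Agent.S53b.Tower

/-!
# S53b / P5b: abstract pro-representability
-/

set_option autoImplicit false

namespace Fermat.Agent.S53b.ProRepMain

open IsLocalRing

section

variable {𝒪 : Type} [CommRing 𝒪] [IsLocalRing 𝒪]

/-- A local ring map into a local ring of nilpotency level `n` kills `𝔪ⁿ`. -/
theorem pow_le_ker {R B : Type} [CommRing R] [IsLocalRing R] [CommRing B] [IsLocalRing B]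
    (q : R →+* B) (hq : IsLocalHom q) {n : ℕ} (hB : maximalIdeal B ^ n = ⊥) :
    maximalIdeal R ^ n ≤ RingHom.ker q := by
  have := hq
  have h1 : (maximalIdeal R).map q ≤ maximalIdeal B := IsLocalRing.map_maximalIdeal_le q
  have h2 : (maximalIdeal R ^ n).map q ≤ ⊥ := by
    rw [Ideal.map_pow, ← hB]
    exact Ideal.pow_right_mono h1 n
  intro r hr
  rw [RingHom.mem_ker]
  have h3 := h2 (Ideal.mem_map_of_mem q hr)
  simpa using h3

/-- The nilpotency level of a local ring can be raised. -/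
theorem pow_succ_eq_bot {B : Type} [CommRing B] [IsLocalRing B] {n : ℕ}
    (hn : maximalIdeal B ^ n = ⊥) : maximalIdeal B ^ (n + 1) = ⊥ := by
  rw [pow_succ, hn, Ideal.bot_mul]

/-- An algebra map from a tower limit to a local algebra with residue field `k` and nilpotency
level `n + 1` factors through the `n`-th stage of the tower. -/
theorem exists_factor {A : ℕ → Type} [∀ n, CommRing (A n)] [∀ n, IsLocalRing (A n)]
    [∀ n, Algebra 𝒪 (A n)] {π : ∀ n, A (n + 1) →ₐ[𝒪] A n} (L : TowerLimit 𝒪 A π)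
    {B : Type} [CommRing B] [IsLocalRing B] [Algebra 𝒪 B]
    (hres : Function.Surjective (residue B ∘ algebraMap 𝒪 B)) {n : ℕ}
    (hn : maximalIdeal B ^ (n + 1) = ⊥) (q : L.R →ₐ[𝒪] B) :
    ∃ qbar : A n →ₐ[𝒪] B, qbar.comp (L.p n) = q := by
  have hq : IsLocalHom (q : L.R →+* B) := isLocalHom_of_residue_surjective hres q
  have hker : RingHom.ker (L.p n).toRingHom ≤ RingHom.ker q.toRingHom := by
    have h1 : RingHom.ker (L.p n).toRingHom = maximalIdeal L.R ^ (n + 1) := L.ker_p n
    rw [h1]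
    exact pow_le_ker (q : L.R →+* B) hq hn
  exact ⟨AlgHom.liftOfSurjective (L.p n) (L.p_surjective n) q hker,
    AlgHom.liftOfSurjective_comp _ _ _ _⟩

/-- Two algebra maps from the limit of the tower of universal tight pairs to a test algebra
which agree on the universal point are equal. -/
theorem algHom_ext_of_xu {Γ : Type} {F : PointPred 𝒪 Γ} (U : ∀ n, TightPair 𝒪 F (n + 1))
    {π : ∀ n, (U (n + 1)).A →ₐ[𝒪] (U n).A} (L : TowerLimit 𝒪 (fun n => (U n).A) π)
    (xu : Γ → L.R) (hxu : ∀ n γ, L.p n (xu γ) = (U n).x γ)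
    {C : Type} [CommRing C] [IsLocalRing C] [Algebra 𝒪 C] (hC : IsATA 𝒪 C)
    (g₁ g₂ : L.R →ₐ[𝒪] C) (h : ∀ γ, g₁ (xu γ) = g₂ (xu γ)) : g₁ = g₂ := by
  obtain ⟨n, hn⟩ := hC.exists_pow_eq_bot
  have hn' : maximalIdeal C ^ (n + 1) = ⊥ := pow_succ_eq_bot hn
  obtain ⟨q₁, hq₁⟩ := exists_factor L hC.residue_surjective hn' g₁
  obtain ⟨q₂, hq₂⟩ := exists_factor L hC.residue_surjective hn' g₂
  have hq : q₁ = q₂ := by
    apply AlgHom.ext_of_adjoin_eq_top (U n).tight
    rintro _ ⟨γ, rfl⟩
    have e1 : q₁ ((U n).x γ) = g₁ (xu γ) := by rw [← hxu n γ, ← hq₁]; rfl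
    have e2 : q₂ ((U n).x γ) = g₂ (xu γ) := by rw [← hxu n γ, ← hq₂]; rfl
    rw [e1, e2, h γ]
  rw [← hq₁, ← hq₂, hq]

end

end Fermat.Agent.S53b.ProRepMain

namespace Fermat.Agent.S53b

open IsLocalRing

section

variable {𝒪 : Type} [CommRing 𝒪] [IsLocalRing 𝒪]

/-- A good functor is pro-represented by a complete noetherian local `𝒪`-algebra. -/
theorem nonempty_proRep [IsNoetherianRing 𝒪] [Finite (ResidueField 𝒪)] {Γ : Type}
    {F : PointPred 𝒪 Γ} {x₀ : Γ → 𝒪} (hF : IsGoodFunctor 𝒪 F x₀) : Nonempty (ProRep 𝒪 F) := by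
  classical
  -- Step 1: the tower of universal tight pairs and its limit
  choose U hU using fun n => exists_universal hF n
  have htr : ∀ n, ∃ π : (U (n + 1)).A →ₐ[𝒪] (U n).A, π ∘ (U (n + 1)).x = (U n).x ∧
      Function.Surjective π ∧
      RingHom.ker (π : (U (n + 1)).A →+* (U n).A) = maximalIdeal (U (n + 1)).A ^ (n + 1) :=
    fun n => exists_transition hF (Nat.le_succ n) (U n) (hU n) (U (n + 1)) (hU (n + 1))
  choose π hπx hπs hπk using htr
  obtain ⟨L⟩ := nonempty_towerLimit (fun n => (U n).A) (fun n => (U n).isATA)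
    (fun n => (U n).nil) π hπs hπk
  -- Step 2: the universal point
  have hex : ∀ γ, ∃ r : L.R, ∀ n, L.p n r = (U n).x γ := fun γ =>
    L.exists_lim (fun n => (U n).x γ) (fun n => congrFun (hπx n) γ)
  choose xu hxu using hex
  refine ⟨{ R := L.R, residue_surjective := L.residue_surjective, xu := xu,
            isPoint := ?_, universal := ?_ }⟩
  · -- Step 3: Artinian specializations of the universal point are points
    intro B _ _ _ hB q
    obtain ⟨n, hn⟩ := hB.exists_pow_eq_bot
    have hn' : maximalIdeal B ^ (n + 1) = ⊥ := ProRepMain.pow_succ_eq_bot hn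
    obtain ⟨qbar, hqbar⟩ := ProRepMain.exists_factor L hB.residue_surjective hn' q
    have hcomp : q ∘ xu = qbar ∘ (U n).x := by
      funext γ
      simp only [Function.comp_apply]
      rw [← hxu γ n, ← hqbar]
      rfl
    rw [hcomp]
    exact hF.baseChange (U n).isATA hB qbar
      (isLocalHom_of_residue_surjective hB.residue_surjective qbar) _ (U n).isPoint
  · -- Step 4: the universal property
    intro A _ _ _ _ _ _ hres xA hpt
    have hloc : ∀ n : ℕ, IsLocalRing (A ⧸ maximalIdeal A ^ (n + 1)) := fun n =>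
      isLocalRing_quotient _ (fun h => (maximalIdeal.isMaximal A).ne_top
        (top_le_iff.mp (h ▸ Ideal.pow_le_self (Nat.succ_ne_zero n))))
    have hφ : ∀ n : ℕ, ∃ φ : (U n).A →ₐ[𝒪] A ⧸ maximalIdeal A ^ (n + 1),
        φ ∘ (U n).x = Ideal.Quotient.mk (maximalIdeal A ^ (n + 1)) ∘ xA := fun n => by
      have := hloc n
      exact hU n (A ⧸ maximalIdeal A ^ (n + 1)) (isATA_quotient_pow hres (n + 1))
        (maximalIdeal_quotient_pow_eq_bot (n + 1)) _ (hpt (n + 1))
    choose φ hφx using hφ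
    let f : ∀ m : ℕ, L.R →ₐ[𝒪] A ⧸ maximalIdeal A ^ m := fun m =>
      (Ideal.Quotient.factorₐ 𝒪 (Ideal.pow_le_pow_right (Nat.le_succ m))).comp
        ((φ m).comp (L.p m))
    have hfx : ∀ m γ, f m (xu γ) = Ideal.Quotient.mk (maximalIdeal A ^ m) (xA γ) := by
      intro m γ
      show Ideal.Quotient.factorₐ 𝒪 (Ideal.pow_le_pow_right (Nat.le_succ m))
        (φ m (L.p m (xu γ))) = _
      rw [hxu γ m]
      have h1 := congrFun (hφx m) γ
      simp only [Function.comp_apply] at h1
      rw [h1]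
      rfl
    have key : ∀ (m : ℕ) (g₁ g₂ : L.R →ₐ[𝒪] A ⧸ maximalIdeal A ^ m),
        (∀ γ, g₁ (xu γ) = g₂ (xu γ)) → g₁ = g₂ := by
      intro m g₁ g₂ h
      cases m with
      | zero =>
        have : Subsingleton (A ⧸ maximalIdeal A ^ 0) :=
          Ideal.Quotient.subsingleton_iff.mpr (by simp)
        exact AlgHom.ext fun x => Subsingleton.elim _ _
      | succ m =>
        have := hloc m
        exact ProRepMain.algHom_ext_of_xu U L xu (fun n γ => hxu γ n)
          (isATA_quotient_pow hres (m + 1)) g₁ g₂ h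
    have hf : ∀ {m n : ℕ} (hle : m ≤ n),
        (Ideal.Quotient.factorₐ 𝒪 (Ideal.pow_le_pow_right hle)).comp (f n) = f m := by
      intro m n hle
      apply key
      intro γ
      rw [AlgHom.comp_apply, hfx, hfx]
      rfl
    refine ⟨IsAdicComplete.liftAlgHom (maximalIdeal A) f hf, ?_, ?_⟩
    · apply IsHausdorff.funext' (maximalIdeal A)
      intro n γ
      simp only [Function.comp_apply]
      rw [IsAdicComplete.mk_liftAlgHom, hfx]
    · intro φ' hφ'
      apply IsAdicComplete.algHom_ext (maximalIdeal A)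
      intro n
      apply key
      intro γ
      rw [AlgHom.comp_apply, AlgHom.comp_apply]
      show Ideal.Quotient.mk (maximalIdeal A ^ n) (φ' (xu γ)) =
        Ideal.Quotient.mk (maximalIdeal A ^ n)
          (IsAdicComplete.liftAlgHom (maximalIdeal A) f hf (xu γ))
      rw [IsAdicComplete.mk_liftAlgHom, hfx]
      have h1 := congrFun hφ' γ
      simp only [Function.comp_apply] at h1
      rw [h1]

end

end Fermat.Agent.S53b
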