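import Fermat.Agent.S53b.Defs

/-!
# S53b / G1: rigidification data for an absolutely irreducible residual representation
-/

set_option autoImplicit false

namespace Fermat.Agent.S53b.Rigid

open IsLocalRing
open scoped TensorProduct

section General

variable {k : Type} [Field k]

/-- Matrix form of absolute irreducibility: a subspace of `K²` (`K` the algebraic closure)
stable under all the matrices of the representation is `⊥` or `⊤`. -/
theorem stable_bot_or_top (ρbar : ResidualGaloisRep k) (habs : ρbar.IsAbsolutelyIrreducible)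
    (b : Module.Basis (Fin 2) k ρbar.V)
    (E : Submodule (AlgebraicClosure k) (Fin 2 → AlgebraicClosure k))
    (hE : ∀ (g : Gal) (w : Fin 2 → AlgebraicClosure k), w ∈ E →
      ((LinearMap.toMatrix b b (ρbar.ρ g)).map (algebraMap k (AlgebraicClosure k))).mulVec w
        ∈ E) :
    E = ⊥ ∨ E = ⊤ := by
  classical
  have key : ∀ (g : Gal) (x : AlgebraicClosure k ⊗[k] ρbar.V),
      (Algebra.TensorProduct.basis (AlgebraicClosure k) b).equivFun
          ((ρbar.ρ g).baseChange (AlgebraicClosure k) x) =
        ((LinearMap.toMatrix b b (ρbar.ρ g)).map (algebraMap k (AlgebraicClosure k))).mulVec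
          ((Algebra.TensorProduct.basis (AlgebraicClosure k) b).equivFun x) := by
    intro g x
    rw [← LinearMap.toMatrix_baseChange (AlgebraicClosure k) (ρbar.ρ g) b b]
    exact (LinearMap.toMatrix_mulVec_repr (Algebra.TensorProduct.basis (AlgebraicClosure k) b)
      (Algebra.TensorProduct.basis (AlgebraicClosure k) b)
      ((ρbar.ρ g).baseChange (AlgebraicClosure k)) x).symm
  have h := habs (E.comap ((Algebra.TensorProduct.basis (AlgebraicClosure k) b).equivFun :
      (AlgebraicClosure k ⊗[k] ρbar.V) →ₗ[AlgebraicClosure k] (Fin 2 → AlgebraicClosure k))) (by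
    intro σ x hx
    have hx' : (Algebra.TensorProduct.basis (AlgebraicClosure k) b).equivFun x ∈ E := hx
    show (Algebra.TensorProduct.basis (AlgebraicClosure k) b).equivFun
          ((ρbar.ρ σ).baseChange (AlgebraicClosure k) x) ∈ E
    rw [key]
    exact hE σ _ hx')
  rcases h with h | h
  · left
    rw [eq_bot_iff]
    intro w hw
    have hw' : (Algebra.TensorProduct.basis (AlgebraicClosure k) b).equivFun.symm w ∈
        (E.comap ((Algebra.TensorProduct.basis (AlgebraicClosure k) b).equivFun :
          (AlgebraicClosure k ⊗[k] ρbar.V) →ₗ[AlgebraicClosure k]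
            (Fin 2 → AlgebraicClosure k))) := by
      show (Algebra.TensorProduct.basis (AlgebraicClosure k) b).equivFun
        ((Algebra.TensorProduct.basis (AlgebraicClosure k) b).equivFun.symm w) ∈ E
      rw [LinearEquiv.apply_symm_apply]
      exact hw
    rw [h, Submodule.mem_bot] at hw'
    have := congrArg (Algebra.TensorProduct.basis (AlgebraicClosure k) b).equivFun hw'
    rw [LinearEquiv.apply_symm_apply, map_zero] at this
    rw [Submodule.mem_bot]
    exact this
  · right
    rw [eq_top_iff]
    intro w _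
    have hw' : (Algebra.TensorProduct.basis (AlgebraicClosure k) b).equivFun.symm w ∈
        (E.comap ((Algebra.TensorProduct.basis (AlgebraicClosure k) b).equivFun :
          (AlgebraicClosure k ⊗[k] ρbar.V) →ₗ[AlgebraicClosure k]
            (Fin 2 → AlgebraicClosure k))) := by
      rw [h]; trivial
    have hw'' : (Algebra.TensorProduct.basis (AlgebraicClosure k) b).equivFun
        ((Algebra.TensorProduct.basis (AlgebraicClosure k) b).equivFun.symm w) ∈ E := hw'
    rw [LinearEquiv.apply_symm_apply] at hw''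
    exact hw''

/-- Schur's lemma in matrix form, over the base field. -/
theorem schur (ρbar : ResidualGaloisRep k) (habs : ρbar.IsAbsolutelyIrreducible)
    (b : Module.Basis (Fin 2) k ρbar.V) (M : Matrix (Fin 2) (Fin 2) k)
    (hM : ∀ g : Gal, M * LinearMap.toMatrix b b (ρbar.ρ g) =
      LinearMap.toMatrix b b (ρbar.ρ g) * M) :
    ∃ c : k, M = Matrix.scalar (Fin 2) c := by
  classical
  obtain ⟨c, hc⟩ := Module.End.exists_eigenvalue
    (Matrix.toLin' (M.map (algebraMap k (AlgebraicClosure k))))
  have hcomm : ∀ g : Gal, M.map (algebraMap k (AlgebraicClosure k)) *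
      (LinearMap.toMatrix b b (ρbar.ρ g)).map (algebraMap k (AlgebraicClosure k)) =
      (LinearMap.toMatrix b b (ρbar.ρ g)).map (algebraMap k (AlgebraicClosure k)) *
        M.map (algebraMap k (AlgebraicClosure k)) := by
    intro g
    rw [← Matrix.map_mul, ← Matrix.map_mul, hM g]
  have hE := stable_bot_or_top ρbar habs b
    (Module.End.eigenspace (Matrix.toLin' (M.map (algebraMap k (AlgebraicClosure k)))) c) (by
      intro g w hw
      rw [Module.End.mem_eigenspace_iff, Matrix.toLin'_apply] at hw ⊢
      rw [Matrix.mulVec_mulVec, hcomm g, ← Matrix.mulVec_mulVec, hw, Matrix.mulVec_smul])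
  rcases hE with hE | hE
  · exact absurd hE hc
  · have h1 : ∀ w : Fin 2 → AlgebraicClosure k,
        (M.map (algebraMap k (AlgebraicClosure k))).mulVec w = c • w := by
      intro w
      have hw : w ∈ Module.End.eigenspace
          (Matrix.toLin' (M.map (algebraMap k (AlgebraicClosure k)))) c := by
        rw [hE]; trivial
      rw [Module.End.mem_eigenspace_iff, Matrix.toLin'_apply] at hw
      exact hw
    have h2 : ∀ i j : Fin 2, algebraMap k (AlgebraicClosure k) (M i j) =
        c * (Pi.single j (1 : AlgebraicClosure k) : Fin 2 → AlgebraicClosure k) i := by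
      intro i j
      have := congrFun (h1 (Pi.single j 1)) i
      rw [Matrix.mulVec_single_one] at this
      simpa using this
    have hinj : Function.Injective (algebraMap k (AlgebraicClosure k)) :=
      (algebraMap k (AlgebraicClosure k)).injective
    have h01 : M 0 1 = 0 := by
      apply hinj
      rw [h2 0 1, map_zero]
      simp
    have h10 : M 1 0 = 0 := by
      apply hinj
      rw [h2 1 0, map_zero]
      simp
    have h11 : M 1 1 = M 0 0 := by
      apply hinj
      rw [h2 1 1, h2 0 0]
      simp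
    refine ⟨M 0 0, ?_⟩
    ext i j
    fin_cases i <;> fin_cases j <;> simp [h01, h10, h11]

/-- There are `g0` and `v` such that `v, ρ g0 v` are linearly independent. -/
theorem exists_cyclic (ρbar : ResidualGaloisRep k) (habs : ρbar.IsAbsolutelyIrreducible) :
    ∃ (g0 : Gal) (v : ρbar.V), LinearIndependent k ![v, ρbar.ρ g0 v] := by
  classical
  by_contra hcon
  push Not at hcon
  have b : Module.Basis (Fin 2) k ρbar.V := Module.finBasisOfFinrankEq k ρbar.V ρbar.finrank_eq
  have hmul : ∀ g : Gal, LinearMap.toMatrix b b (ρbar.ρ g) 1 0 = 0 := by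
    intro g
    have h := hcon g (b 0)
    rw [LinearIndependent.pair_iff' (b.ne_zero 0)] at h
    push Not at h
    obtain ⟨a, ha⟩ := h
    rw [LinearMap.toMatrix_apply, ← ha]
    simp
  have hE := stable_bot_or_top ρbar habs b
    (LinearMap.ker (LinearMap.proj (R := AlgebraicClosure k)
      (φ := fun _ : Fin 2 => AlgebraicClosure k) 1)) (by
      intro g w hw
      rw [LinearMap.mem_ker, LinearMap.proj_apply] at hw ⊢
      rw [Matrix.mulVec, dotProduct, Fin.sum_univ_two, hw, Matrix.map_apply, hmul g]
      simp)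
  rcases hE with hE | hE
  · have h1 : (Pi.single 0 1 : Fin 2 → AlgebraicClosure k) ∈
        LinearMap.ker (LinearMap.proj (R := AlgebraicClosure k)
          (φ := fun _ : Fin 2 => AlgebraicClosure k) 1) := by
      rw [LinearMap.mem_ker, LinearMap.proj_apply]
      simp
    rw [hE, Submodule.mem_bot] at h1
    have := congrFun h1 0
    simp at this
  · have h1 : (Pi.single 1 1 : Fin 2 → AlgebraicClosure k) ∈
        LinearMap.ker (LinearMap.proj (R := AlgebraicClosure k)
          (φ := fun _ : Fin 2 => AlgebraicClosure k) 1) := by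
      rw [hE]; trivial
    rw [LinearMap.mem_ker, LinearMap.proj_apply] at h1
    simp at h1

end General

end Fermat.Agent.S53b.Rigid

namespace Fermat.Agent.S53b

open IsLocalRing

section

variable {𝒪 : Type} [CommRing 𝒪] [IsLocalRing 𝒪]

/-- An absolutely irreducible residual representation admits rigidification data. -/
theorem exists_rigidData (ρbar : ResidualGaloisRep (ResidueField 𝒪))
    (habs : ρbar.IsAbsolutelyIrreducible) :
    ∃ D : RigidData 𝒪, Nonempty (ResidualGaloisRep.Equiv D.resRep ρbar) := by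
  classical
  obtain ⟨g0, v, hli⟩ := Rigid.exists_cyclic ρbar habs
  -- the adapted basis `(v, ρ g0 v)`
  obtain ⟨b, hb0, hb1⟩ : ∃ b : Module.Basis (Fin 2) (ResidueField 𝒪) ρbar.V,
      b 0 = v ∧ b 1 = ρbar.ρ g0 v := by
    refine ⟨basisOfLinearIndependentOfCardEqFinrank hli (by simp [ρbar.finrank_eq]), ?_, ?_⟩
    · rw [coe_basisOfLinearIndependentOfCardEqFinrank]; rfl
    · rw [coe_basisOfLinearIndependentOfCardEqFinrank]; rfl
  -- the residual matrices
  obtain ⟨m, hm⟩ : ∃ m : Gal → Matrix (Fin 2) (Fin 2) (ResidueField 𝒪),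
      ∀ g, m g = LinearMap.toMatrix b b (ρbar.ρ g) := ⟨_, fun _ => rfl⟩
  have hm_one : m 1 = 1 := by
    rw [hm, map_one]
    exact LinearMap.toMatrix_one b
  have hm_mul : ∀ g g', m (g * g') = m g * m g' := by
    intro g g'
    rw [hm, hm, hm, map_mul]
    exact LinearMap.toMatrix_mul b (ρbar.ρ g) (ρbar.ρ g')
  have hm00 : m g0 0 0 = 0 := by
    rw [hm, LinearMap.toMatrix_apply, hb0, ← hb1]
    simp
  have hm10 : m g0 1 0 = 1 := by
    rw [hm, LinearMap.toMatrix_apply, hb0, ← hb1]
    simp
  have hschur : ∀ M : Matrix (Fin 2) (Fin 2) (ResidueField 𝒪),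
      (∀ g, M * m g = m g * M) → ∃ c : ResidueField 𝒪, M = Matrix.scalar (Fin 2) c := by
    intro M hM
    exact Rigid.schur ρbar habs b M (fun g => by rw [← hm]; exact hM g)
  have hlevel : ∃ L : IntermediateField ℚ (AlgebraicClosure ℚ), FiniteDimensional ℚ L ∧
      ∀ σ : Gal, (∀ x ∈ L, σ x = x) → m σ = 1 := by
    obtain ⟨L, hL, h⟩ := ρbar.factorsThroughFiniteLevel
    refine ⟨L, hL, fun σ hσ => ?_⟩
    rw [hm, h σ hσ]
    exact LinearMap.toMatrix_one b
  have hequiv : ∀ (σ : Gal) (x : Fin 2 → ResidueField 𝒪),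
      b.equivFun.symm (Matrix.toLin' (m σ) x) = ρbar.ρ σ (b.equivFun.symm x) := by
    intro σ x
    rw [hm, Matrix.toLin'_apply, LinearEquiv.symm_apply_eq]
    have h1 := LinearMap.toMatrix_mulVec_repr b b (ρbar.ρ σ) (b.equivFun.symm x)
    rw [← Module.Basis.equivFun_apply, ← Module.Basis.equivFun_apply,
      LinearEquiv.apply_symm_apply] at h1
    exact h1
  -- a non-commuting element
  obtain ⟨h0, hh0⟩ : ∃ h0, m h0 * m g0 ≠ m g0 * m h0 := by
    by_contra hcon
    push Not at hcon
    obtain ⟨c, hc⟩ := hschur (m g0) (fun g => (hcon g).symm)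
    have h1 := congrFun (congrFun hc 1) 0
    rw [hm10] at h1
    simp at h1
  obtain ⟨i0, j0, hij⟩ : ∃ i0 j0, (m h0 * m g0 - m g0 * m h0) i0 j0 ≠ 0 := by
    by_contra hcon
    push Not at hcon
    apply hh0
    have h1 : m h0 * m g0 - m g0 * m h0 = 0 := by
      ext i j
      exact hcon i j
    exact sub_eq_zero.mp h1
  -- the set-theoretic lift
  obtain ⟨lift, hlift⟩ : ∃ lift : ResidueField 𝒪 → 𝒪, ∀ c, residue 𝒪 (lift c) = c :=
    ⟨Function.surjInv (residue_surjective (R := 𝒪)), Function.surjInv_eq _⟩
  obtain ⟨ρt, hρt0, hρt⟩ : ∃ ρt : Gal → Matrix (Fin 2) (Fin 2) 𝒪,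
      (ρt g0 0 0 = 0 ∧ ρt g0 1 0 = 1) ∧ ∀ g, (ρt g).map (residue 𝒪) = m g := by
    refine ⟨fun g => if g = g0 then !![0, lift (m g0 0 1); 1, lift (m g0 1 1)]
      else (m g).map lift, ⟨by simp, by simp⟩, ?_⟩
    intro g
    by_cases hg : g = g0
    · subst hg
      ext i j
      fin_cases i <;> fin_cases j <;> simp [hlift, hm00, hm10]
    · ext i j
      simp [hg, hlift]
  refine ⟨{ ρt := ρt, g0 := g0, h0 := h0, i0 := i0, j0 := j0,
            res_one := ?_, res_mul := ?_, g0_col0 := hρt0.1, g0_col1 := hρt0.2,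
            comm_unit := ?_, schur := ?_, level := ?_ }, ⟨?_⟩⟩
  · rw [hρt, hm_one]
  · intro g g'
    rw [hρt, hρt, hρt, hm_mul]
  · rw [← residue_ne_zero_iff_isUnit]
    have h1 : (ρt h0 * ρt g0 - ρt g0 * ρt h0).map (residue 𝒪) =
        m h0 * m g0 - m g0 * m h0 := by
      rw [Matrix.map_sub (residue 𝒪) (residue 𝒪).map_sub, Matrix.map_mul, Matrix.map_mul,
        hρt, hρt]
    have h2 := congrFun (congrFun h1 i0) j0
    rw [Matrix.map_apply] at h2
    rw [h2]
    exact hij
  · intro M hM
    exact hschur M (fun g => by rw [← hρt]; exact hM g)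
  · obtain ⟨L, hL, h⟩ := hlevel
    exact ⟨L, hL, fun σ hσ => by rw [hρt]; exact h σ hσ⟩
  · refine { toLinearEquiv := b.equivFun.symm, map_apply := ?_ }
    intro σ x
    exact (congrArg (fun M : Matrix (Fin 2) (Fin 2) (ResidueField 𝒪) =>
      b.equivFun.symm (Matrix.toLin' M x)) (hρt σ)).trans (hequiv σ x)

end

end Fermat.Agent.S53b
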