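import Fermat.Agent.S53b.Defs
import Fermat.Agent.S53b.TestAlg
import Fermat.Agent.S53b.ProRepMain
import Fermat.Agent.S53b.Rigid
import Fermat.Agent.S53b.Dict1
import Fermat.Agent.S53b.Dict2
import Fermat.Agent.S53b.Rigidity
import Fermat.Agent.S53b.Normalize
import Fermat.Agent.S53b.FunctorA
import Fermat.Agent.S53b.FunctorB

/-!
# S53b / G5: final assembly — existence of the universal deformation ring
-/

set_option autoImplicit false

namespace Fermat.Agent.S53b.Main

open IsLocalRing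

/-- `repOf` only depends on the matrix-valued function (transport along an equality). -/
theorem repOf_congr {A : Type} [CommRing A] [IsLocalRing A]
    {r₁ r₂ : Gal → Matrix (Fin 2) (Fin 2) A} (h₁ : IsRepFn A r₁) (h₂ : IsRepFn A r₂)
    (h : r₁ = r₂) : (repOf A h₁).IsEquiv (repOf A h₂) := by
  subst h
  exact ⟨GaloisRepAdic.Equiv.refl _⟩

end Fermat.Agent.S53b.Main

namespace Fermat.Agent.S53b

open IsLocalRing

/-- The universal deformation ring exists (statement of S53). -/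
theorem main (𝒪 : Type) [CommRing 𝒪] [IsDomain 𝒪] [IsDiscreteValuationRing 𝒪]
    [IsAdicComplete (IsLocalRing.maximalIdeal 𝒪) 𝒪] [Finite (IsLocalRing.ResidueField 𝒪)]
    (ρbar : ResidualGaloisRep (IsLocalRing.ResidueField 𝒪))
    (𝒟 : ∀ ⦃A : Type⦄ [CommRing A] [IsLocalRing A] [Algebra 𝒪 A], GaloisRepAdic A → Prop)
    (habs : ρbar.IsAbsolutelyIrreducible)
    (h𝒟 : GaloisRep.IsDeformationCondition 𝒪 𝒟)
    (hbar : 𝒟 (GaloisRepAdic.ofResidualGaloisRep ρbar))
    (hfin : GaloisRep.TangentFinite 𝒪 ρbar 𝒟) :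
    Nonempty (GaloisRep.DeformationRingData 𝒪 ρbar 𝒟) := by
  -- Step 1: rigidification data
  obtain ⟨D, ⟨e⟩⟩ := exists_rigidData ρbar habs
  -- Step 2: the base point satisfies `𝒟`
  have hbase : 𝒟 (repOf (ResidueField 𝒪) (isNLift_base D).toIsRepFn) := by
    obtain ⟨e₁⟩ := ofResidual_isEquiv e.symm
    obtain ⟨e₂⟩ := repOf_base_isEquiv D
    exact h𝒟.of_isEquiv residueField_isATA ⟨e₁.trans e₂.symm⟩ hbar
  -- Step 3: the functor of normalized `𝒟`-lifts is pro-representable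
  have hfin' := finite_dual_points D 𝒟 ρbar e h𝒟 hfin
  have htan := tangent_bound_FD D 𝒟 h𝒟 hfin'
  have hF := isGoodFunctor_FD D 𝒟 h𝒟 hbase htan
  obtain ⟨P⟩ := nonempty_proRep hF
  -- Step 4: the universal normalized lift
  have hru : IsNLift P.R D (ofFam P.xu) := by
    refine isNLift_of_quotients D (ofFam P.xu) ?_
    intro n _
    obtain ⟨h, -⟩ := P.isPoint (P.R ⧸ maximalIdeal P.R ^ n)
      (isATA_quotient_pow P.residue_surjective n) (Ideal.Quotient.mkₐ 𝒪 _)
    exact h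
  -- Step 5: the data
  refine ⟨{ R := P.R
            residue_surjective := P.residue_surjective
            absIrr := habs
            ρ := repOf P.R hru.toIsRepFn
            isOfType := ?_
            residual_isEquiv := ?_
            universal := ?_ }⟩
  · -- isOfType
    refine (h𝒟.iff_forall_surjective (inferInstance : IsLocalHom (algebraMap 𝒪 P.R))
      P.residue_surjective _).mpr ?_
    intro B _ _ _ hB q hq _
    obtain ⟨h', hd'⟩ := P.isPoint B hB q
    obtain ⟨e₁⟩ := baseChange_isEquiv hru.toIsRepFn (q : P.R →+* B) hq h'.toIsRepFn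
    exact h𝒟.of_isEquiv hB ⟨e₁.symm⟩ hd'
  · -- residual_isEquiv
    obtain ⟨e₁⟩ := residual_isEquiv_of_isNLift D hru
    exact ⟨e₁.trans (e.baseChangeAlong _)⟩
  · -- universal
    intro A _ _ _ _ _ _ hres ρA hdA hresA
    -- (i) a normalized lift in the class of `ρA`
    obtain ⟨eA⟩ := hresA
    have hresA' : ρA.residual.IsEquiv
        (D.resRep.baseChangeAlong (ResidueField.map (algebraMap 𝒪 A))) :=
      ⟨eA.trans (e.symm.baseChangeAlong _)⟩
    obtain ⟨r, h, ⟨e₁⟩, N, hN⟩ := exists_repFn_of_residual D ρA hresA'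
    obtain ⟨r', hr', M, hM⟩ := exists_normalized D h N hN
    obtain ⟨e₂⟩ := isEquiv_of_conj h hr'.toIsRepFn M hM
    have e₃ : GaloisRepAdic.Equiv (repOf A hr'.toIsRepFn) ρA := e₂.symm.trans e₁
    -- (ii) its reductions are points of the functor
    have hpt : ∀ (n : ℕ) [IsLocalRing (A ⧸ maximalIdeal A ^ n)],
        FD D 𝒟 (A ⧸ maximalIdeal A ^ n)
          (Ideal.Quotient.mk (maximalIdeal A ^ n) ∘ toFam r') := by
      intro n _
      have hB : IsATA 𝒪 (A ⧸ maximalIdeal A ^ n) := isATA_quotient_pow hres n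
      have hq : IsLocalHom ((Ideal.Quotient.mkₐ 𝒪 (maximalIdeal A ^ n) :
          A →ₐ[𝒪] A ⧸ maximalIdeal A ^ n) : A →+* A ⧸ maximalIdeal A ^ n) :=
        isLocalHom_of_residue_surjective hB.residue_surjective _
      have hsurj : Function.Surjective (Ideal.Quotient.mkₐ 𝒪 (maximalIdeal A ^ n)) :=
        Ideal.Quotient.mkₐ_surjective 𝒪 _
      have hmap : IsNLift (A ⧸ maximalIdeal A ^ n) D
          (ofFam (Ideal.Quotient.mk (maximalIdeal A ^ n) ∘ toFam r')) :=
        hr'.map D (Ideal.Quotient.mkₐ 𝒪 (maximalIdeal A ^ n)) hq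
      refine ⟨hmap, ?_⟩
      have hd1 := (h𝒟.iff_forall_surjective (inferInstance : IsLocalHom (algebraMap 𝒪 A))
        hres ρA).mp hdA hB (Ideal.Quotient.mkₐ 𝒪 (maximalIdeal A ^ n)) hq hsurj
      obtain ⟨e₄⟩ := baseChange_isEquiv hr'.toIsRepFn
        ((Ideal.Quotient.mkₐ 𝒪 (maximalIdeal A ^ n) :
          A →ₐ[𝒪] A ⧸ maximalIdeal A ^ n) : A →+* A ⧸ maximalIdeal A ^ n) hq hmap.toIsRepFn
      exact h𝒟.of_isEquiv hB ⟨(e₃.symm.baseChangeAlong _ hq).trans e₄⟩ hd1
    -- (iii) existence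
    obtain ⟨φ, hφx, huniq⟩ := P.universal A hres (toFam r') hpt
    have hφ : IsLocalHom (φ : P.R →+* A) := isLocalHom_of_residue_surjective hres φ
    refine ⟨φ, ⟨hφ, ?_⟩, ?_⟩
    · have heq : (fun g => (ofFam P.xu g).map (φ : P.R →+* A)) = r' :=
        congrArg ofFam hφx
      have hm : IsRepFn A (fun g => (ofFam P.xu g).map (φ : P.R →+* A)) :=
        hru.toIsRepFn.map _ hφ
      obtain ⟨e₆⟩ := baseChange_isEquiv hru.toIsRepFn (φ : P.R →+* A) hφ hm
      obtain ⟨e₇⟩ := Main.repOf_congr hm hr'.toIsRepFn heq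
      exact ⟨(e₆.trans e₇).trans e₃⟩
    · -- (iv) uniqueness
      rintro φ' ⟨hφ', ⟨e'⟩⟩
      apply huniq
      have hm : IsNLift A D (fun g => (ofFam P.xu g).map φ') := hru.map D φ' hφ'
      obtain ⟨e₆⟩ := baseChange_isEquiv hru.toIsRepFn (φ' : P.R →+* A) hφ' hm.toIsRepFn
      obtain ⟨M', hM'⟩ := conj_of_isEquiv hm.toIsRepFn hr'.toIsRepFn
        ⟨(e₆.symm.trans e').trans e₃.symm⟩
      have hrig : (fun g => (ofFam P.xu g).map φ') = r' := rigidity D hres hm hr' M' hM'
      funext γ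
      exact congrFun (congrFun (congrFun hrig γ.1) γ.2.1) γ.2.2

end Fermat.Agent.S53b
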